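import Fermat.Agent.S20.CountBasic

set_option autoImplicit false

open scoped MatrixGroups
open CongruenceSubgroup ModularCurve

namespace Fermat.Agent.S20.Count

theorem dedekindPsi_mul_prime_of_dvd {N p : ℕ} (hp : p.Prime) (hN : 0 < N) (hpN : p ∣ N) :
    dedekindPsi (N * p) = p * dedekindPsi N := by
  unfold dedekindPsi
  have hset : (N * p).divisors.filter Squarefree = N.divisors.filter Squarefree := by
    ext d
    simp only [Finset.mem_filter, Nat.mem_divisors]
    constructor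
    · rintro ⟨⟨hd, -⟩, hsq⟩
      refine ⟨⟨?_, hN.ne'⟩, hsq⟩
      by_cases hpd : p ∣ d
      · obtain ⟨e, rfl⟩ := hpd
        have hpe : ¬ p ∣ e := by
          intro h
          obtain ⟨e', rfl⟩ := h
          have := hsq p ⟨e', by ring⟩
          exact hp.one_lt.ne' (Nat.isUnit_iff.mp this)
        have he : e ∣ N := by
          rw [mul_comm p e] at hd
          exact Nat.dvd_of_mul_dvd_mul_right hp.pos hd
        exact Nat.Coprime.mul_dvd_of_dvd_of_dvd ((Nat.Prime.coprime_iff_not_dvd hp).mpr hpe) hpN he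
      · exact Nat.Coprime.dvd_of_dvd_mul_right
          ((Nat.Prime.coprime_iff_not_dvd hp).mpr hpd).symm hd
    · rintro ⟨⟨hd, -⟩, hsq⟩
      exact ⟨⟨hd.mul_right p, (Nat.mul_pos hN hp.pos).ne'⟩, hsq⟩
  rw [hset, Finset.mul_sum]
  refine Finset.sum_congr rfl fun d hd => ?_
  have hdN : d ∣ N := (Nat.mem_divisors.mp (Finset.mem_filter.mp hd).1).1
  rw [Nat.mul_div_right_comm hdN, mul_comm]

theorem dedekindPsi_mul_prime_of_not_dvd {N p : ℕ} (hp : p.Prime) (hN : 0 < N) (hpN : ¬ p ∣ N) :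
    dedekindPsi (N * p) = (p + 1) * dedekindPsi N := by
  unfold dedekindPsi
  have hset : (N * p).divisors.filter Squarefree =
      N.divisors.filter Squarefree ∪ (N.divisors.filter Squarefree).image (· * p) := by
    ext d
    simp only [Finset.mem_filter, Nat.mem_divisors, Finset.mem_union, Finset.mem_image]
    constructor
    · rintro ⟨⟨hd, -⟩, hsq⟩
      by_cases hpd : p ∣ d
      · right
        obtain ⟨e, rfl⟩ := hpd
        refine ⟨e, ⟨⟨?_, hN.ne'⟩, hsq.squarefree_of_dvd (Dvd.intro_left p rfl)⟩, mul_comm _ _⟩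
        rw [mul_comm p e] at hd
        exact Nat.dvd_of_mul_dvd_mul_right hp.pos hd
      · left
        exact ⟨⟨Nat.Coprime.dvd_of_dvd_mul_right
          ((Nat.Prime.coprime_iff_not_dvd hp).mpr hpd).symm hd, hN.ne'⟩, hsq⟩
    · rintro (⟨⟨hd, -⟩, hsq⟩ | ⟨e, ⟨⟨he, -⟩, hsq⟩, rfl⟩)
      · exact ⟨⟨hd.mul_right p, (Nat.mul_pos hN hp.pos).ne'⟩, hsq⟩
      · refine ⟨⟨Nat.mul_dvd_mul_right he p, (Nat.mul_pos hN hp.pos).ne'⟩, ?_⟩
        have hpe : ¬ p ∣ e := fun h => hpN (h.trans he)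
        exact (Nat.squarefree_mul ((Nat.Prime.coprime_iff_not_dvd hp).mpr hpe).symm).mpr
          ⟨hsq, hp.prime.irreducible.squarefree⟩
  have hdisj : Disjoint (N.divisors.filter Squarefree)
      ((N.divisors.filter Squarefree).image (· * p)) := by
    rw [Finset.disjoint_left]
    intro d hd hd'
    obtain ⟨e, -, rfl⟩ := Finset.mem_image.mp hd'
    exact hpN ((Dvd.intro_left e rfl).trans (Nat.mem_divisors.mp (Finset.mem_filter.mp hd).1).1)
  rw [hset, Finset.sum_union hdisj, Finset.sum_image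
    (fun a _ b _ h => Nat.eq_of_mul_eq_mul_right hp.pos h), add_mul, one_mul, Finset.mul_sum]
  congr 1
  · refine Finset.sum_congr rfl fun d hd => ?_
    have hdN : d ∣ N := (Nat.mem_divisors.mp (Finset.mem_filter.mp hd).1).1
    rw [Nat.mul_div_right_comm hdN, mul_comm]
  · refine Finset.sum_congr rfl fun d _ => ?_
    exact Nat.mul_div_mul_right _ _ hp.pos

theorem Gamma0_mem_iff_dvd {N : ℕ} {g : SL(2, ℤ)} : g ∈ Gamma0 N ↔ (N : ℤ) ∣ g 1 0 := by
  rw [Gamma0_mem, ZMod.intCast_zmod_eq_zero_iff_dvd]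

theorem Gamma0_mul_le (N p : ℕ) : Gamma0 (N * p) ≤ Gamma0 N := by
  intro g hg
  rw [Gamma0_mem_iff_dvd] at hg ⊢
  exact (Dvd.intro _ (by push_cast; rfl)).trans hg

/-- The invariant classifying cosets of `Gamma0 (N * p)` in `Gamma0 N`. -/
noncomputable def relInv (N p : ℕ) (g : Gamma0 N) : Option (ZMod p) :=
  if (((g : SL(2, ℤ)) 0 0 : ℤ) : ZMod p) = 0 then none
  else some (((((g : SL(2, ℤ)) 1 0 / (N : ℤ) : ℤ)) : ZMod p) * (((g : SL(2, ℤ)) 0 0 : ℤ) : ZMod p)⁻¹)

theorem relInv_eq_iff {N p : ℕ} [Fact p.Prime] (hN : 0 < N) (x y : Gamma0 N) :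
    relInv N p x = relInv N p y ↔ x⁻¹ * y ∈ (Gamma0 (N * p)).subgroupOf (Gamma0 N) := by
  have hN' : (N : ℤ) ≠ 0 := by exact_mod_cast hN.ne'
  rw [Subgroup.mem_subgroupOf, Gamma0_mem_iff_dvd]
  have e : (((x⁻¹ * y : Gamma0 N) : SL(2, ℤ))) = (x : SL(2, ℤ))⁻¹ * (y : SL(2, ℤ)) := rfl
  rw [e, inv_mul_one_zero]
  obtain ⟨c, hc⟩ := Gamma0_mem_iff_dvd.mp x.2
  obtain ⟨c', hc'⟩ := Gamma0_mem_iff_dvd.mp y.2
  have hx := isCoprime_col (x : SL(2, ℤ))
  have hy := isCoprime_col (y : SL(2, ℤ))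
  unfold relInv
  rw [hc, hc', Int.mul_ediv_cancel_left _ hN', Int.mul_ediv_cancel_left _ hN']
  rw [hc] at hx
  rw [hc'] at hy
  generalize ((x : SL(2, ℤ)) 0 0 : ℤ) = a at *
  generalize ((y : SL(2, ℤ)) 0 0 : ℤ) = a' at *
  have key : ((N * p : ℕ) : ℤ) ∣ a * ((N : ℤ) * c') - (N : ℤ) * c * a' ↔
      (a : ZMod p) * (c' : ZMod p) = (c : ZMod p) * (a' : ZMod p) := by
    rw [show a * ((N : ℤ) * c') - (N : ℤ) * c * a' = (N : ℤ) * (a * c' - c * a') by ring]
    push_cast
    rw [mul_dvd_mul_iff_left hN', ← ZMod.intCast_zmod_eq_zero_iff_dvd]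
    push_cast
    exact sub_eq_zero
  rw [key]
  have nz : ∀ {a c : ℤ}, IsCoprime a ((N : ℤ) * c) → (a : ZMod p) = 0 → (c : ZMod p) ≠ 0 := by
    intro a c h h1 h2
    rw [ZMod.intCast_zmod_eq_zero_iff_dvd] at h1 h2
    have := h.isUnit_of_dvd' h1 (h2.mul_left _)
    have h3 := Int.isUnit_iff_natAbs_eq.mp this
    simp at h3
    exact (Fact.out : p.Prime).one_lt.ne' h3
  by_cases ha : (a : ZMod p) = 0
  · have hcne := nz hx ha
    by_cases ha' : (a' : ZMod p) = 0
    · simp [ha, ha']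
    · simp [ha, ha', hcne]
  · by_cases ha' : (a' : ZMod p) = 0
    · have hcne := nz hy ha'
      simp [ha, ha', hcne]
    · simp only [ha, ha', if_false, Option.some.injEq]
      rw [← div_eq_mul_inv, ← div_eq_mul_inv, div_eq_div_iff ha ha']
      constructor <;> intro h <;> linear_combination -h


theorem range_relInv_of_dvd {N p : ℕ} [Fact p.Prime] (hN : 0 < N) (hpN : p ∣ N) :
    Set.range (relInv N p) = Set.range (some : ZMod p → Option (ZMod p)) := by
  have hN' : (N : ℤ) ≠ 0 := by exact_mod_cast hN.ne'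
  ext t
  constructor
  · rintro ⟨g, rfl⟩
    unfold relInv
    have ha : (((g : SL(2, ℤ)) 0 0 : ℤ) : ZMod p) ≠ 0 := by
      intro h1
      rw [ZMod.intCast_zmod_eq_zero_iff_dvd] at h1
      have h2 : (p : ℤ) ∣ (g : SL(2, ℤ)) 1 0 :=
        (Int.natCast_dvd_natCast.mpr hpN).trans (Gamma0_mem_iff_dvd.mp g.2)
      have := (isCoprime_col (g : SL(2, ℤ))).isUnit_of_dvd' h1 h2
      have h3 := Int.isUnit_iff_natAbs_eq.mp this
      simp at h3
      exact (Fact.out : p.Prime).one_lt.ne' h3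
    rw [if_neg ha]
    exact ⟨_, rfl⟩
  · rintro ⟨t, rfl⟩
    refine ⟨⟨ofCol 1 ((N : ℤ) * (t.val : ℤ)) 1 0 (by ring), ?_⟩, ?_⟩
    · rw [Gamma0_mem_iff_dvd, ofCol_one_zero]; exact Dvd.intro _ rfl
    · unfold relInv
      simp only [ofCol_zero_zero, ofCol_one_zero]
      rw [Int.mul_ediv_cancel_left _ hN']
      simp

theorem range_relInv_of_not_dvd {N p : ℕ} [Fact p.Prime] (hN : 0 < N) (hpN : ¬ p ∣ N) :
    Set.range (relInv N p) = Set.univ := by
  have hN' : (N : ℤ) ≠ 0 := by exact_mod_cast hN.ne'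
  rw [Set.eq_univ_iff_forall]
  rintro (_ | t)
  · have hco : IsCoprime (p : ℤ) (N : ℤ) :=
      Nat.isCoprime_iff_coprime.mpr ((Nat.Prime.coprime_iff_not_dvd Fact.out).mpr hpN)
    obtain ⟨g, hg0, hg1⟩ := exists_col hco
    refine ⟨⟨g, by rw [Gamma0_mem_iff_dvd, hg1]⟩, ?_⟩
    unfold relInv
    simp [hg0]
  · refine ⟨⟨ofCol 1 ((N : ℤ) * (t.val : ℤ)) 1 0 (by ring), ?_⟩, ?_⟩
    · rw [Gamma0_mem_iff_dvd, ofCol_one_zero]; exact Dvd.intro _ rfl
    · unfold relInv
      simp only [ofCol_zero_zero, ofCol_one_zero]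
      rw [Int.mul_ediv_cancel_left _ hN']
      simp

theorem relIndex_Gamma0_mul_prime {N p : ℕ} (hp : p.Prime) (hN : 0 < N) :
    (Gamma0 (N * p)).relIndex (Gamma0 N) = if p ∣ N then p else p + 1 := by
  have : Fact p.Prime := ⟨hp⟩
  rw [Subgroup.relIndex, Subgroup.index_eq_card,
    card_quotient_eq_card_range _ (relInv N p) (relInv_eq_iff hN)]
  split_ifs with hpN
  · rw [range_relInv_of_dvd hN hpN, Nat.card_range_of_injective (Option.some_injective _),
      Nat.card_zmod]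
  · rw [range_relInv_of_not_dvd hN hpN, Nat.card_univ, Nat.card_eq_fintype_card,
      Fintype.card_option, ZMod.card]

theorem index_Gamma0_mul_prime {N p : ℕ} (hp : p.Prime) (hN : 0 < N) :
    (Gamma0 (N * p)).index = (if p ∣ N then p else p + 1) * (Gamma0 N).index := by
  rw [← relIndex_Gamma0_mul_prime hp hN, Subgroup.relIndex_mul_index (Gamma0_mul_le N p)]

theorem dedekindPsi_mul_prime {N p : ℕ} (hp : p.Prime) (hN : 0 < N) :
    dedekindPsi (N * p) = (if p ∣ N then p else p + 1) * dedekindPsi N := by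
  split_ifs with h
  · exact dedekindPsi_mul_prime_of_dvd hp hN h
  · exact dedekindPsi_mul_prime_of_not_dvd hp hN h

theorem index_Gamma0 (N : ℕ) (hN : 0 < N) : (Gamma0 N).index = dedekindPsi N := by
  induction N using Nat.strong_induction_on with
  | _ N ih =>
    rcases Nat.lt_or_ge 1 N with h1 | h1
    · have hp : (N.minFac).Prime := Nat.minFac_prime h1.ne'
      obtain ⟨M, hM⟩ := Nat.minFac_dvd N
      have hM0 : 0 < M := by
        rcases Nat.eq_zero_or_pos M with h | h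
        · rw [h, mul_zero] at hM; omega
        · exact h
      have hMN : M < N := by
        calc M = 1 * M := (one_mul M).symm
          _ < N.minFac * M := Nat.mul_lt_mul_of_pos_right hp.one_lt hM0
          _ = N := hM.symm
      have e : N = M * N.minFac := by rw [mul_comm]; exact hM
      generalize N.minFac = p at *
      subst e
      rw [index_Gamma0_mul_prime hp hM0, dedekindPsi_mul_prime hp hM0, ih M hMN hM0]
    · have : N = 1 := by omega
      subst this
      have htop : Gamma0 1 = ⊤ := by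
        ext g
        simp only [Gamma0_mem, Subgroup.mem_top, iff_true]
        exact Subsingleton.elim _ _
      rw [htop, Subgroup.index_top, dedekindPsi_one]

end Fermat.Agent.S20.Count

namespace Fermat.Agent.S20

theorem card_quotient_Gamma0 (N : ℕ) [NeZero N] :
    Nat.card (SL(2, ℤ) ⧸ Gamma0 N) = dedekindPsi N := by
  rw [← Subgroup.index_eq_card]
  exact Count.index_Gamma0 N (Nat.pos_of_ne_zero (NeZero.ne N))

end Fermat.Agent.S20
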