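import Fermat.Agent.S20.CountBasic

set_option autoImplicit false

open scoped MatrixGroups
open CongruenceSubgroup ModularCurve

namespace Fermat.Agent.S20.Count

theorem exists_dvd_add_mul_iff (x y : ℤ) (N : ℕ) :
    (∃ n : ℤ, (N : ℤ) ∣ x + n * y) ↔ ((Int.gcd y N : ℕ) : ℤ) ∣ x := by
  constructor
  · rintro ⟨n, hn⟩
    have h1 : ((Int.gcd y N : ℕ) : ℤ) ∣ (N : ℤ) := Int.gcd_dvd_right ..
    have h2 : ((Int.gcd y N : ℕ) : ℤ) ∣ y := Int.gcd_dvd_left ..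
    exact (dvd_add_left (h2.mul_left n)).mp (h1.trans hn)
  · rintro ⟨t, ht⟩
    have hb := Int.gcd_eq_gcd_ab y N
    refine ⟨-(Int.gcdA y N) * t, Int.gcdB y N * t, ?_⟩
    rw [ht, hb]; ring

theorem gcd_mul_eq {c c' : ℤ} {N δ : ℕ} (hN : 0 < N) (h : Int.gcd c N = δ)
    (h' : Int.gcd c' N = δ) :
    Int.gcd (c * c') N = δ * Nat.gcd δ (N / δ) := by
  have hδ : 0 < δ := by
    rw [← h]; exact Int.gcd_pos_of_ne_zero_right _ (by exact_mod_cast hN.ne')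
  have e1 : Nat.gcd c.natAbs N = δ := by simpa [Int.gcd] using h
  have e2 : Nat.gcd c'.natAbs N = δ := by simpa [Int.gcd] using h'
  have c1 : Nat.Coprime (c.natAbs / δ) (N / δ) := by
    have := Nat.coprime_div_gcd_div_gcd (m := c.natAbs) (n := N) (by rw [e1]; exact hδ)
    rwa [e1] at this
  have c2 : Nat.Coprime (c'.natAbs / δ) (N / δ) := by
    have := Nat.coprime_div_gcd_div_gcd (m := c'.natAbs) (n := N) (by rw [e2]; exact hδ)
    rwa [e2] at this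
  have d1 : δ ∣ c.natAbs := e1 ▸ Nat.gcd_dvd_left _ _
  have d2 : δ ∣ c'.natAbs := e2 ▸ Nat.gcd_dvd_left _ _
  have d3 : δ ∣ N := e1 ▸ Nat.gcd_dvd_right _ _
  obtain ⟨W, hW⟩ := d1
  obtain ⟨W', hW'⟩ := d2
  obtain ⟨M, hM⟩ := d3
  rw [hW, Nat.mul_div_cancel_left _ hδ, hM, Nat.mul_div_cancel_left _ hδ] at c1
  rw [hW', Nat.mul_div_cancel_left _ hδ, hM, Nat.mul_div_cancel_left _ hδ] at c2
  show Nat.gcd (c * c').natAbs (N : ℤ).natAbs = _
  rw [Int.natAbs_mul, Int.natAbs_natCast, hW, hW', hM, Nat.mul_div_cancel_left _ hδ,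
    show δ * W * (δ * W') = δ * (δ * W * W') by ring, Nat.gcd_mul_left,
    Nat.Coprime.gcd_mul_right_cancel _ c2, Nat.Coprime.gcd_mul_right_cancel _ c1]

theorem gcd_dvd_gcd_of {a c a' c' : ℤ} {N : ℕ} (h : IsCoprime a c)
    (hD : ((Int.gcd (c * c') N : ℕ) : ℤ) ∣ a * c' - a' * c) :
    Int.gcd c N ∣ Int.gcd c' N := by
  have h1 : ((Int.gcd c N : ℕ) : ℤ) ∣ c := Int.gcd_dvd_left ..
  have h2 : ((Int.gcd c N : ℕ) : ℤ) ∣ (N : ℤ) := Int.gcd_dvd_right ..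
  have h3 : ((Int.gcd c N : ℕ) : ℤ) ∣ ((Int.gcd (c * c') N : ℕ) : ℤ) :=
    Int.dvd_coe_gcd (h1.mul_right c') h2
  have h4 : ((Int.gcd c N : ℕ) : ℤ) ∣ a * c' :=
    (dvd_sub_left (h1.mul_left a')).mp (h3.trans hD)
  have h5 : IsCoprime ((Int.gcd c N : ℕ) : ℤ) a := (h.symm.of_isCoprime_of_dvd_left h1)
  have h6 : ((Int.gcd c N : ℕ) : ℤ) ∣ c' := h5.dvd_of_dvd_mul_left h4
  exact Int.natCast_dvd_natCast.mp (Int.dvd_coe_gcd h6 h2)

theorem same_iff_aux {a c a' c' : ℤ} {N δ : ℕ} (hN : 0 < N) (hc : Int.gcd c N = δ)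
    (hc' : Int.gcd c' N = δ) :
    ((Int.gcd (c * c') N : ℕ) : ℤ) ∣ a * c' - a' * c ↔
      ((Nat.gcd δ (N / δ) : ℕ) : ℤ) ∣ a * (c' / (δ : ℤ)) - a' * (c / (δ : ℤ)) := by
  have hδ : (δ : ℤ) ≠ 0 := by
    have : 0 < δ := hc ▸ Int.gcd_pos_of_ne_zero_right _ (by exact_mod_cast hN.ne')
    exact_mod_cast this.ne'
  rw [gcd_mul_eq hN hc hc']
  have h1 : (δ : ℤ) ∣ c := hc ▸ Int.gcd_dvd_left ..
  have h2 : (δ : ℤ) ∣ c' := hc' ▸ Int.gcd_dvd_left ..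
  obtain ⟨w, rfl⟩ := h1
  obtain ⟨w', rfl⟩ := h2
  rw [Int.mul_ediv_cancel_left _ hδ, Int.mul_ediv_cancel_left _ hδ,
    show a * ((δ : ℤ) * w') - a' * ((δ : ℤ) * w) = (δ : ℤ) * (a * w' - a' * w) by ring]
  push_cast
  exact mul_dvd_mul_iff_left hδ

theorem same_iff {a c a' c' : ℤ} {N : ℕ} (hN : 0 < N) (h : IsCoprime a c) (h' : IsCoprime a' c') :
    ((Int.gcd (c * c') N : ℕ) : ℤ) ∣ a * c' - a' * c ↔
      Int.gcd c N = Int.gcd c' N ∧
        ((Nat.gcd (Int.gcd c N) (N / Int.gcd c N) : ℕ) : ℤ) ∣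
          a * (c' / (Int.gcd c N : ℤ)) - a' * (c / (Int.gcd c N : ℤ)) := by
  constructor
  · intro hD
    have he : Int.gcd c N = Int.gcd c' N := by
      apply Nat.dvd_antisymm (gcd_dvd_gcd_of h hD)
      apply gcd_dvd_gcd_of h' (a' := a)
      rw [mul_comm c' c, show a' * c - a * c' = -(a * c' - a' * c) by ring]
      exact (Int.dvd_neg).mpr hD
    exact ⟨he, (same_iff_aux hN rfl he.symm).mp hD⟩
  · rintro ⟨he, hg⟩
    exact (same_iff_aux hN rfl he.symm).mpr hg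

theorem val_mul_inv_eq_iff {n : ℕ} [NeZero n] {a w a' w' : ℤ} (hw : IsUnit (w : ZMod n))
    (hw' : IsUnit (w' : ZMod n)) :
    ((a : ZMod n) * (w : ZMod n)⁻¹).val = ((a' : ZMod n) * (w' : ZMod n)⁻¹).val ↔
      (n : ℤ) ∣ a * w' - a' * w := by
  rw [(ZMod.val_injective n).eq_iff, ← ZMod.intCast_zmod_eq_zero_iff_dvd]
  push_cast
  have e1 := ZMod.mul_inv_of_unit _ hw
  have e2 := ZMod.mul_inv_of_unit _ hw'
  constructor
  · intro h
    have : (a : ZMod n) * w' - a' * w =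
        ((a : ZMod n) * (w : ZMod n)⁻¹ - (a' : ZMod n) * (w' : ZMod n)⁻¹) * (w * w')
          + a * w' * (1 - (w : ZMod n) * (w : ZMod n)⁻¹)
          - a' * w * (1 - (w' : ZMod n) * (w' : ZMod n)⁻¹) := by ring
    rw [this, h, e1, e2]; ring
  · intro h
    have : (a : ZMod n) * (w : ZMod n)⁻¹ - (a' : ZMod n) * (w' : ZMod n)⁻¹ =
        ((a : ZMod n) * w' - a' * w) * ((w : ZMod n)⁻¹ * (w' : ZMod n)⁻¹)
          + a * (w : ZMod n)⁻¹ * (1 - (w' : ZMod n) * (w' : ZMod n)⁻¹)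
          - a' * (w' : ZMod n)⁻¹ * (1 - (w : ZMod n) * (w : ZMod n)⁻¹) := by ring
    rw [← sub_eq_zero, this, h, e1, e2]; ring

theorem isUnit_div_gcd {c : ℤ} {N : ℕ} (hN : 0 < N) :
    IsUnit (((c / (Int.gcd c N : ℤ) : ℤ)) : ZMod (Nat.gcd (Int.gcd c N) (N / Int.gcd c N))) := by
  rw [ZMod.coe_int_isUnit_iff_isCoprime]
  have hpos : 0 < Int.gcd c N := Int.gcd_pos_of_ne_zero_right _ (by exact_mod_cast hN.ne')
  have h1 : Int.gcd (c / (Int.gcd c N : ℤ)) ((N : ℤ) / (Int.gcd c N : ℤ)) = 1 :=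
    Int.gcd_div_gcd_div_gcd hpos
  have h2 : IsCoprime (c / (Int.gcd c N : ℤ)) ((N : ℤ) / (Int.gcd c N : ℤ)) :=
    Int.isCoprime_iff_gcd_eq_one.mpr h1
  have h3 : ((Nat.gcd (Int.gcd c N) (N / Int.gcd c N) : ℕ) : ℤ) ∣ (N : ℤ) / (Int.gcd c N : ℤ) := by
    rw [← Int.natCast_div]
    exact Int.natCast_dvd_natCast.mpr (Nat.gcd_dvd_right _ _)
  exact (h2.of_isCoprime_of_dvd_right h3).symm

theorem isUnit_of_col {a c : ℤ} {N : ℕ} (h : IsCoprime a c) :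
    IsUnit ((a : ℤ) : ZMod (Nat.gcd (Int.gcd c N) (N / Int.gcd c N))) := by
  rw [ZMod.coe_int_isUnit_iff_isCoprime]
  have h3 : ((Nat.gcd (Int.gcd c N) (N / Int.gcd c N) : ℕ) : ℤ) ∣ c :=
    (Int.natCast_dvd_natCast.mpr (Nat.gcd_dvd_left _ _)).trans (Int.gcd_dvd_left ..)
  exact (h.of_isCoprime_of_dvd_right h3).symm

/-- The cusp invariant of a matrix: `(δ, a * (c / δ)⁻¹ mod gcd (δ, N / δ))`, `δ = gcd (c, N)`. -/
noncomputable def cuspInv (N : ℕ) (g : SL(2, ℤ)) : Σ _ : ℕ, ℕ :=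
  ⟨Int.gcd (g 1 0) N,
    (((g 0 0 : ℤ) : ZMod (Nat.gcd (Int.gcd (g 1 0) N) (N / Int.gcd (g 1 0) N))) *
      (((g 1 0 / (Int.gcd (g 1 0) N : ℤ) : ℤ)) :
        ZMod (Nat.gcd (Int.gcd (g 1 0) N) (N / Int.gcd (g 1 0) N)))⁻¹).val⟩

/-- The finite set of possible cusp invariants. -/
def cuspSet (N : ℕ) : Finset (Σ _ : ℕ, ℕ) :=
  N.divisors.sigma fun d => (Finset.range (Nat.gcd d (N / d))).filter (Nat.gcd d (N / d)).Coprime

theorem card_cuspSet (N : ℕ) : (cuspSet N).card = cuspCount N := by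
  rw [cuspSet, Finset.card_sigma, cuspCount]
  rfl

theorem cuspInv_eq_iff {N : ℕ} (hN : 0 < N) (g h : SL(2, ℤ)) :
    cuspInv N g = cuspInv N h ↔
      ((Int.gcd (g 1 0 * h 1 0) N : ℕ) : ℤ) ∣ g 0 0 * h 1 0 - h 0 0 * g 1 0 := by
  rw [same_iff hN (isCoprime_col g) (isCoprime_col h), cuspInv, cuspInv, Sigma.mk.injEq]
  refine and_congr_right fun he => ?_
  rw [← he, heq_eq_eq]
  have hpos : 0 < Int.gcd (g 1 0) N := Int.gcd_pos_of_ne_zero_right _ (by exact_mod_cast hN.ne')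
  have : NeZero (Nat.gcd (Int.gcd (g 1 0) N) (N / Int.gcd (g 1 0) N)) :=
    ⟨(Nat.gcd_pos_of_pos_left _ hpos).ne'⟩
  refine val_mul_inv_eq_iff (isUnit_div_gcd hN) ?_
  have := isUnit_div_gcd (c := h 1 0) hN
  rwa [← he] at this

theorem orbitRel_iff {N : ℕ} (hN : 0 < N) (g h : SL(2, ℤ)) :
    MulAction.orbitRel (Subgroup.zpowers ModularGroup.T) (SL(2, ℤ) ⧸ Gamma0 N)
      (g : SL(2, ℤ) ⧸ Gamma0 N) (h : SL(2, ℤ) ⧸ Gamma0 N) ↔ cuspInv N g = cuspInv N h := by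
  rw [MulAction.orbitRel_apply, MulAction.mem_orbit_iff, eq_comm, cuspInv_eq_iff hN,
    ← exists_dvd_add_mul_iff]
  constructor
  · rintro ⟨⟨t, n, rfl⟩, hn⟩
    refine ⟨n, ?_⟩
    have h1 : ((ModularGroup.T ^ n * h : SL(2, ℤ)) : SL(2, ℤ) ⧸ Gamma0 N) = g := hn
    rw [mk_eq_mk_iff, T_zpow_mul_zero_zero, T_zpow_mul_one_zero] at h1
    convert h1 using 1; ring
  · rintro ⟨n, hn⟩
    refine ⟨⟨ModularGroup.T ^ n, n, rfl⟩, ?_⟩
    show ((ModularGroup.T ^ n * h : SL(2, ℤ)) : SL(2, ℤ) ⧸ Gamma0 N) = g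
    rw [mk_eq_mk_iff, T_zpow_mul_zero_zero, T_zpow_mul_one_zero]
    convert hn using 1; ring


theorem cuspInv_eq_of {N δ : ℕ} {g : SL(2, ℤ)} (hδ : Int.gcd (g 1 0) N = δ) :
    cuspInv N g = ⟨δ, (((g 0 0 : ℤ) : ZMod (Nat.gcd δ (N / δ))) *
      (((g 1 0 / (δ : ℤ) : ℤ)) : ZMod (Nat.gcd δ (N / δ)))⁻¹).val⟩ := by
  subst hδ; rfl

theorem cuspInv_mem {N : ℕ} (hN : 0 < N) (g : SL(2, ℤ)) : cuspInv N g ∈ cuspSet N := by
  have hpos : 0 < Int.gcd (g 1 0) N := Int.gcd_pos_of_ne_zero_right _ (by exact_mod_cast hN.ne')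
  have : NeZero (Nat.gcd (Int.gcd (g 1 0) N) (N / Int.gcd (g 1 0) N)) :=
    ⟨(Nat.gcd_pos_of_pos_left _ hpos).ne'⟩
  rw [cuspSet, cuspInv, Finset.mem_sigma, Finset.mem_filter, Finset.mem_range, Nat.mem_divisors]
  refine ⟨⟨Int.natCast_dvd_natCast.mp (Int.gcd_dvd_right ..), hN.ne'⟩, ZMod.val_lt _, ?_⟩
  apply Nat.Coprime.symm
  rw [← ZMod.isUnit_iff_coprime, ZMod.natCast_zmod_val]
  exact (isUnit_of_col (isCoprime_col g)).mul (ZMod.isUnit_inv (isUnit_div_gcd hN))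

theorem exists_cuspInv_eq {N : ℕ} (hN : 0 < N) {x : Σ _ : ℕ, ℕ} (hx : x ∈ cuspSet N) :
    ∃ g : SL(2, ℤ), cuspInv N g = x := by
  obtain ⟨d, r⟩ := x
  rw [cuspSet, Finset.mem_sigma, Finset.mem_filter, Finset.mem_range, Nat.mem_divisors] at hx
  obtain ⟨⟨hdN, -⟩, hr, hcop⟩ := hx
  simp only at hdN hr hcop
  have hd : 0 < d := Nat.pos_of_dvd_of_pos hdN hN
  have : NeZero d := ⟨hd.ne'⟩
  have : NeZero (Nat.gcd d (N / d)) := ⟨(Nat.gcd_pos_of_pos_left _ hd).ne'⟩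
  obtain ⟨u, hu⟩ := ZMod.unitsMap_surjective (Nat.gcd_dvd_left d (N / d))
    (ZMod.unitOfCoprime r hcop.symm)
  have hu' : ((u : ZMod d).cast : ZMod (Nat.gcd d (N / d))) = (r : ZMod (Nat.gcd d (N / d))) := by
    rw [← ZMod.unitsMap_val (Nat.gcd_dvd_left d (N / d)), hu, ZMod.coe_unitOfCoprime]
  have hco : IsCoprime (((u : ZMod d).val : ℕ) : ℤ) (d : ℤ) :=
    Nat.isCoprime_iff_coprime.mpr (ZMod.val_coe_unit_coprime u)
  obtain ⟨g, hg0, hg1⟩ := exists_col hco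
  refine ⟨g, ?_⟩
  have hδ : Int.gcd (g 1 0) N = d := by
    rw [hg1, Int.gcd_natCast_natCast, Nat.gcd_eq_left hdN]
  rw [cuspInv_eq_of hδ, hg0, hg1, Int.ediv_self (by exact_mod_cast hd.ne')]
  congr 1
  rw [Int.cast_one, ZMod.inv_one, mul_one, Int.cast_natCast, ZMod.natCast_val, hu',
    ZMod.val_natCast_of_lt hr]

theorem range_cuspInv {N : ℕ} (hN : 0 < N) : Set.range (cuspInv N) = ↑(cuspSet N) := by
  ext x
  constructor
  · rintro ⟨g, rfl⟩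
    exact cuspInv_mem hN g
  · intro hx
    exact exists_cuspInv_eq hN hx

/-- Counting a quotient of a quotient by a complete invariant. -/
theorem card_quotient_of_invariant {α β γ : Type*} (s : Setoid β) (π : α → β)
    (hπ : Function.Surjective π) (f : α → γ) (hf : ∀ x y, s (π x) (π y) ↔ f x = f y) :
    Nat.card (Quotient s) = Nat.card (Set.range f) := by
  let F : Quotient s → Set.range f :=
    Quotient.lift (fun b => (⟨f (Function.surjInv hπ b), _, rfl⟩ : Set.range f)) (by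
      intro a b hab
      apply Subtype.ext
      apply (hf _ _).mp
      rw [Function.surjInv_eq hπ, Function.surjInv_eq hπ]
      exact hab)
  refine Nat.card_eq_of_bijective F ⟨?_, ?_⟩
  · intro x y
    induction x using Quotient.inductionOn with | _ x => ?_
    induction y using Quotient.inductionOn with | _ y => ?_
    intro hxy
    have h1 : f (Function.surjInv hπ x) = f (Function.surjInv hπ y) := congrArg Subtype.val hxy
    have h2 := (hf _ _).mpr h1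
    rw [Function.surjInv_eq hπ, Function.surjInv_eq hπ] at h2
    exact Quotient.sound h2
  · rintro ⟨_, x, rfl⟩
    refine ⟨Quotient.mk s (π x), ?_⟩
    apply Subtype.ext
    show f (Function.surjInv hπ (π x)) = f x
    apply (hf _ _).mp
    rw [Function.surjInv_eq hπ]

end Fermat.Agent.S20.Count

namespace Fermat.Agent.S20

open Fermat.Agent.S20.Count

theorem card_orbits_T (N : ℕ) [NeZero N] :
    Nat.card (MulAction.orbitRel.Quotient (Subgroup.zpowers ModularGroup.T)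
      (SL(2, ℤ) ⧸ Gamma0 N)) = cuspCount N := by
  have hN : 0 < N := Nat.pos_of_ne_zero (NeZero.ne N)
  rw [← card_cuspSet]
  have := card_quotient_of_invariant
    (MulAction.orbitRel (Subgroup.zpowers ModularGroup.T) (SL(2, ℤ) ⧸ Gamma0 N))
    (fun g : SL(2, ℤ) => (g : SL(2, ℤ) ⧸ Gamma0 N)) QuotientGroup.mk_surjective (cuspInv N)
    (fun g h => orbitRel_iff hN g h)
  rw [range_cuspInv hN] at this
  rw [MulAction.orbitRel.Quotient, this]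
  simp

end Fermat.Agent.S20
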