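import Fermat.Agent.S20.CountBasic

set_option autoImplicit false

open scoped MatrixGroups
open CongruenceSubgroup ModularCurve

namespace Fermat.Agent.S20.Count

variable {N : ℕ}

theorem mem_fixedBy_S_iff (g : SL(2, ℤ)) :
    (g : SL(2, ℤ) ⧸ Gamma0 N) ∈ MulAction.fixedBy (SL(2, ℤ) ⧸ Gamma0 N) ModularGroup.S ↔
      (N : ℤ) ∣ g 0 0 ^ 2 + g 1 0 ^ 2 := by
  rw [MulAction.mem_fixedBy, MulAction.Quotient.smul_coe, smul_eq_mul, eq_comm, mk_eq_mk_iff,
    S_mul_zero_zero, S_mul_one_zero]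
  constructor <;> intro h <;> convert h using 1 <;> ring

theorem mem_fixedBy_ST_iff (g : SL(2, ℤ)) :
    (g : SL(2, ℤ) ⧸ Gamma0 N) ∈
        MulAction.fixedBy (SL(2, ℤ) ⧸ Gamma0 N) (ModularGroup.S * ModularGroup.T) ↔
      (N : ℤ) ∣ g 0 0 ^ 2 + g 0 0 * g 1 0 + g 1 0 ^ 2 := by
  rw [MulAction.mem_fixedBy, MulAction.Quotient.smul_coe, smul_eq_mul, eq_comm, mk_eq_mk_iff,
    mul_assoc, S_mul_zero_zero, S_mul_one_zero, T_mul_zero_zero, T_mul_one_zero]
  constructor <;> intro h <;> convert h using 1 <;> ring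

/-- The matrix `[[x, -1], [1, 0]]`. -/
def colOne (x : ℤ) : SL(2, ℤ) := ofCol x 1 0 1 (by ring)

@[simp] theorem colOne_zero_zero (x : ℤ) : colOne x 0 0 = x := rfl
@[simp] theorem colOne_one_zero (x : ℤ) : colOne x 1 0 = 1 := rfl

end Fermat.Agent.S20.Count

namespace Fermat.Agent.S20

open Fermat.Agent.S20.Count

theorem card_fixedBy_S (N : ℕ) [NeZero N] :
    Nat.card (MulAction.fixedBy (SL(2, ℤ) ⧸ Gamma0 N) ModularGroup.S) = nuTwo N := by
  unfold nuTwo
  symm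
  let F : {x : ZMod N // x ^ 2 + 1 = 0} →
      MulAction.fixedBy (SL(2, ℤ) ⧸ Gamma0 N) ModularGroup.S := fun x =>
    ⟨(colOne (x.1.val : ℤ) : SL(2, ℤ) ⧸ Gamma0 N), by
      rw [mem_fixedBy_S_iff, ← ZMod.intCast_zmod_eq_zero_iff_dvd]
      simpa using x.2⟩
  refine Nat.card_eq_of_bijective F ⟨?_, ?_⟩
  · intro x y hxy
    have h1 := congrArg Subtype.val hxy
    simp only [F] at h1
    rw [mk_eq_mk_iff, ← ZMod.intCast_zmod_eq_zero_iff_dvd] at h1
    simp at h1
    exact Subtype.ext (sub_eq_zero.mp h1)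
  · rintro ⟨q, hq⟩
    induction q using QuotientGroup.induction_on with | _ g => ?_
    rw [mem_fixedBy_S_iff, ← ZMod.intCast_zmod_eq_zero_iff_dvd] at hq
    push_cast at hq
    have hdet : ((g 0 0 : ℤ) : ZMod N) * (g 1 1 : ℤ) - (g 0 1 : ℤ) * (g 1 0 : ℤ) = 1 := by
      have := g.det_coe
      rw [Matrix.det_fin_two] at this
      exact_mod_cast congrArg (Int.cast : ℤ → ZMod N) this
    set a : ZMod N := ((g 0 0 : ℤ) : ZMod N) with ha
    set b : ZMod N := ((g 0 1 : ℤ) : ZMod N) with hb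
    set c : ZMod N := ((g 1 0 : ℤ) : ZMod N) with hc
    set d : ZMod N := ((g 1 1 : ℤ) : ZMod N) with hd
    set w : ZMod N := b ^ 2 * c - c * d ^ 2 - 2 * a * b * d with hw
    have hcw : c * w = 1 := by
      have : c * w = (a * d - b * c) ^ 2 - (a ^ 2 + c ^ 2) * d ^ 2 := by rw [hw]; ring
      rw [this, hdet, hq]; ring
    refine ⟨⟨a * w, ?_⟩, ?_⟩
    · have : (a * w) ^ 2 + 1 = (a ^ 2 + c ^ 2) * w ^ 2 - (c * w) ^ 2 + 1 := by ring
      rw [this, hq, hcw]; ring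
    · apply Subtype.ext
      simp only [F]
      rw [mk_eq_mk_iff, ← ZMod.intCast_zmod_eq_zero_iff_dvd]
      have hval : ((((a * w).val : ℕ) : ℤ) : ZMod N) = a * w := by simp
      rw [colOne_zero_zero, colOne_one_zero, Int.cast_sub, Int.cast_mul, Int.cast_mul, hval,
        Int.cast_one, one_mul, ← hc, ← ha]
      have : a * w * c - a = a * (c * w) - a := by ring
      rw [this, hcw]; ring

theorem card_fixedBy_ST (N : ℕ) [NeZero N] :
    Nat.card (MulAction.fixedBy (SL(2, ℤ) ⧸ Gamma0 N) (ModularGroup.S * ModularGroup.T)) =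
      nuThree N := by
  unfold nuThree
  symm
  let F : {x : ZMod N // x ^ 2 + x + 1 = 0} →
      MulAction.fixedBy (SL(2, ℤ) ⧸ Gamma0 N) (ModularGroup.S * ModularGroup.T) := fun x =>
    ⟨(colOne (x.1.val : ℤ) : SL(2, ℤ) ⧸ Gamma0 N), by
      rw [mem_fixedBy_ST_iff, ← ZMod.intCast_zmod_eq_zero_iff_dvd]
      simpa using x.2⟩
  refine Nat.card_eq_of_bijective F ⟨?_, ?_⟩
  · intro x y hxy
    have h1 := congrArg Subtype.val hxy
    simp only [F] at h1
    rw [mk_eq_mk_iff, ← ZMod.intCast_zmod_eq_zero_iff_dvd] at h1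
    simp at h1
    exact Subtype.ext (sub_eq_zero.mp h1)
  · rintro ⟨q, hq⟩
    induction q using QuotientGroup.induction_on with | _ g => ?_
    rw [mem_fixedBy_ST_iff, ← ZMod.intCast_zmod_eq_zero_iff_dvd] at hq
    push_cast at hq
    have hdet : ((g 0 0 : ℤ) : ZMod N) * (g 1 1 : ℤ) - (g 0 1 : ℤ) * (g 1 0 : ℤ) = 1 := by
      have := g.det_coe
      rw [Matrix.det_fin_two] at this
      exact_mod_cast congrArg (Int.cast : ℤ → ZMod N) this
    set a : ZMod N := ((g 0 0 : ℤ) : ZMod N) with ha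
    set b : ZMod N := ((g 0 1 : ℤ) : ZMod N) with hb
    set c : ZMod N := ((g 1 0 : ℤ) : ZMod N) with hc
    set d : ZMod N := ((g 1 1 : ℤ) : ZMod N) with hd
    set w : ZMod N := b ^ 2 * c - (a + c) * d ^ 2 - 2 * a * b * d with hw
    have hcw : c * w = 1 := by
      have : c * w = (a * d - b * c) ^ 2 - (a ^ 2 + a * c + c ^ 2) * d ^ 2 := by rw [hw]; ring
      rw [this, hdet, hq]; ring
    refine ⟨⟨a * w, ?_⟩, ?_⟩
    · have : (a * w) ^ 2 + a * w + 1 =
          (a ^ 2 + a * c + c ^ 2) * w ^ 2 - (c * w) ^ 2 + 1 + a * w * (1 - c * w) := by ring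
      rw [this, hq, hcw]; ring
    · apply Subtype.ext
      simp only [F]
      rw [mk_eq_mk_iff, ← ZMod.intCast_zmod_eq_zero_iff_dvd]
      have hval : ((((a * w).val : ℕ) : ℤ) : ZMod N) = a * w := by simp
      rw [colOne_zero_zero, colOne_one_zero, Int.cast_sub, Int.cast_mul, Int.cast_mul, hval,
        Int.cast_one, one_mul, ← hc, ← ha]
      have : a * w * c - a = a * (c * w) - a := by ring
      rw [this, hcw]; ring

end Fermat.Agent.S20
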