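import Mathlib

set_option autoImplicit false

namespace Fermat.Agent.S20

open UpperHalfPlane ModularForm
open scoped MatrixGroups Manifold

/-- Function-level modular forms of weight `k` on a subgroup `Γ` of `SL(2,ℤ)`. -/
structure IsMF (Γ : Subgroup SL(2, ℤ)) (k : ℤ) (f : ℍ → ℂ) : Prop where
  holo : MDiff f
  inv : ∀ γ ∈ Γ, f ∣[k] γ = f
  bdd : ∀ g : SL(2, ℤ), IsBoundedAtImInfty (f ∣[k] g)

/-- Function-level cusp forms of weight `k` on a subgroup `Γ` of `SL(2,ℤ)`. -/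
structure IsCF (Γ : Subgroup SL(2, ℤ)) (k : ℤ) (f : ℍ → ℂ) : Prop where
  holo : MDiff f
  inv : ∀ γ ∈ Γ, f ∣[k] γ = f
  zero : ∀ g : SL(2, ℤ), IsZeroAtImInfty (f ∣[k] g)

variable {Γ : Subgroup SL(2, ℤ)} {k l : ℤ} {f g : ℍ → ℂ}

lemma IsCF.isMF (h : IsCF Γ k f) : IsMF Γ k f :=
  ⟨h.holo, h.inv, fun g => (h.zero g).boundedAtFilter⟩

lemma IsMF.mono {Γ' : Subgroup SL(2, ℤ)} (hΓ : Γ' ≤ Γ) (h : IsMF Γ k f) : IsMF Γ' k f :=
  ⟨h.holo, fun γ hγ => h.inv γ (hΓ hγ), h.bdd⟩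

lemma IsMF.weight_cast (hkl : k = l) (h : IsMF Γ k f) : IsMF Γ l f := hkl ▸ h

lemma IsCF.weight_cast (hkl : k = l) (h : IsCF Γ k f) : IsCF Γ l f := hkl ▸ h

lemma isMF_zero : IsMF Γ k 0 :=
  ⟨fun _ => mdifferentiableAt_const, fun _ _ => SlashAction.zero_slash _ _,
    fun g => by rw [SlashAction.zero_slash]; exact zero_form_isBoundedAtImInfty⟩

lemma IsMF.add (hf : IsMF Γ k f) (hg : IsMF Γ k g) : IsMF Γ k (f + g) :=
  ⟨hf.holo.add hg.holo, fun γ hγ => by rw [SlashAction.add_slash, hf.inv γ hγ, hg.inv γ hγ],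
    fun γ => by rw [SlashAction.add_slash]; exact (hf.bdd γ).add (hg.bdd γ)⟩

lemma IsMF.smul (c : ℂ) (hf : IsMF Γ k f) : IsMF Γ k (c • f) :=
  ⟨hf.holo.const_smul c, fun γ hγ => by rw [SL_smul_slash, hf.inv γ hγ],
    fun γ => by rw [SL_smul_slash]; exact (hf.bdd γ).const_smul_left c⟩

lemma IsMF.neg (hf : IsMF Γ k f) : IsMF Γ k (-f) := by
  have := hf.smul (-1); simpa using this

lemma IsMF.sub (hf : IsMF Γ k f) (hg : IsMF Γ k g) : IsMF Γ k (f - g) := by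
  rw [sub_eq_add_neg]; exact hf.add hg.neg

lemma IsMF.mul (hf : IsMF Γ k f) (hg : IsMF Γ l g) : IsMF Γ (k + l) (f * g) :=
  ⟨hf.holo.mul hg.holo, fun γ hγ => by rw [mul_slash_SL2, hf.inv γ hγ, hg.inv γ hγ],
    fun γ => by rw [mul_slash_SL2]; exact (hf.bdd γ).mul (hg.bdd γ)⟩

lemma IsMF.mul' {m : ℤ} (hf : IsMF Γ k f) (hg : IsMF Γ l g) (hm : m = k + l) :
    IsMF Γ m (f * g) := hm ▸ hf.mul hg

lemma isMF_const (c : ℂ) : IsMF Γ 0 (Function.const ℍ c) :=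
  ⟨fun _ => mdifferentiableAt_const, fun γ _ => is_invariant_const γ c,
    fun γ => by rw [is_invariant_const]; exact Filter.const_boundedAtFilter _ c⟩

lemma isMF_one : IsMF Γ 0 1 := isMF_const 1

lemma IsMF.sum {ι : Type*} (s : Finset ι) {F : ι → ℍ → ℂ} (h : ∀ i ∈ s, IsMF Γ k (F i)) :
    IsMF Γ k (∑ i ∈ s, F i) := by
  classical
  induction s using Finset.induction_on with
  | empty => simpa using isMF_zero
  | insert i t hi IH =>
    rw [Finset.sum_insert hi]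
    exact (h i (Finset.mem_insert_self _ _)).add
      (IH fun j hj => h j (Finset.mem_insert_of_mem hj))

lemma IsMF.pow (hf : IsMF Γ k f) (n : ℕ) : IsMF Γ (n * k) (f ^ n) := by
  induction n with
  | zero => simpa using isMF_one
  | succ n ih =>
    rw [pow_succ]
    exact ih.mul' hf (by push_cast; ring)

lemma isCF_zero : IsCF Γ k 0 :=
  ⟨fun _ => mdifferentiableAt_const, fun _ _ => SlashAction.zero_slash _ _,
    fun g => by rw [SlashAction.zero_slash]; exact Filter.zero_zeroAtFilter _⟩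

lemma IsCF.add (hf : IsCF Γ k f) (hg : IsCF Γ k g) : IsCF Γ k (f + g) :=
  ⟨hf.holo.add hg.holo, fun γ hγ => by rw [SlashAction.add_slash, hf.inv γ hγ, hg.inv γ hγ],
    fun γ => by rw [SlashAction.add_slash]; exact (hf.zero γ).add (hg.zero γ)⟩

lemma IsCF.smul (c : ℂ) (hf : IsCF Γ k f) : IsCF Γ k (c • f) :=
  ⟨hf.holo.const_smul c, fun γ hγ => by rw [SL_smul_slash, hf.inv γ hγ],
    fun γ => by rw [SL_smul_slash]; exact (hf.zero γ).smul c⟩

lemma IsCF.mul_isMF (hf : IsCF Γ k f) (hg : IsMF Γ l g) : IsCF Γ (k + l) (f * g) :=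
  ⟨hf.holo.mul hg.holo, fun γ hγ => by rw [mul_slash_SL2, hf.inv γ hγ, hg.inv γ hγ],
    fun γ => by rw [mul_slash_SL2]; exact (hf.zero γ).mul_boundedAtFilter (hg.bdd γ)⟩

/-! ### Bridges to bundled forms -/

lemma isMF_of_modularForm [Γ.FiniteIndex] (F : ModularForm Γ k) : IsMF Γ k F :=
  ⟨F.holo', fun γ hγ => SlashInvariantFormClass.slash_action_eq F _ ⟨γ, hγ, rfl⟩,
    fun g => ModularFormClass.bdd_at_infty_slash F g⟩

lemma isCF_of_cuspForm [Γ.FiniteIndex] (F : CuspForm Γ k) : IsCF Γ k F :=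
  ⟨F.holo', fun γ hγ => SlashInvariantFormClass.slash_action_eq F _ ⟨γ, hγ, rfl⟩,
    fun g => CuspFormClass.zero_at_infty_slash F g⟩

/-- The bundled modular form attached to a function-level one. -/
noncomputable def IsMF.toModularForm [Γ.FiniteIndex] (h : IsMF Γ k f) : ModularForm Γ k where
  toFun := f
  slash_action_eq' := by
    rintro _ ⟨γ, hγ, rfl⟩
    exact h.inv γ hγ
  holo' := h.holo
  bdd_at_cusps' {c} hc := by
    rw [Subgroup.IsArithmetic.isCusp_iff_isCusp_SL2Z] at hc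
    rw [OnePoint.isBoundedAt_iff_forall_SL2Z hc]
    exact fun γ _ => h.bdd γ

@[simp] lemma IsMF.coe_toModularForm [Γ.FiniteIndex] (h : IsMF Γ k f) :
    ⇑h.toModularForm = f := rfl

/-- The bundled cusp form attached to a function-level one. -/
noncomputable def IsCF.toCuspForm [Γ.FiniteIndex] (h : IsCF Γ k f) : CuspForm Γ k where
  toFun := f
  slash_action_eq' := by
    rintro _ ⟨γ, hγ, rfl⟩
    exact h.inv γ hγ
  holo' := h.holo
  zero_at_cusps' {c} hc := by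
    rw [Subgroup.IsArithmetic.isCusp_iff_isCusp_SL2Z] at hc
    rw [OnePoint.isZeroAt_iff_forall_SL2Z hc]
    exact fun γ _ => h.zero γ

@[simp] lemma IsCF.coe_toCuspForm [Γ.FiniteIndex] (h : IsCF Γ k f) :
    ⇑h.toCuspForm = f := rfl

/-- level one bridge -/
lemma isMF_top_of_modularForm (F : ModularForm 𝒮ℒ k) : IsMF ⊤ k F :=
  ⟨F.holo', fun γ _ => SlashInvariantFormClass.slash_action_eq F _ ⟨γ, rfl⟩,
    fun g => ModularFormClass.bdd_at_infty_slash F g⟩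

lemma isCF_top_of_cuspForm (F : CuspForm 𝒮ℒ k) : IsCF ⊤ k F :=
  ⟨F.holo', fun γ _ => SlashInvariantFormClass.slash_action_eq F _ ⟨γ, rfl⟩,
    fun g => CuspFormClass.zero_at_infty_slash F g⟩

/-- The bundled level one modular form attached to a function-level one. -/
noncomputable def IsMF.toLevelOne (h : IsMF ⊤ k f) : ModularForm 𝒮ℒ k where
  toFun := f
  slash_action_eq' := by
    rintro _ ⟨γ, rfl⟩
    exact h.inv γ trivial
  holo' := h.holo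
  bdd_at_cusps' {c} hc := by
    rw [OnePoint.isBoundedAt_iff_forall_SL2Z hc]
    exact fun γ _ => h.bdd γ

@[simp] lemma IsMF.coe_toLevelOne (h : IsMF ⊤ k f) : ⇑h.toLevelOne = f := rfl

/-- The bundled level one cusp form attached to a function-level one. -/
noncomputable def IsCF.toLevelOne (h : IsCF ⊤ k f) : CuspForm 𝒮ℒ k where
  toFun := f
  slash_action_eq' := by
    rintro _ ⟨γ, rfl⟩
    exact h.inv γ trivial
  holo' := h.holo
  zero_at_cusps' {c} hc := by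
    rw [OnePoint.isZeroAt_iff_forall_SL2Z hc]
    exact fun γ _ => h.zero γ

@[simp] lemma IsCF.coe_toLevelOne (h : IsCF ⊤ k f) : ⇑h.toLevelOne = f := rfl

lemma IsMF.of_top (h : IsMF ⊤ k f) : IsMF Γ k f := h.mono le_top

lemma IsMF.slash_top (h : IsMF ⊤ k f) (g : SL(2, ℤ)) : f ∣[k] g = f := h.inv g trivial

/-! ### Components -/

/-- The component of `f` at the coset `x = gΓ`, namely `f ∣[k] g⁻¹`. -/
noncomputable def comp (Γ : Subgroup SL(2, ℤ)) (k : ℤ) (f : ℍ → ℂ) (x : SL(2, ℤ) ⧸ Γ) : ℍ → ℂ :=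
  f ∣[k] (Quotient.out x)⁻¹

lemma comp_mk (hf : ∀ γ ∈ Γ, f ∣[k] γ = f) (g : SL(2, ℤ)) :
    comp Γ k f (g : SL(2, ℤ) ⧸ Γ) = f ∣[k] g⁻¹ := by
  obtain ⟨γ, hγ⟩ := QuotientGroup.mk_out_eq_mul Γ g
  unfold comp
  rw [hγ, mul_inv_rev, SlashAction.slash_mul, hf _ (inv_mem γ.2)]

lemma comp_slash (hf : ∀ γ ∈ Γ, f ∣[k] γ = f) (h : SL(2, ℤ)) (x : SL(2, ℤ) ⧸ Γ) :
    comp Γ k f x ∣[k] h = comp Γ k f (h⁻¹ • x) := by
  induction x using QuotientGroup.induction_on with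
  | H g =>
    rw [comp_mk hf, MulAction.Quotient.smul_mk, comp_mk hf, ← SlashAction.slash_mul]
    simp [mul_inv_rev]

lemma comp_one (hf : ∀ γ ∈ Γ, f ∣[k] γ = f) :
    comp Γ k f ((1 : SL(2, ℤ)) : SL(2, ℤ) ⧸ Γ) = f := by
  rw [comp_mk hf]; simp

lemma comp_add (x : SL(2, ℤ) ⧸ Γ) : comp Γ k (f + g) x = comp Γ k f x + comp Γ k g x :=
  SlashAction.add_slash _ _ _ _

lemma comp_smul (c : ℂ) (x : SL(2, ℤ) ⧸ Γ) : comp Γ k (c • f) x = c • comp Γ k f x :=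
  SL_smul_slash _ _ _ _

lemma comp_zero (x : SL(2, ℤ) ⧸ Γ) : comp Γ k 0 x = 0 := SlashAction.zero_slash _ _

lemma comp_sum {ι : Type*} (s : Finset ι) (F : ι → ℍ → ℂ) (x : SL(2, ℤ) ⧸ Γ) :
    comp Γ k (∑ i ∈ s, F i) x = ∑ i ∈ s, comp Γ k (F i) x :=
  SlashAction.sum_slash _ _

lemma comp_mul (x : SL(2, ℤ) ⧸ Γ) :
    comp Γ (k + l) (f * g) x = comp Γ k f x * comp Γ l g x :=
  mul_slash_SL2 _ _ _ _ _

lemma comp_mul_top {m : ℤ} (hf : IsMF ⊤ k f) (hm : m = k + l) (x : SL(2, ℤ) ⧸ Γ) :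
    comp Γ m (f * g) x = f * comp Γ l g x := by
  subst hm
  rw [comp_mul]; congr 1; exact hf.slash_top _

lemma comp_pow (n : ℕ) (x : SL(2, ℤ) ⧸ Γ) :
    comp Γ (n * k) (f ^ n) x = (comp Γ k f x) ^ n := by
  induction n with
  | zero => simpa [comp] using is_invariant_one _
  | succ n ih =>
    rw [pow_succ, pow_succ, ← ih, ← comp_mul]
    congr 1; push_cast; ring

lemma IsMF.comp_holo (hf : IsMF Γ k f) (x : SL(2, ℤ) ⧸ Γ) : MDiff (comp Γ k f x) :=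
  hf.holo.slash k _

lemma IsMF.comp_bdd (hf : IsMF Γ k f) (x : SL(2, ℤ) ⧸ Γ) :
    IsBoundedAtImInfty (comp Γ k f x) := hf.bdd _

lemma IsCF.comp_zero (hf : IsCF Γ k f) (x : SL(2, ℤ) ⧸ Γ) :
    IsZeroAtImInfty (comp Γ k f x) := hf.zero _

/-- To check boundedness at all cusps it is enough to check the components. -/
lemma isMF_of_comp (hholo : MDiff f) (hinv : ∀ γ ∈ Γ, f ∣[k] γ = f)
    (hb : ∀ x : SL(2, ℤ) ⧸ Γ, IsBoundedAtImInfty (comp Γ k f x)) : IsMF Γ k f :=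
  ⟨hholo, hinv, fun g => by
    have := hb ((g⁻¹ : SL(2, ℤ)) : SL(2, ℤ) ⧸ Γ)
    rwa [comp_mk hinv, inv_inv] at this⟩

lemma isCF_of_comp (hholo : MDiff f) (hinv : ∀ γ ∈ Γ, f ∣[k] γ = f)
    (hb : ∀ x : SL(2, ℤ) ⧸ Γ, IsZeroAtImInfty (comp Γ k f x)) : IsCF Γ k f :=
  ⟨hholo, hinv, fun g => by
    have := hb ((g⁻¹ : SL(2, ℤ)) : SL(2, ℤ) ⧸ Γ)
    rwa [comp_mk hinv, inv_inv] at this⟩

end Fermat.Agent.S20
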