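import Mathlib

set_option autoImplicit false

namespace Fermat.Agent.S20

namespace Arith

lemma pointwise (k : ℤ) (heven : Even k) (h0 : 0 ≤ k) (h10 : k ≤ 10) :
    12 * (if k = 10 then (1 : ℤ) else 0) =
      k - 6 * (if k % 4 = 0 then (1 : ℤ) else 0) - 6 * (if k % 6 = 0 then (1 : ℤ) else 0)
        - 2 * (if k % 6 = 2 then (1 : ℤ) else 0) + 2 * (if k % 6 = 4 then (1 : ℤ) else 0)
        + 12 * (if k = 0 then (1 : ℤ) else 0) := by
  obtain ⟨m, rfl⟩ := heven
  have h1 : 0 ≤ m := by omega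
  have h2 : m ≤ 5 := by omega
  interval_cases m <;> norm_num

lemma card_cast {ι : Type*} [Fintype ι] (p : ι → Prop) [DecidablePred p] :
    (((Finset.univ.filter p).card : ℕ) : ℤ) = ∑ i, (if p i then (1 : ℤ) else 0) := by
  rw [Finset.card_filter]
  push_cast
  rfl

end Arith

theorem card_ten_eq {ι : Type*} [Fintype ι] (k : ι → ℤ) (μ e2 e3 c : ℕ)
    (hμ : Fintype.card ι = μ) (heven : ∀ i, Even (k i)) (h0 : ∀ i, 0 ≤ k i) (h10 : ∀ i, k i ≤ 10)
    (hzero : (Finset.univ.filter fun i => k i = 0).card = 1)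
    (hK : ∑ i, k i = 6 * ((μ : ℤ) - c))
    (h4 : 2 * (Finset.univ.filter fun i => k i % 4 = 0).card = μ + e2)
    (h60 : 3 * (Finset.univ.filter fun i => k i % 6 = 0).card = μ + 2 * e3)
    (h62 : 3 * (Finset.univ.filter fun i => k i % 6 = 2).card + e3 = μ)
    (h64 : 3 * (Finset.univ.filter fun i => k i % 6 = 4).card + e3 = μ) :
    (((Finset.univ.filter fun i => k i = 10).card : ℕ) : ℚ) =
      1 + (μ : ℚ) / 12 - (e2 : ℚ) / 4 - (e3 : ℚ) / 3 - (c : ℚ) / 2 := by
  have key : 12 * (((Finset.univ.filter fun i => k i = 10).card : ℕ) : ℤ) =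
      ∑ i, k i - 6 * (((Finset.univ.filter fun i => k i % 4 = 0).card : ℕ) : ℤ)
        - 6 * (((Finset.univ.filter fun i => k i % 6 = 0).card : ℕ) : ℤ)
        - 2 * (((Finset.univ.filter fun i => k i % 6 = 2).card : ℕ) : ℤ)
        + 2 * (((Finset.univ.filter fun i => k i % 6 = 4).card : ℕ) : ℤ)
        + 12 * (((Finset.univ.filter fun i => k i = 0).card : ℕ) : ℤ) := by
    simp only [Arith.card_cast, Finset.mul_sum, ← Finset.sum_sub_distrib, ← Finset.sum_add_distrib]
    exact Finset.sum_congr rfl fun i _ => Arith.pointwise (k i) (heven i) (h0 i) (h10 i)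
  have h4' : 2 * (((Finset.univ.filter fun i => k i % 4 = 0).card : ℕ) : ℤ) = μ + e2 := by
    exact_mod_cast h4
  have h60' : 3 * (((Finset.univ.filter fun i => k i % 6 = 0).card : ℕ) : ℤ) = μ + 2 * e3 := by
    exact_mod_cast h60
  have h62' : 3 * (((Finset.univ.filter fun i => k i % 6 = 2).card : ℕ) : ℤ) + e3 = μ := by
    exact_mod_cast h62
  have h64' : 3 * (((Finset.univ.filter fun i => k i % 6 = 4).card : ℕ) : ℤ) + e3 = μ := by
    exact_mod_cast h64
  have hz' : (((Finset.univ.filter fun i => k i = 0).card : ℕ) : ℤ) = 1 := by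
    exact_mod_cast hzero
  have fin : 12 * (((Finset.univ.filter fun i => k i = 10).card : ℕ) : ℤ) =
      12 + (μ : ℤ) - 3 * e2 - 4 * e3 - 6 * c := by
    rw [key, hK, hz']
    linarith
  have finq : 12 * (((Finset.univ.filter fun i => k i = 10).card : ℕ) : ℚ) =
      12 + (μ : ℚ) - 3 * e2 - 4 * e3 - 6 * c := by
    exact_mod_cast fin
  linarith

end Fermat.Agent.S20
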