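import Mathlib
import Fermat.Agent.S20.Basic

set_option autoImplicit false

namespace Fermat.Agent.S20

open UpperHalfPlane ModularForm Filter Topology Function Complex
open scoped MatrixGroups Manifold Real

local notation "𝕢" => Periodic.qParam

/-- periodicity on `ℍ` transferred to `ℂ`. -/
lemma periodic_comp_ofComplex_of {f : ℍ → ℂ} {h : ℝ} (hf : ∀ z : ℍ, f (h +ᵥ z) = f z) :
    Periodic (f ∘ ofComplex) h := by
  intro w
  by_cases hw : 0 < im w
  · have : 0 < im (w + h) := by simp [hw]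
    simp only [comp_apply, ofComplex_apply_of_im_pos this, ofComplex_apply_of_im_pos hw]
    rw [← hf ⟨w, hw⟩]
    congr 1
    ext
    simp [add_comm]
  · have hw' : im w ≤ 0 := not_lt.mp hw
    have : im (w + h) ≤ 0 := by simpa using hw'
    simp [ofComplex_apply_of_im_nonpos this, ofComplex_apply_of_im_nonpos hw']

lemma tendsto_valueAtInfty {f : ℍ → ℂ} {h : ℝ} (hh : 0 < h) (hf : ∀ z : ℍ, f (h +ᵥ z) = f z)
    (hhol : MDiff f) (hb : IsBoundedAtImInfty f) :
    Tendsto f atImInfty (𝓝 (valueAtInfty f)) := by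
  have hper := periodic_comp_ofComplex_of hf
  have han := analyticAt_cuspFunction_zero hh hper hhol hb
  rw [← cuspFunction_apply_zero hh han hper]
  have : (cuspFunction h f ∘ fun τ ↦ 𝕢 h τ : ℍ → ℂ) = f := by
    funext τ
    simpa using eq_cuspFunction τ hh.ne' hper
  simpa [this] using han.continuousAt.tendsto.comp (qParam_tendsto_atImInfty hh)

lemma isBigO_exp_of_isZero {f : ℍ → ℂ} {h : ℝ} (hh : 0 < h) (hf : ∀ z : ℍ, f (h +ᵥ z) = f z)
    (hhol : MDiff f) (hz : IsZeroAtImInfty f) :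
    f =O[atImInfty] fun z : ℍ => Real.exp (-2 * π * z.im / h) := by
  have hper := periodic_comp_ofComplex_of hf
  have h1 := hper.exp_decay_of_zero_at_inf hh
    (eventually_of_mem (preimage_mem_comap (Ioi_mem_atTop 0))
        (fun z hz ↦ UpperHalfPlane.mdifferentiableAt_iff.mp (hhol ⟨z, hz⟩)))
    (hz.comp tendsto_comap_im_ofComplex)
  have h2 := h1.comp_tendsto tendsto_coe_atImInfty
  refine h2.congr_left fun z => ?_
  simp

lemma mdiff_qParam (h : ℝ) : MDiff (fun z : ℍ => 𝕢 h z) := by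
  rw [UpperHalfPlane.mdifferentiable_iff]
  have : DifferentiableOn ℂ (fun z : ℂ => 𝕢 h z) upperHalfPlaneSet := by
    unfold Periodic.qParam
    fun_prop
  refine this.congr fun z hz => ?_
  simp [Function.comp_apply, ofComplex_apply_of_im_pos hz]

lemma norm_qParam_coe (h : ℝ) (z : ℍ) : ‖𝕢 h z‖ = Real.exp (-2 * π * z.im / h) := by
  rw [Periodic.norm_qParam]; rfl

lemma isBounded_of_mul_qParam_isZero {v : ℍ → ℂ} (hv : ∀ z : ℍ, v ((1 : ℝ) +ᵥ z) = v z)
    (hhol : MDiff v) (hz : IsZeroAtImInfty (fun z : ℍ => v z * 𝕢 1 z)) :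
    IsBoundedAtImInfty v := by
  have hper : ∀ z : ℍ, (fun z : ℍ => v z * 𝕢 1 z) ((1 : ℝ) +ᵥ z) = (fun z : ℍ => v z * 𝕢 1 z) z := by
    intro z
    simp only [hv z]
    congr 1
    simp only [Periodic.qParam, coe_vadd, ofReal_one, div_one]
    rw [mul_add, Complex.exp_add, mul_one, Complex.exp_two_pi_mul_I, one_mul]
  have h1 := isBigO_exp_of_isZero one_pos hper (hhol.mul (mdiff_qParam 1)) hz
  rw [IsBoundedAtImInfty, BoundedAtFilter]
  rw [Asymptotics.isBigO_iff] at h1 ⊢
  obtain ⟨C, hC⟩ := h1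
  refine ⟨C, hC.mono fun z hz => ?_⟩
  rw [Pi.mul_apply, norm_mul, norm_qParam_coe, Real.norm_eq_abs, abs_of_pos (Real.exp_pos _)] at hz
  simpa using le_of_mul_le_mul_right hz (Real.exp_pos _)

end Fermat.Agent.S20
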