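import Mathlib
import Fermat.Agent.S20.Basic
import Fermat.Agent.S20.Periodic

set_option autoImplicit false

namespace Fermat.Agent.S20

open UpperHalfPlane ModularForm Filter Topology Function Complex EisensteinSeries
open scoped MatrixGroups Manifold Real

/-- `E₄` as a function. -/
noncomputable def E4 : ℍ → ℂ := ⇑E₄
/-- `E₆` as a function. -/
noncomputable def E6 : ℍ → ℂ := ⇑E₆
/-- the discriminant as a function. -/
noncomputable def Dl : ℍ → ℂ := ModularForm.discriminant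

lemma isMF_E4 : IsMF ⊤ 4 E4 := isMF_top_of_modularForm E₄
lemma isMF_E6 : IsMF ⊤ 6 E6 := isMF_top_of_modularForm E₆
lemma isCF_Dl : IsCF ⊤ 12 Dl := isCF_top_of_cuspForm CuspForm.discriminant
lemma Dl_ne_zero (z : ℍ) : Dl z ≠ 0 := discriminant_ne_zero z

lemma Dl_eq (z : ℍ) : 1728 * Dl z = E4 z ^ 3 - E6 z ^ 2 := by
  have := discriminant_eq_E₄_cube_sub_E₆_sq z
  unfold Dl E4 E6
  rw [this]; ring

lemma slash_T_zpow_apply (f : ℍ → ℂ) (k : ℤ) (n : ℤ) (z : ℍ) :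
    (f ∣[k] (ModularGroup.T ^ n)) z = f ((n : ℝ) +ᵥ z) := by
  rw [SL_slash_apply, modular_T_zpow_smul]
  have : denom ((ModularGroup.T ^ n : SL(2, ℤ)) : GL (Fin 2) ℝ) z = 1 := by
    have h1 : (ModularGroup.T ^ n : SL(2, ℤ)) 1 0 = 0 := by
      rw [ModularGroup.coe_T_zpow]; rfl
    have h2 : (ModularGroup.T ^ n : SL(2, ℤ)) 1 1 = 1 := by
      rw [ModularGroup.coe_T_zpow]; rfl
    rw [denom]
    simp only [Matrix.SpecialLinearGroup.coe_GL_coe_matrix, Matrix.SpecialLinearGroup.map_apply_coe,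
      RingHom.mapMatrix_apply, Int.coe_castRingHom, Matrix.map_apply, h1, h2]
    simp
  rw [this, one_zpow, mul_one]

lemma slash_T_apply (f : ℍ → ℂ) (k : ℤ) (z : ℍ) :
    (f ∣[k] ModularGroup.T) z = f ((1 : ℝ) +ᵥ z) := by
  have := slash_T_zpow_apply f k 1 z
  simpa using this

variable {k : ℤ} {a : ℍ → ℂ}

lemma IsMF.periodic_one (h : IsMF ⊤ k a) (z : ℍ) : a ((1 : ℝ) +ᵥ z) = a z := by
  rw [← slash_T_apply a k z, h.slash_top]

lemma IsMF.bdd_self {Γ : Subgroup SL(2, ℤ)} (h : IsMF Γ k a) : IsBoundedAtImInfty a := by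
  simpa using h.bdd 1

lemma IsMF.tendsto_top (h : IsMF ⊤ k a) : Tendsto a atImInfty (𝓝 (valueAtInfty a)) :=
  tendsto_valueAtInfty one_pos h.periodic_one h.holo h.bdd_self

lemma valueAtInfty_eq_coeff (F : ModularForm 𝒮ℒ k) :
    valueAtInfty F = (qExpansion 1 F).coeff 0 :=
  (qExpansion_coeff_zero one_pos
      (ModularFormClass.analyticAt_cuspFunction_zero F one_pos one_mem_strictPeriods_SL)
      (SlashInvariantFormClass.periodic_comp_ofComplex F one_mem_strictPeriods_SL)).symm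

lemma valueAtInfty_E4 : valueAtInfty E4 = 1 := by
  unfold E4; rw [valueAtInfty_eq_coeff]; exact E_qExpansion_coeff_zero _ ⟨2, rfl⟩

lemma valueAtInfty_E6 : valueAtInfty E6 = 1 := by
  unfold E6; rw [valueAtInfty_eq_coeff]; exact E_qExpansion_coeff_zero _ ⟨3, rfl⟩

lemma tendsto_E4 : Tendsto E4 atImInfty (𝓝 1) := valueAtInfty_E4 ▸ isMF_E4.tendsto_top
lemma tendsto_E6 : Tendsto E6 atImInfty (𝓝 1) := valueAtInfty_E6 ▸ isMF_E6.tendsto_top

/-! ### vanishing -/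

lemma IsMF.eq_zero_of_neg {Γ : Subgroup SL(2, ℤ)} [Γ.FiniteIndex] (h : IsMF Γ k a) (hk : k < 0) :
    a = 0 := by
  have := ModularForm.isZero_of_neg_weight hk h.toModularForm
  have h2 := congrArg (fun F : ModularForm Γ k => (F : ℍ → ℂ)) this
  simpa using h2

lemma IsMF.eq_const {Γ : Subgroup SL(2, ℤ)} [Γ.FiniteIndex] (h : IsMF Γ 0 a) :
    ∃ c : ℂ, a = Function.const ℍ c := by
  obtain ⟨c, hc⟩ := ModularForm.eq_const_of_weight_zero h.toModularForm
  exact ⟨c, by simpa using hc⟩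

lemma IsMF.eq_zero_of_odd {Γ : Subgroup SL(2, ℤ)} (h : IsMF Γ k a) (hΓ : -1 ∈ Γ) (hk : Odd k) :
    a = 0 := by
  funext z
  have h1 := congrFun (h.inv (-1) hΓ) z
  rw [SL_slash_apply] at h1
  have h2 : denom ((-1 : SL(2, ℤ)) : GL (Fin 2) ℝ) z = -1 := by
    simp [denom]
  have h3 : ((-1 : SL(2, ℤ)) • z) = z := by
    simp
  rw [h2, h3, (Odd.neg hk).neg_one_zpow] at h1
  have h4 : (2 : ℂ) * a z = 0 := by linear_combination -h1
  simpa using h4

lemma IsMF.eq_zero_of_two (h : IsMF ⊤ 2 a) : a = 0 := by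
  have := rank_zero_iff_forall_zero.mp levelOne_weight_two_rank_zero h.toLevelOne
  have h2 := congrArg (fun F : ModularForm 𝒮ℒ 2 => (F : ℍ → ℂ)) this
  simpa using h2

lemma IsCF.eq_zero_of_nonpos {Γ : Subgroup SL(2, ℤ)} [Γ.FiniteIndex] (h : IsCF Γ k a)
    (hk : k ≤ 0) : a = 0 := by
  rcases hk.lt_or_eq with hk | rfl
  · exact h.isMF.eq_zero_of_neg hk
  · obtain ⟨c, rfl⟩ := h.isMF.eq_const
    have h1 : IsZeroAtImInfty (Function.const ℍ c) := by simpa using h.zero 1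
    have h2 : Tendsto (Function.const ℍ c) atImInfty (𝓝 c) := tendsto_const_nhds
    have : c = 0 := tendsto_nhds_unique h2 h1
    subst this; rfl

/-! ### division by the discriminant -/

lemma IsMF.isCF_of_valueAtInfty (h : IsMF ⊤ k a) (h0 : valueAtInfty a = 0) : IsCF ⊤ k a :=
  ⟨h.holo, h.inv, fun g => by
    rw [h.slash_top]
    have := h.tendsto_top
    rwa [h0] at this⟩

lemma IsCF.exists_eq_Dl_mul (h : IsCF ⊤ k a) : ∃ b, IsMF ⊤ (k - 12) b ∧ a = Dl * b := by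
  refine ⟨_, isMF_top_of_modularForm (CuspForm.discriminantEquiv h.toLevelOne), ?_⟩
  have := discriminant_mul_discriminantEquiv h.toLevelOne
  simpa [Dl] using this.symm

lemma IsMF.div_Dl {Γ : Subgroup SL(2, ℤ)} {f : ℍ → ℂ} (hf : IsMF Γ k f)
    (hdec : ∀ g : SL(2, ℤ), (f ∣[k] g) =O[atImInfty] fun z : ℍ => Real.exp (-2 * π * z.im)) :
    IsMF Γ (k - 12) (f / Dl) where
  holo := hf.holo.div isCF_Dl.holo Dl_ne_zero
  inv γ hγ := by rw [div_slash_SL2, hf.inv γ hγ, isCF_Dl.inv γ trivial]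
  bdd g := by
    rw [div_slash_SL2, isCF_Dl.inv g trivial, IsBoundedAtImInfty, BoundedAtFilter]
    exact (Asymptotics.div_isBoundedUnder_of_isBigO
      ((hdec g).trans exp_isBigO_discriminant)).isBigO_one ℝ

/-! ### regular sequence -/

lemma E4_ne_zero : E4 ≠ 0 := by
  intro h
  have h1 := tendsto_E4
  rw [h] at h1
  have h2 : Tendsto (0 : ℍ → ℂ) atImInfty (𝓝 0) := tendsto_const_nhds
  exact one_ne_zero (tendsto_nhds_unique h1 h2)

lemma eq_zero_of_E4_mul {x : ℍ → ℂ} (hx : MDiff x) (h : E4 * x = 0) : x = 0 :=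
  ((UpperHalfPlane.mul_eq_zero_iff isMF_E4.holo hx).mp h).resolve_left E4_ne_zero

lemma exists_eq_E4_mul {Γ : Subgroup SL(2, ℤ)} {f g : ℍ → ℂ} (hf : IsMF Γ k f)
    (hg : IsMF Γ (k + 2) g) (h : E6 * f = E4 * g) :
    ∃ u, IsMF Γ (k - 4) u ∧ f = E4 * u := by
  set u : ℍ → ℂ := (E4 ^ 2 * f - E6 * g) / ((1728 : ℂ) • Dl) with hu
  have hfu : f = E4 * u := by
    funext z
    have h1 := congrFun h z
    simp only [Pi.mul_apply] at h1
    have h2 := Dl_eq z
    have h3 : (1728 : ℂ) * Dl z ≠ 0 := mul_ne_zero (by norm_num) (Dl_ne_zero z)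
    simp only [hu, Pi.mul_apply, Pi.div_apply, Pi.sub_apply, Pi.pow_apply, Pi.smul_apply,
      smul_eq_mul]
    rw [mul_div_assoc', eq_div_iff h3]
    linear_combination (f z) * h2 - E6 z * h1
  have hnum : IsMF Γ (k + 8) (E4 ^ 2 * f - E6 * g) :=
    (((isMF_E4.pow 2).of_top.mul' hf (by push_cast; ring))).sub
      (isMF_E6.of_top.mul' hg (by ring))
  have hden : ∀ γ : SL(2, ℤ), ((1728 : ℂ) • Dl) ∣[(12 : ℤ)] γ = (1728 : ℂ) • Dl := fun γ => by
    rw [SL_smul_slash, isCF_Dl.inv γ trivial]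
  have hk : k - 4 = (k + 8) - 12 := by ring
  have hslash : ∀ γ : SL(2, ℤ), f ∣[k] γ = E4 * (u ∣[k - 4] γ) := fun γ => by
    conv_lhs => rw [hfu, show k = 4 + (k - 4) by ring]
    rw [mul_slash_SL2, isMF_E4.slash_top]
  refine ⟨u, ⟨?_, ?_, ?_⟩, hfu⟩
  · refine hnum.holo.div (isCF_Dl.holo.const_smul (1728 : ℂ)) fun z => ?_
    simpa using Dl_ne_zero z
  · intro γ hγ
    rw [hu, hk, div_slash_SL2, hnum.inv γ hγ, hden]
  · intro γ
    have h1 : (E4⁻¹ : ℍ → ℂ) =O[atImInfty] (1 : ℍ → ℝ) := by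
      have := (tendsto_E4.inv₀ one_ne_zero)
      exact this.isBigO_one ℝ
    have h2 : (f ∣[k] γ * E4⁻¹) =O[atImInfty] (1 : ℍ → ℝ) := by
      exact (hf.bdd γ).mul h1
    refine h2.congr' ?_ EventuallyEq.rfl
    have h3 : ∀ᶠ z in atImInfty, E4 z ≠ 0 :=
      tendsto_E4.eventually_ne one_ne_zero
    filter_upwards [h3] with z hz
    rw [hslash γ]
    simp only [Pi.mul_apply, Pi.inv_apply]
    field_simp

/-! ### monomials -/

/-- the power of `E6` of weight `n` (zero if there is none). -/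
noncomputable def P6 (n : ℤ) : ℍ → ℂ := if 6 ∣ n ∧ 0 ≤ n then E6 ^ (n / 6).toNat else 0

lemma P6_of (n : ℤ) (h : 6 ∣ n) (h0 : 0 ≤ n) : P6 n = E6 ^ (n / 6).toNat := if_pos ⟨h, h0⟩

lemma P6_zero : P6 0 = 1 := by rw [P6_of 0 (by norm_num) le_rfl]; simp

lemma isMF_P6 (n : ℤ) : IsMF ⊤ n (P6 n) := by
  unfold P6
  split_ifs with h
  · refine (isMF_E6.pow _).weight_cast ?_
    obtain ⟨⟨m, rfl⟩, h0⟩ := h
    have : 0 ≤ m := by omega
    rw [Int.mul_ediv_cancel_left _ (by norm_num), Int.toNat_of_nonneg this]; ring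
  · exact isMF_zero

lemma tendsto_P6 (n : ℤ) (h : 6 ∣ n) (h0 : 0 ≤ n) : Tendsto (P6 n) atImInfty (𝓝 1) := by
  rw [P6_of n h h0]
  have := tendsto_E6.pow (n / 6).toNat
  rw [one_pow] at this
  exact this

lemma E6_mul_P6 (n : ℤ) (h0 : 0 ≤ n) : E6 * P6 n = P6 (n + 6) := by
  by_cases h : 6 ∣ n
  · rw [P6_of n h h0, P6_of (n + 6) (by omega) (by omega)]
    obtain ⟨m, rfl⟩ := h
    have hm : 0 ≤ m := by omega
    rw [show 6 * m + 6 = 6 * (m + 1) by ring, Int.mul_ediv_cancel_left _ (by norm_num),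
      Int.mul_ediv_cancel_left _ (by norm_num), Int.toNat_add hm (by norm_num)]
    simp [pow_succ, mul_comm]
  · have h' : ¬ (6 ∣ n + 6) := by omega
    simp [P6, h, h']

lemma exists_mono (n : ℤ) (hn : 4 ≤ n) (he : Even n) :
    ∃ (h b : ℍ → ℂ) (c : ℂ), IsMF ⊤ n h ∧ Tendsto h atImInfty (𝓝 1) ∧ IsMF ⊤ (n - 4) b ∧
      h = E4 * b + c • P6 n := by
  obtain ⟨m, rfl⟩ := he
  have h3 : (m + m) % 6 = 0 ∨ (m + m) % 6 = 2 ∨ (m + m) % 6 = 4 := by omega
  rcases h3 with h3 | h3 | h3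
  · refine ⟨P6 (m + m), 0, 1, isMF_P6 _, tendsto_P6 _ (by omega) (by omega), isMF_zero, by simp⟩
  · refine ⟨E4 * (E4 * P6 (m + m - 8)), E4 * P6 (m + m - 8), 0,
      isMF_E4.mul' (isMF_E4.mul' (isMF_P6 _) rfl) (by ring), ?_,
      isMF_E4.mul' (isMF_P6 _) (by ring), by simp⟩
    have := tendsto_E4.mul (tendsto_E4.mul (tendsto_P6 (m + m - 8) (by omega) (by omega)))
    rw [one_mul, one_mul] at this
    exact this
  · refine ⟨E4 * P6 (m + m - 4), P6 (m + m - 4), 0,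
      isMF_E4.mul' (isMF_P6 _) (by ring), ?_, isMF_P6 _, by simp⟩
    have := tendsto_E4.mul (tendsto_P6 (m + m - 4) (by omega) (by omega))
    rw [one_mul] at this
    exact this

lemma valueAtInfty_of_tendsto {h : ℍ → ℂ} {c : ℂ} (hh : Tendsto h atImInfty (𝓝 c)) :
    valueAtInfty h = c := hh.limUnder_eq

theorem IsMF.decomp : ∀ (m : ℕ) (n : ℤ) (a : ℍ → ℂ), n.toNat = m → IsMF ⊤ n a →
    ∃ (b : ℍ → ℂ) (c : ℂ), IsMF ⊤ (n - 4) b ∧ a = E4 * b + c • P6 n := by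
  intro m
  induction m using Nat.strong_induction_on with
  | _ m ih =>
  intro n a hnm ha
  rcases lt_or_ge n 0 with hn | hn
  · exact ⟨0, 0, isMF_zero, by simp [ha.eq_zero_of_neg hn]⟩
  rcases Int.even_or_odd n with he | ho
  swap
  · exact ⟨0, 0, isMF_zero, by simp [ha.eq_zero_of_odd trivial ho]⟩
  rcases lt_or_ge n 4 with hn4 | hn4
  · obtain ⟨j, rfl⟩ := he
    have : j = 0 ∨ j = 1 := by omega
    rcases this with rfl | rfl
    · obtain ⟨c, rfl⟩ := IsMF.eq_const (ha.weight_cast (by norm_num))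
      refine ⟨0, c, isMF_zero, ?_⟩
      funext z
      simp [P6_zero]
    · exact ⟨0, 0, isMF_zero, by simp [IsMF.eq_zero_of_two ha]⟩
  · obtain ⟨h, b0, c0, hh, hlim, hb0, hdec⟩ := exists_mono n hn4 he
    set v := valueAtInfty a with hv
    have hcusp : IsCF ⊤ n (a - v • h) := by
      refine (ha.sub (hh.smul v)).isCF_of_valueAtInfty ?_
      apply valueAtInfty_of_tendsto
      have := ha.tendsto_top.sub (hlim.const_smul v)
      rw [smul_eq_mul, mul_one, ← hv, sub_self] at this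
      exact this
    obtain ⟨a', ha', haa'⟩ := hcusp.exists_eq_Dl_mul
    obtain ⟨b', c', hb', hdec'⟩ := ih (n - 12).toNat (by omega) (n - 12) a' rfl ha'
    have hP : E6 ^ 2 * (c' • P6 (n - 12)) = (if 12 ≤ n then c' else 0) • P6 n := by
      split_ifs with h12
      · have h1 := E6_mul_P6 (n - 12) (by omega)
        have h2 := E6_mul_P6 (n - 12 + 6) (by omega)
        rw [show n - 12 + 6 + 6 = n by ring] at h2
        rw [← h2, ← h1]
        funext z; simp; ring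
      · have : P6 (n - 12) = 0 := by
          unfold P6; rw [if_neg]; omega
        simp [this]
    refine ⟨v • b0 + (1728 : ℂ)⁻¹ • (E4 ^ 2 * a' - E6 ^ 2 * b'),
      v * c0 - (1728 : ℂ)⁻¹ * (if 12 ≤ n then c' else 0), ?_, ?_⟩
    · refine (hb0.smul v).add (IsMF.smul _ (IsMF.sub ?_ ?_))
      · exact (isMF_E4.pow 2).mul' ha' (by push_cast; ring)
      · exact (isMF_E6.pow 2).mul' hb' (by push_cast; ring)
    · have h1 : a = v • h + Dl * a' := by rw [← haa']; ring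
      rw [h1, hdec]
      funext z
      have h2 := Dl_eq z
      have h3 := congrFun hP z
      have h4 := congrFun hdec' z
      simp only [Pi.mul_apply, Pi.add_apply, Pi.smul_apply, Pi.pow_apply, Pi.sub_apply,
        smul_eq_mul] at h3 h4 ⊢
      have h5 : Dl z = (1728 : ℂ)⁻¹ * (E4 z ^ 3 - E6 z ^ 2) := by
        rw [← h2]; field_simp
      rw [h5]
      linear_combination (-(1728 : ℂ)⁻¹) * h3 + (-(1728 : ℂ)⁻¹ * E6 z ^ 2) * h4

theorem IsMF.exists_decomp {n : ℤ} {a : ℍ → ℂ} (ha : IsMF ⊤ n a) :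
    ∃ (b : ℍ → ℂ) (c : ℂ), IsMF ⊤ (n - 4) b ∧ a = E4 * b + c • P6 n :=
  IsMF.decomp _ n a rfl ha

end Fermat.Agent.S20
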