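import Mathlib
import Fermat.Agent.S20.LevelOne

set_option autoImplicit false

namespace Fermat.Agent.S20

open UpperHalfPlane ModularForm Filter Topology
open scoped MatrixGroups Manifold

variable {Γ : Subgroup SL(2, ℤ)}

/-- transformation law of the components, pointwise. -/
lemma comp_smul_apply {k : ℤ} {f : ℍ → ℂ} (hf : ∀ γ ∈ Γ, f ∣[k] γ = f) (h : SL(2, ℤ))
    (x : SL(2, ℤ) ⧸ Γ) (z : ℍ) :
    comp Γ k f x (h • z) = denom h z ^ k * comp Γ k f (h⁻¹ • x) z := by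
  rw [← comp_slash hf h x, SL_slash_apply, mul_comm, mul_assoc, ← zpow_add₀ (denom_ne_zero h z)]
  simp

lemma prod_zpow_eq_zpow_sum {ι : Type*} (s : Finset ι) {a : ℂ} (ha : a ≠ 0) (κ : ι → ℤ) :
    ∏ i ∈ s, a ^ κ i = a ^ ∑ i ∈ s, κ i := by
  classical
  induction s using Finset.induction_on with
  | empty => simp
  | insert i t hi IH => rw [Finset.prod_insert hi, Finset.sum_insert hi, IH, zpow_add₀ ha]

lemma boundedAtFilter_sum {ι α : Type*} {l : Filter α} (s : Finset ι) {F : ι → α → ℂ}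
    (h : ∀ i ∈ s, BoundedAtFilter l (F i)) : BoundedAtFilter l (∑ i ∈ s, F i) := by
  classical
  induction s using Finset.induction_on with
  | empty => simpa using const_boundedAtFilter l (0 : ℂ)
  | insert i t hi IH =>
    rw [Finset.sum_insert hi]
    exact (h i (Finset.mem_insert_self _ _)).add
      (IH fun j hj => h j (Finset.mem_insert_of_mem hj))

variable [Fintype (SL(2, ℤ) ⧸ Γ)] [DecidableEq (SL(2, ℤ) ⧸ Γ)]

/-- the determinant of the matrix of components of a family of forms. -/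
noncomputable def detForm (Γ : Subgroup SL(2, ℤ)) [Fintype (SL(2, ℤ) ⧸ Γ)]
    [DecidableEq (SL(2, ℤ) ⧸ Γ)] (κ : SL(2, ℤ) ⧸ Γ → ℤ) (φ : SL(2, ℤ) ⧸ Γ → ℍ → ℂ) (z : ℍ) : ℂ :=
  (Matrix.of fun x y => comp Γ (κ y) (φ y) x z).det

variable {κ κ' : SL(2, ℤ) ⧸ Γ → ℤ} {φ φ' : SL(2, ℤ) ⧸ Γ → ℍ → ℂ}

lemma detForm_smul (hφ : ∀ y, IsMF Γ (κ y) (φ y)) (h : SL(2, ℤ)) (z : ℍ) :
    detForm Γ κ φ (h • z) = (Equiv.Perm.sign (MulAction.toPerm h⁻¹ : Equiv.Perm (SL(2, ℤ) ⧸ Γ)) : ℂ)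
      * denom h z ^ (∑ y, κ y) * detForm Γ κ φ z := by
  unfold detForm
  have : (Matrix.of fun x y => comp Γ (κ y) (φ y) x (h • z)) =
      ((Matrix.of fun x y => comp Γ (κ y) (φ y) x z).submatrix
        (MulAction.toPerm h⁻¹ : Equiv.Perm (SL(2, ℤ) ⧸ Γ)) id) *
        Matrix.diagonal (fun y => denom h z ^ κ y) := by
    ext x y
    rw [Matrix.mul_diagonal]
    simp only [Matrix.of_apply, Matrix.submatrix_apply, id, MulAction.toPerm_apply]
    rw [comp_smul_apply (hφ y).inv, mul_comm]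
  rw [this, Matrix.det_mul, Matrix.det_permute, Matrix.det_diagonal,
    prod_zpow_eq_zpow_sum _ (denom_ne_zero h z)]
  ring

lemma detForm_mdiff (hφ : ∀ y, IsMF Γ (κ y) (φ y)) : MDiff (detForm Γ κ φ) := by
  have : detForm Γ κ φ = ∑ σ : Equiv.Perm (SL(2, ℤ) ⧸ Γ),
      ((Equiv.Perm.sign σ : ℤ) : ℂ) • ∏ y, comp Γ (κ y) (φ y) (σ y) := by
    funext z
    unfold detForm
    rw [Matrix.det_apply']
    simp [Finset.sum_apply, Finset.prod_apply]
  rw [this]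
  refine MDifferentiable.sum fun σ _ => MDifferentiable.const_smul _ ?_
  exact MDifferentiable.prod fun y _ => (hφ y).comp_holo _

lemma detForm_bdd (hφ : ∀ y, IsMF Γ (κ y) (φ y)) : IsBoundedAtImInfty (detForm Γ κ φ) := by
  have : detForm Γ κ φ = ∑ σ : Equiv.Perm (SL(2, ℤ) ⧸ Γ),
      ((Equiv.Perm.sign σ : ℤ) : ℂ) • ∏ y, comp Γ (κ y) (φ y) (σ y) := by
    funext z
    unfold detForm
    rw [Matrix.det_apply']
    simp [Finset.sum_apply, Finset.prod_apply]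
  rw [this]
  refine boundedAtFilter_sum _ fun σ _ => BoundedAtFilter.smul _ ?_
  exact BoundedAtFilter.prod _ fun y _ => (hφ y).comp_bdd _

lemma isMF_detForm_mul (hφ : ∀ y, IsMF Γ (κ y) (φ y)) (hφ' : ∀ y, IsMF Γ (κ' y) (φ' y)) :
    IsMF ⊤ (∑ y, κ y + ∑ y, κ' y) (detForm Γ κ φ * detForm Γ κ' φ') := by
  have hinv : ∀ h : SL(2, ℤ), (detForm Γ κ φ * detForm Γ κ' φ') ∣[∑ y, κ y + ∑ y, κ' y] h
      = detForm Γ κ φ * detForm Γ κ' φ' := by
    intro h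
    funext z
    rw [SL_slash_apply, Pi.mul_apply, Pi.mul_apply, detForm_smul hφ, detForm_smul hφ',
      zpow_neg, zpow_add₀ (denom_ne_zero h z)]
    have hs : ((Equiv.Perm.sign (MulAction.toPerm h⁻¹ : Equiv.Perm (SL(2, ℤ) ⧸ Γ)) : ℤ) : ℂ) *
        ((Equiv.Perm.sign (MulAction.toPerm h⁻¹ : Equiv.Perm (SL(2, ℤ) ⧸ Γ)) : ℤ) : ℂ) = 1 := by
      rcases Int.units_eq_one_or (Equiv.Perm.sign
        (MulAction.toPerm h⁻¹ : Equiv.Perm (SL(2, ℤ) ⧸ Γ))) with h1 | h1 <;> simp [h1]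
    have h1 := zpow_ne_zero (∑ y, κ y) (denom_ne_zero h z)
    have h2 := zpow_ne_zero (∑ y, κ' y) (denom_ne_zero h z)
    field_simp
    linear_combination (detForm Γ κ φ z * detForm Γ κ' φ' z) * hs
  refine ⟨(detForm_mdiff hφ).mul (detForm_mdiff hφ'), fun γ _ => hinv γ, fun g => ?_⟩
  rw [hinv g]
  exact (detForm_bdd hφ).mul (detForm_bdd hφ')

end Fermat.Agent.S20
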