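import Mathlib
import Fermat.Agent.S20.LevelOne

set_option autoImplicit false

namespace Fermat.Agent.S20

open UpperHalfPlane ModularForm
open scoped MatrixGroups Manifold

/-- A homogeneous free basis of `M_*(Γ)` over `M_*(SL(2,ℤ))`, indexed (non canonically)
by the cosets, with generically invertible matrix of components. -/
structure FreeBasis (Γ : Subgroup SL(2, ℤ)) [Fintype (SL(2, ℤ) ⧸ Γ)]
    [DecidableEq (SL(2, ℤ) ⧸ Γ)] where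
  k : SL(2, ℤ) ⧸ Γ → ℤ
  f : SL(2, ℤ) ⧸ Γ → ℍ → ℂ
  mf : ∀ i, IsMF Γ (k i) (f i)
  span : ∀ n g, IsMF Γ n g → ∃ a : SL(2, ℤ) ⧸ Γ → ℍ → ℂ,
    (∀ i, IsMF ⊤ (n - k i) (a i)) ∧ g = ∑ i, a i * f i
  indep : ∀ n (a : SL(2, ℤ) ⧸ Γ → ℍ → ℂ),
    (∀ i, IsMF ⊤ (n - k i) (a i)) → ∑ i, a i * f i = 0 → ∀ i, a i = 0
  det_ne : ∃ z : ℍ, (Matrix.of fun x i => comp Γ (k i) (f i) x z).det ≠ 0

namespace FreeBasis

variable {Γ : Subgroup SL(2, ℤ)} [Fintype (SL(2, ℤ) ⧸ Γ)] [DecidableEq (SL(2, ℤ) ⧸ Γ)]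

/-- the matrix of components of the basis -/
noncomputable def Phi (B : FreeBasis Γ) (z : ℍ) : Matrix (SL(2, ℤ) ⧸ Γ) (SL(2, ℤ) ⧸ Γ) ℂ :=
  Matrix.of fun x i => comp Γ (B.k i) (B.f i) x z

/-- the total weight -/
def K (B : FreeBasis Γ) : ℤ := ∑ i, B.k i

end FreeBasis

end Fermat.Agent.S20
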