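import Mathlib
import Fermat.Agent.S20.Basic

set_option autoImplicit false

namespace Fermat.Agent.S20

section F
variable {X : Type*} [Fintype X] [DecidableEq X]

theorem hasDerivAt_det {M : ℂ → Matrix X X ℂ} {M' : Matrix X X ℂ} {z : ℂ}
    (h : ∀ i j, HasDerivAt (fun w => M w i j) (M' i j) z) :
    HasDerivAt (fun w => (M w).det) (∑ j, ((M z).updateCol j (fun i => M' i j)).det) z := by
  have h1 : ∀ σ : Equiv.Perm X, HasDerivAt (fun w => ∏ i, M w (σ i) i)
      (∑ j, (∏ i ∈ Finset.univ.erase j, M z (σ i) i) • M' (σ j) j) z := by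
    intro σ
    have := HasDerivAt.fun_finsetProd (u := Finset.univ) (f := fun i w => M w (σ i) i)
      (f' := fun i => M' (σ i) i) (x := z) (fun i _ => h (σ i) i)
    exact this
  have h2 : HasDerivAt (fun w => ∑ σ : Equiv.Perm X, (Equiv.Perm.sign σ : ℤ) • ∏ i, M w (σ i) i)
      (∑ σ : Equiv.Perm X, (Equiv.Perm.sign σ : ℤ) •
        (∑ j, (∏ i ∈ Finset.univ.erase j, M z (σ i) i) • M' (σ j) j)) z := by
    apply HasDerivAt.fun_sum
    intro σ _
    have := (h1 σ).const_mul (((Equiv.Perm.sign σ : ℤ) : ℂ))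
    simpa [zsmul_eq_mul] using this
  have e1 : (fun w => (M w).det) =
      fun w => ∑ σ : Equiv.Perm X, (Equiv.Perm.sign σ : ℤ) • ∏ i, M w (σ i) i := by
    ext w
    rw [Matrix.det_apply]
    rfl
  rw [e1]
  convert h2 using 1
  simp_rw [Matrix.det_apply, Finset.smul_sum]
  rw [Finset.sum_comm]
  refine Finset.sum_congr rfl fun σ _ => Finset.sum_congr rfl fun j _ => ?_
  congr 1
  rw [← Finset.mul_prod_erase Finset.univ _ (Finset.mem_univ j)]
  rw [Matrix.updateCol_self, smul_eq_mul, mul_comm]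
  congr 1
  refine Finset.prod_congr rfl fun i hi => ?_
  rw [Matrix.updateCol_ne (Finset.ne_of_mem_erase hi)]

theorem hasDerivAt_det_of_eq_mul {M : ℂ → Matrix X X ℂ} {M' B : Matrix X X ℂ} {z : ℂ}
    (h : ∀ i j, HasDerivAt (fun w => M w i j) (M' i j) z) (hB : M' = M z * B) :
    HasDerivAt (fun w => (M w).det) (B.trace * (M z).det) z := by
  convert hasDerivAt_det h using 1
  have : ∀ j, ((M z).updateCol j (fun i => M' i j)).det = ((M z).adjugate * M') j j := by
    intro j
    rw [← Matrix.cramer_apply, Matrix.cramer_eq_adjugate_mulVec]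
    rfl
  simp_rw [this, hB, ← Matrix.mul_assoc, Matrix.adjugate_mul]
  simp [Matrix.trace, Finset.mul_sum, mul_comm]
end F

end Fermat.Agent.S20
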