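import Mathlib
import Fermat.Agent.S20.Basic

set_option autoImplicit false

namespace Fermat.Agent.S20

open UpperHalfPlane ModularForm CongruenceSubgroup
open scoped MatrixGroups Manifold

namespace Serre

open Derivative

/-- Cauchy estimate: the normalised derivative of a bounded holomorphic function is bounded. -/
theorem isBoundedAtImInfty_D {F : ℍ → ℂ} (hF : MDiff F) (hb : IsBoundedAtImInfty F) :
    IsBoundedAtImInfty (normalizedDerivOfComplex F) := by
  rw [UpperHalfPlane.isBoundedAtImInfty_iff] at hb ⊢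
  obtain ⟨M, A, h⟩ := hb
  have hdiff : DifferentiableOn ℂ (F ∘ ofComplex) upperHalfPlaneSet :=
    UpperHalfPlane.mdifferentiable_iff.mp hF
  refine ⟨‖(2 * (Real.pi : ℂ) * Complex.I)⁻¹‖ * (M / 1), max A 0 + 2, fun z hz => ?_⟩
  have hzA : A + 2 ≤ z.im := le_trans (by gcongr; exact le_max_left _ _) hz
  have hz0 : (2 : ℝ) ≤ z.im := le_trans (by have := le_max_right A 0; linarith) hz
  have him : ∀ w ∈ Metric.closedBall (z : ℂ) 1, z.im - 1 ≤ w.im := by
    intro w hw
    rw [Metric.mem_closedBall, dist_eq_norm] at hw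
    have h1 : |(w - (z : ℂ)).im| ≤ ‖w - (z : ℂ)‖ := Complex.abs_im_le_norm _
    have h2 := (abs_le.mp (h1.trans hw)).1
    simp only [Complex.sub_im, coe_im] at h2
    linarith
  have hsub : Metric.closedBall (z : ℂ) 1 ⊆ upperHalfPlaneSet := by
    intro w hw
    have := him w hw
    show 0 < w.im
    linarith
  have hd : DiffContOnCl ℂ (F ∘ ofComplex) (Metric.ball (z : ℂ) 1) :=
    hdiff.diffContOnCl_ball hsub
  have hC : ∀ w ∈ Metric.sphere (z : ℂ) 1, ‖(F ∘ ofComplex) w‖ ≤ M := by
    intro w hw
    have hw' := him w (Metric.sphere_subset_closedBall hw)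
    have hpos : 0 < w.im := by linarith
    rw [Function.comp_apply, ofComplex_apply_of_im_pos hpos]
    apply h
    show A ≤ w.im
    linarith
  have := Complex.norm_deriv_le_of_forall_mem_sphere_norm_le one_pos hd hC
  unfold normalizedDerivOfComplex
  rw [norm_mul]
  gcongr

theorem isBoundedAtImInfty_serre {F : ℍ → ℂ} (k : ℂ) (hF : MDiff F) (hb : IsBoundedAtImInfty F) :
    IsBoundedAtImInfty (serreDerivative k F) := by
  have h1 := isBoundedAtImInfty_D hF hb
  have h2 : IsBoundedAtImInfty (fun z => k * 12⁻¹ * EisensteinSeries.E2 z * F z) := by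
    have h3 : IsBoundedAtImInfty (EisensteinSeries.E2 * F) :=
      EisensteinSeries.isBoundedAtImInfty_E2.mul hb
    have h4 : IsBoundedAtImInfty ((k * 12⁻¹) • (EisensteinSeries.E2 * F)) :=
      h3.const_smul_left (k * 12⁻¹)
    have h5 : (fun z => k * 12⁻¹ * EisensteinSeries.E2 z * F z) =
        (k * 12⁻¹) • (EisensteinSeries.E2 * F) := by
      ext z
      simp [mul_assoc]
    rw [h5]
    exact h4
  exact h1.sub h2

end Serre

section A
variable {Γ : Subgroup SL(2, ℤ)} {k : ℤ} {f : ℍ → ℂ}

theorem IsMF.serre (hf : IsMF Γ k f) : IsMF Γ (k + 2) (Derivative.serreDerivative k f) :=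
  ⟨Derivative.serreDerivative_mdifferentiable _ hf.holo,
    fun γ hγ => Derivative.serreDerivative_slash_invariant hf.holo (hf.inv γ hγ),
    fun g => by
      rw [Derivative.serreDerivative_slash_equivariant hf.holo]
      exact Serre.isBoundedAtImInfty_serre _ (hf.holo.slash k _) (hf.bdd g)⟩

theorem comp_serre (hf : IsMF Γ k f) (x : SL(2, ℤ) ⧸ Γ) :
    comp Γ (k + 2) (Derivative.serreDerivative k f) x =
      Derivative.serreDerivative k (comp Γ k f x) :=
  Derivative.serreDerivative_slash_equivariant hf.holo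

theorem serre_discriminant : Derivative.serreDerivative 12 ModularForm.discriminant = 0 := by
  ext z
  have hη : DifferentiableAt ℂ ModularForm.eta (z : ℂ) :=
    ModularForm.differentiableAt_eta_of_mem_upperHalfPlaneSet z.2
  have hne : ModularForm.eta (z : ℂ) ≠ 0 := ModularForm.eta_ne_zero z.2
  have hlog := ModularForm.logDeriv_eta_eq_E2 z
  rw [logDeriv_apply, div_eq_iff hne] at hlog
  have hev : (ModularForm.discriminant ∘ ofComplex) =ᶠ[nhds (z : ℂ)]
      fun w => ModularForm.eta w ^ 24 := by
    filter_upwards [isOpen_upperHalfPlaneSet.mem_nhds z.im_pos] with w hw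
    simp [ModularForm.discriminant, ofComplex_apply_of_im_pos hw]
  have hder : deriv (ModularForm.discriminant ∘ ofComplex) (z : ℂ) =
      24 * ModularForm.eta (z : ℂ) ^ 23 * deriv ModularForm.eta (z : ℂ) := by
    rw [hev.deriv_eq, deriv_fun_pow hη]
    norm_num
  have hpi : (Real.pi : ℂ) ≠ 0 := by exact_mod_cast Real.pi_ne_zero
  simp only [Derivative.serreDerivative_apply, Derivative.normalizedDerivOfComplex, hder, hlog,
    ModularForm.discriminant, Pi.zero_apply]
  field_simp
  ring
end A

end Fermat.Agent.S20
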