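import Mathlib
import Fermat.Agent.S20.FreeBasis
import Fermat.Agent.S20.DetForm
import Fermat.Agent.S20.Serre
import Fermat.Agent.S20.Jacobi

set_option autoImplicit false

namespace Fermat.Agent.S20

open UpperHalfPlane hiding I
open ModularForm Filter Topology Complex
open scoped MatrixGroups Manifold Real

variable {Γ : Subgroup SL(2, ℤ)} [Fintype (SL(2, ℤ) ⧸ Γ)] [DecidableEq (SL(2, ℤ) ⧸ Γ)]

/-- derivative of a holomorphic function on `ℍ` in terms of the normalised derivative. -/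
lemma hasDerivAt_of_mdiff {F : ℍ → ℂ} (hF : MDiff F) (z : ℍ) :
    HasDerivAt (F ∘ ofComplex) (2 * π * I * Derivative.normalizedDerivOfComplex F z) z := by
  have h := (UpperHalfPlane.mdifferentiableAt_iff.mp (hF z)).hasDerivAt
  have h2 : 2 * π * I * Derivative.normalizedDerivOfComplex F z = deriv (F ∘ ofComplex) z := by
    unfold Derivative.normalizedDerivOfComplex
    have : (2 * π * I : ℂ) ≠ 0 := Complex.two_pi_I_ne_zero
    field_simp
  rw [h2]; exact h

lemma normalizedDeriv_eq_serre (k : ℂ) (F : ℍ → ℂ) (z : ℍ) :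
    Derivative.normalizedDerivOfComplex F z =
      Derivative.serreDerivative k F z + k * 12⁻¹ * EisensteinSeries.E2 z * F z := by
  rw [Derivative.serreDerivative_apply]; ring

lemma hasDerivAt_Dl (z : ℍ) :
    HasDerivAt (Dl ∘ ofComplex) (2 * π * I * (EisensteinSeries.E2 z * Dl z)) z := by
  have h := hasDerivAt_of_mdiff isCF_Dl.holo z
  rw [normalizedDeriv_eq_serre 12] at h
  have h0 : Derivative.serreDerivative 12 Dl z = 0 := congrFun serre_discriminant z
  rw [h0] at h
  have h2 : 2 * π * I * (EisensteinSeries.E2 z * Dl z) =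
      2 * π * I * (0 + 12 * 12⁻¹ * EisensteinSeries.E2 z * Dl z) := by ring
  rw [h2]; exact h

namespace FreeBasis

variable (B : FreeBasis Γ)

/-- the connection matrix of the Serre derivative. -/
lemma exists_connection : ∃ b : SL(2, ℤ) ⧸ Γ → SL(2, ℤ) ⧸ Γ → ℍ → ℂ, (∀ i, b i i = 0) ∧
    ∀ i x, Derivative.serreDerivative (B.k i) (comp Γ (B.k i) (B.f i) x) =
      ∑ j, b i j * comp Γ (B.k j) (B.f j) x := by
  have h : ∀ i, ∃ a : SL(2, ℤ) ⧸ Γ → ℍ → ℂ, (∀ j, IsMF ⊤ (B.k i + 2 - B.k j) (a j)) ∧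
      Derivative.serreDerivative (B.k i) (B.f i) = ∑ j, a j * B.f j :=
    fun i => B.span _ _ (B.mf i).serre
  choose b hb hsum using h
  refine ⟨b, fun i => ?_, fun i x => ?_⟩
  · exact IsMF.eq_zero_of_two ((hb i i).weight_cast (by ring))
  · rw [← comp_serre (B.mf i), hsum i, comp_sum]
    exact Finset.sum_congr rfl fun j _ => comp_mul_top (hb i j) (by ring) x

lemma hasDerivAt_det (z : ℍ) :
    HasDerivAt (fun w : ℂ => (B.Phi (ofComplex w)).det)
      (2 * π * I * ((B.K : ℂ) * 12⁻¹ * EisensteinSeries.E2 z) * (B.Phi z).det) z := by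
  obtain ⟨b, hb0, hb⟩ := B.exists_connection
  set Bm : Matrix (SL(2, ℤ) ⧸ Γ) (SL(2, ℤ) ⧸ Γ) ℂ := Matrix.of fun j i =>
    2 * π * I * (b i j z + if j = i then (B.k i : ℂ) * 12⁻¹ * EisensteinSeries.E2 z else 0) with hBm
  have hder : ∀ x i, HasDerivAt (fun w : ℂ => B.Phi (ofComplex w) x i)
      ((B.Phi (ofComplex (z : ℂ)) * Bm) x i) z := by
    intro x i
    have h1 := hasDerivAt_of_mdiff ((B.mf i).comp_holo x) z
    rw [normalizedDeriv_eq_serre (B.k i), hb i x] at h1
    have h2 : (B.Phi (ofComplex (z : ℂ)) * Bm) x i = 2 * π * I *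
        ((∑ j, b i j * comp Γ (B.k j) (B.f j) x) z +
          (B.k i : ℂ) * 12⁻¹ * EisensteinSeries.E2 z * comp Γ (B.k i) (B.f i) x z) := by
      rw [ofComplex_apply, Matrix.mul_apply, Finset.sum_apply]
      simp only [hBm, Matrix.of_apply, Phi, Pi.mul_apply, mul_add, Finset.sum_add_distrib, mul_ite,
        mul_zero, Finset.sum_ite_eq', Finset.mem_univ, if_true, Finset.mul_sum]
      congr 1
      · exact Finset.sum_congr rfl fun j _ => by ring
      · ring
    rw [h2]
    exact h1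
  have h3 := hasDerivAt_det_of_eq_mul (M := fun w : ℂ => B.Phi (ofComplex w)) hder rfl
  have h4 : Bm.trace = 2 * π * I * ((B.K : ℂ) * 12⁻¹ * EisensteinSeries.E2 z) := by
    rw [Matrix.trace]
    simp only [Matrix.diag_apply, hBm, Matrix.of_apply, hb0, Pi.zero_apply, zero_add, if_true]
    rw [← Finset.mul_sum, ← Finset.sum_mul, ← Finset.sum_mul, K]
    push_cast
    ring
  rw [h4, ofComplex_apply] at h3
  exact h3

theorem det_pow_eq : ∃ c : ℂ, c ≠ 0 ∧ ∀ z : ℍ, (B.Phi z).det ^ 12 = c * Dl z ^ B.K := by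
  set u : ℂ → ℂ := fun w => (B.Phi (ofComplex w)).det ^ 12 * (Dl (ofComplex w)) ^ (-B.K) with hu
  have hderiv : ∀ z : ℍ, HasDerivAt u 0 z := by
    intro z
    have h1 := (B.hasDerivAt_det z).pow 12
    have h2 := (hasDerivAt_zpow (-B.K) (Dl z) (Or.inl (Dl_ne_zero z)))
    have h2' : HasDerivAt (fun x : ℂ => x ^ (-B.K)) (((-B.K : ℤ) : ℂ) * Dl z ^ (-B.K - 1))
        ((Dl ∘ ofComplex) (z : ℂ)) := by
      simpa using h2
    have h3 := h2'.comp (z : ℂ) (hasDerivAt_Dl z)
    have h4 := h1.mul h3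
    have h5 : Dl z ^ (-B.K - 1) * Dl z = Dl z ^ (-B.K) := by
      rw [← zpow_add_one₀ (Dl_ne_zero z)]; congr 1; ring
    refine (h4.congr_deriv ?_).congr_of_eventuallyEq (Filter.Eventually.of_forall fun w => ?_)
    · simp only [Function.comp_apply, ofComplex_apply, Pi.pow_apply]
      push_cast
      linear_combination
        (-(B.Phi z).det ^ 12 * (B.K : ℂ) * (2 * π * I * EisensteinSeries.E2 z)) * h5
    · simp [hu]
  have hconst : ∀ z w : ℍ, u z = u w := by
    intro z w
    refine isOpen_upperHalfPlaneSet.is_const_of_deriv_eq_zero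
      (convex_halfSpace_im_gt 0).isPreconnected ?_ ?_ z.2 w.2
    · intro x hx
      exact (hderiv ⟨x, hx⟩).differentiableAt.differentiableWithinAt
    · intro x hx
      exact (hderiv ⟨x, hx⟩).deriv
  obtain ⟨z0, hz0⟩ := B.det_ne
  refine ⟨u z0, ?_, fun z => ?_⟩
  · simp only [hu, ofComplex_apply]
    exact mul_ne_zero (pow_ne_zero _ hz0) (zpow_ne_zero _ (Dl_ne_zero z0))
  · rw [hconst z0 z]
    simp only [hu, ofComplex_apply]
    rw [mul_assoc, ← zpow_add₀ (Dl_ne_zero z)]
    simp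

theorem det_ne_zero (z : ℍ) : (B.Phi z).det ≠ 0 := by
  obtain ⟨c, hc, h⟩ := B.det_pow_eq
  intro h0
  have := h z
  rw [h0, zero_pow (by norm_num)] at this
  exact mul_ne_zero hc (zpow_ne_zero _ (Dl_ne_zero z)) this.symm

end FreeBasis

end Fermat.Agent.S20
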