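import Mathlib
import Fermat.Agent.S20.FreeBasis
import Fermat.Agent.S20.DetForm

set_option autoImplicit false
set_option linter.unusedSectionVars false

namespace Fermat.Agent.S20

open UpperHalfPlane ModularForm Filter Topology
open scoped MatrixGroups Manifold

variable {Γ : Subgroup SL(2, ℤ)} [Γ.FiniteIndex] [Fintype (SL(2, ℤ) ⧸ Γ)]
  [DecidableEq (SL(2, ℤ) ⧸ Γ)]

/-- the determinant of a matrix of holomorphic functions is holomorphic. -/
lemma dual_mdiff_det {ι : Type} [Fintype ι] [DecidableEq ι] {M : ℍ → Matrix ι ι ℂ}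
    (hM : ∀ x y, MDiff (fun z => M z x y)) : MDiff (fun z => (M z).det) := by
  have : (fun z => (M z).det) = ∑ σ : Equiv.Perm ι,
      ((Equiv.Perm.sign σ : ℤ) : ℂ) • ∏ y, (fun z => M z (σ y) y) := by
    funext z
    rw [Matrix.det_apply']
    simp [Finset.sum_apply, Finset.prod_apply]
  rw [this]
  refine MDifferentiable.sum fun σ _ => ?_
  have h1 : MDiff (∏ y, (fun z => M z (σ y) y)) := MDifferentiable.prod fun y _ => hM _ _
  exact h1.const_smul _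

namespace FreeBasis

/-- the dual family: `Δ` times the entries of the inverse matrix of components. -/
noncomputable def dualG (B : FreeBasis Γ) (i x : SL(2, ℤ) ⧸ Γ) : ℍ → ℂ :=
  fun z => Dl z * (B.Phi z)⁻¹ i x

lemma dual_Phi_smul (B : FreeBasis Γ) (h : SL(2, ℤ)) (z : ℍ) (x i : SL(2, ℤ) ⧸ Γ) :
    B.Phi (h • z) x i = denom h z ^ B.k i * B.Phi z (h⁻¹ • x) i :=
  comp_smul_apply (B.mf i).inv h x z

lemma dual_Phi_inv_mul (B : FreeBasis Γ) (hdet : ∀ z : ℍ, (B.Phi z).det ≠ 0) (z : ℍ) :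
    (B.Phi z)⁻¹ * B.Phi z = 1 :=
  Matrix.nonsing_inv_mul _ (isUnit_iff_ne_zero.mpr (hdet z))

lemma dual_Phi_mul_inv (B : FreeBasis Γ) (hdet : ∀ z : ℍ, (B.Phi z).det ≠ 0) (z : ℍ) :
    B.Phi z * (B.Phi z)⁻¹ = 1 :=
  Matrix.mul_nonsing_inv _ (isUnit_iff_ne_zero.mpr (hdet z))

lemma dual_Phi_inv_smul (B : FreeBasis Γ) (hdet : ∀ z : ℍ, (B.Phi z).det ≠ 0) (h : SL(2, ℤ)) (z : ℍ)
    (i x : SL(2, ℤ) ⧸ Γ) :
    (B.Phi (h • z))⁻¹ i x = denom h z ^ (-B.k i) * (B.Phi z)⁻¹ i (h⁻¹ • x) := by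
  have key : (B.Phi (h • z))⁻¹ =
      Matrix.of fun i x => denom h z ^ (-B.k i) * (B.Phi z)⁻¹ i (h⁻¹ • x) := by
    apply Matrix.inv_eq_left_inv
    ext i j
    rw [Matrix.mul_apply]
    simp only [Matrix.of_apply, dual_Phi_smul]
    have h1 : ∑ x, (B.Phi z)⁻¹ i (h⁻¹ • x) * B.Phi z (h⁻¹ • x) j = (1 : Matrix _ _ ℂ) i j := by
      rw [← B.dual_Phi_inv_mul hdet z, Matrix.mul_apply]
      exact Equiv.sum_comp (MulAction.toPerm h⁻¹) (fun x => (B.Phi z)⁻¹ i x * B.Phi z x j)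
    have h2 : ∀ x, denom h z ^ (-B.k i) * (B.Phi z)⁻¹ i (h⁻¹ • x) *
        (denom h z ^ B.k j * B.Phi z (h⁻¹ • x) j) =
        (denom h z ^ (-B.k i) * denom h z ^ B.k j) *
          ((B.Phi z)⁻¹ i (h⁻¹ • x) * B.Phi z (h⁻¹ • x) j) := fun x => by ring
    simp only [h2]
    rw [← Finset.mul_sum, h1]
    by_cases hij : i = j
    · subst hij
      rw [← zpow_add₀ (denom_ne_zero h z)]
      simp
    · simp [Matrix.one_apply_ne hij]
  rw [key, Matrix.of_apply]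

lemma dual_Dl_smul (h : SL(2, ℤ)) (z : ℍ) : Dl (h • z) = denom h z ^ (12 : ℤ) * Dl z := by
  have h1 := congrFun (isCF_Dl.inv h trivial) z
  rw [SL_slash_apply] at h1
  rw [← h1, mul_comm, mul_assoc, ← zpow_add₀ (denom_ne_zero h z)]
  simp

lemma dualG_smul (B : FreeBasis Γ) (hdet : ∀ z : ℍ, (B.Phi z).det ≠ 0) (h : SL(2, ℤ)) (z : ℍ)
    (i x : SL(2, ℤ) ⧸ Γ) :
    B.dualG i x (h • z) = denom h z ^ (12 - B.k i) * B.dualG i (h⁻¹ • x) z := by
  unfold dualG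
  rw [dual_Dl_smul, B.dual_Phi_inv_smul hdet, sub_eq_add_neg, zpow_add₀ (denom_ne_zero h z)]
  ring

lemma dualG_slash (B : FreeBasis Γ) (hdet : ∀ z : ℍ, (B.Phi z).det ≠ 0) (h : SL(2, ℤ))
    (i x : SL(2, ℤ) ⧸ Γ) :
    B.dualG i x ∣[12 - B.k i] h = B.dualG i (h⁻¹ • x) := by
  funext z
  rw [SL_slash_apply, B.dualG_smul hdet, mul_comm, ← mul_assoc, ← zpow_add₀ (denom_ne_zero h z)]
  simp

lemma dual_Phi_mdiff (B : FreeBasis Γ) (x i : SL(2, ℤ) ⧸ Γ) : MDiff (fun z => B.Phi z x i) :=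
  (B.mf i).comp_holo x

lemma dualG_mdiff (B : FreeBasis Γ) (hdet : ∀ z : ℍ, (B.Phi z).det ≠ 0) (i x : SL(2, ℤ) ⧸ Γ) :
    MDiff (B.dualG i x) := by
  have : B.dualG i x = Dl * ((fun z => ((B.Phi z).updateRow x (Pi.single i 1)).det) /
      (fun z => (B.Phi z).det)) := by
    funext z
    simp only [dualG, Pi.mul_apply, Pi.div_apply]
    rw [Matrix.inv_def, Matrix.smul_apply, Matrix.adjugate_apply, Ring.inverse_eq_inv', smul_eq_mul]
    ring
  rw [this]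
  refine isCF_Dl.holo.mul (MDifferentiable.div ?_ (dual_mdiff_det fun x y => B.dual_Phi_mdiff x y) hdet)
  refine dual_mdiff_det fun a b => ?_
  by_cases hax : a = x
  · subst hax
    simp only [Matrix.updateRow_self]
    exact fun _ => mdifferentiableAt_const
  · simp only [Matrix.updateRow_ne hax]
    exact B.dual_Phi_mdiff a b

/-- the base coset -/
local notation "x₀" => ((1 : SL(2, ℤ)) : SL(2, ℤ) ⧸ Γ)

lemma isCF_dualG (B : FreeBasis Γ) (hdet : ∀ z : ℍ, (B.Phi z).det ≠ 0)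
    (hzero : ∀ i x, IsZeroAtImInfty (fun z : ℍ => Dl z * (B.Phi z)⁻¹ i x)) (i : SL(2, ℤ) ⧸ Γ) :
    IsCF Γ (12 - B.k i) (B.dualG i x₀) := by
  refine ⟨B.dualG_mdiff hdet i _, fun γ hγ => ?_, fun g => ?_⟩
  · rw [B.dualG_slash hdet]
    congr 1
    rw [MulAction.Quotient.smul_mk, QuotientGroup.eq]
    simpa using hγ
  · rw [B.dualG_slash hdet]
    exact hzero i _

lemma dualG_ne_zero (B : FreeBasis Γ) (hdet : ∀ z : ℍ, (B.Phi z).det ≠ 0) (i : SL(2, ℤ) ⧸ Γ) :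
    B.dualG i x₀ ≠ 0 := by
  intro h0
  have h1 : ∀ x, B.dualG i x = 0 := by
    intro x
    induction x using QuotientGroup.induction_on with
    | H g =>
      have := B.dualG_slash hdet g⁻¹ i x₀
      rw [h0, SlashAction.zero_slash, inv_inv, MulAction.Quotient.smul_mk, smul_eq_mul, mul_one] at this
      exact this.symm
  have h2 := congrFun (congrFun (B.dual_Phi_inv_mul hdet I) i) i
  rw [Matrix.mul_apply, Matrix.one_apply_eq] at h2
  have h3 : ∀ x, (B.Phi I)⁻¹ i x = 0 := fun x => by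
    have := congrFun (h1 x) I
    simpa [dualG, Dl_ne_zero] using this
  simp [h3] at h2

lemma dual_f_ne_zero (B : FreeBasis Γ) (hdet : ∀ z : ℍ, (B.Phi z).det ≠ 0) (i : SL(2, ℤ) ⧸ Γ) :
    B.f i ≠ 0 := by
  intro h0
  apply hdet I
  apply Matrix.det_eq_zero_of_column_eq_zero i
  intro x
  simp [Phi, h0, comp_zero]

theorem k_le_ten (B : FreeBasis Γ) (hΓ : -1 ∈ Γ) (hdet : ∀ z : ℍ, (B.Phi z).det ≠ 0)
    (hzero : ∀ i x, IsZeroAtImInfty (fun z : ℍ => Dl z * (B.Phi z)⁻¹ i x)) (i : SL(2, ℤ) ⧸ Γ) :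
    B.k i ≤ 10 := by
  have h1 : 0 < 12 - B.k i := by
    by_contra hcon
    exact B.dualG_ne_zero hdet i ((B.isCF_dualG hdet hzero i).eq_zero_of_nonpos (not_lt.mp hcon))
  have h2 : ¬ Odd (B.k i) := fun ho => B.dual_f_ne_zero hdet i ((B.mf i).eq_zero_of_odd hΓ ho)
  rw [Int.not_odd_iff_even] at h2
  obtain ⟨m, hm⟩ := h2
  omega

/-- the trace pairing of a cusp form of weight two with a basis element. -/
lemma dual_isCF_trace (B : FreeBasis Γ) {H : ℍ → ℂ} (hH : IsCF Γ 2 H) (i : SL(2, ℤ) ⧸ Γ) :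
    IsCF ⊤ (2 + B.k i) (∑ x, comp Γ 2 H x * comp Γ (B.k i) (B.f i) x) := by
  have hinv : ∀ h : SL(2, ℤ), (∑ x, comp Γ 2 H x * comp Γ (B.k i) (B.f i) x) ∣[2 + B.k i] h =
      ∑ x, comp Γ 2 H x * comp Γ (B.k i) (B.f i) x := by
    intro h
    rw [SlashAction.sum_slash]
    simp only [mul_slash_SL2, comp_slash hH.inv, comp_slash (B.mf i).inv]
    exact Equiv.sum_comp (MulAction.toPerm h⁻¹)
      (fun x => comp Γ 2 H x * comp Γ (B.k i) (B.f i) x)
  refine ⟨MDifferentiable.sum fun x _ => (hH.isMF.comp_holo x).mul ((B.mf i).comp_holo x),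
    fun γ _ => hinv γ, fun g => ?_⟩
  rw [hinv g]
  have h1 : ∀ x, Tendsto (comp Γ 2 H x * comp Γ (B.k i) (B.f i) x) atImInfty (𝓝 0) := fun x =>
    (hH.comp_zero x).mul_boundedAtFilter ((B.mf i).comp_bdd x)
  have h2 := tendsto_finsetSum Finset.univ fun x _ => h1 x
  simp only [Finset.sum_const_zero] at h2
  refine h2.congr fun z => ?_
  simp [Finset.sum_apply]

lemma dual_exists_coeff (B : FreeBasis Γ) (hΓ : -1 ∈ Γ) (hdet : ∀ z : ℍ, (B.Phi z).det ≠ 0)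
    (hzero : ∀ i x, IsZeroAtImInfty (fun z : ℍ => Dl z * (B.Phi z)⁻¹ i x))
    {H : ℍ → ℂ} (hH : IsCF Γ 2 H) :
    ∃ c : SL(2, ℤ) ⧸ Γ → ℂ, (∀ i, B.k i ≠ 10 → c i = 0) ∧ H = ∑ i, c i • B.dualG i x₀ := by
  have h1 : ∀ i, ∃ c : ℂ, (B.k i ≠ 10 → c = 0) ∧
      ∀ z, ∑ x, comp Γ 2 H x z * B.Phi z x i = Dl z * c := by
    intro i
    obtain ⟨b, hb, hb'⟩ := (B.dual_isCF_trace hH i).exists_eq_Dl_mul
    have hz : ∀ z, ∑ x, comp Γ 2 H x z * B.Phi z x i = Dl z * b z := by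
      intro z
      have := congrFun hb' z
      simpa [Finset.sum_apply, Phi] using this
    by_cases hk : B.k i = 10
    · obtain ⟨c, rfl⟩ := IsMF.eq_const (hb.weight_cast (by rw [hk]; norm_num))
      exact ⟨c, fun h => absurd hk h, hz⟩
    · have hlt : B.k i < 10 := lt_of_le_of_ne (B.k_le_ten hΓ hdet hzero i) hk
      have hb0 := hb.eq_zero_of_neg (by omega)
      refine ⟨0, fun _ => rfl, fun z => ?_⟩
      rw [hz z, hb0]; simp
  choose c hc hc' using h1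
  refine ⟨c, hc, ?_⟩
  funext z
  have h2 : H z = ∑ y, comp Γ 2 H y z * (B.Phi z * (B.Phi z)⁻¹) y x₀ := by
    rw [B.dual_Phi_mul_inv hdet z]
    simp [Matrix.one_apply, comp_one hH.inv]
  rw [h2]
  simp only [Matrix.mul_apply, Finset.mul_sum]
  rw [Finset.sum_comm]
  simp only [Finset.sum_apply, Pi.smul_apply, smul_eq_mul, dualG]
  refine Finset.sum_congr rfl fun i _ => ?_
  have h3 : ∑ y, comp Γ 2 H y z * (B.Phi z y i * (B.Phi z)⁻¹ i x₀) =
      (∑ y, comp Γ 2 H y z * B.Phi z y i) * (B.Phi z)⁻¹ i x₀ := by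
    rw [Finset.sum_mul]
    exact Finset.sum_congr rfl fun y _ => by ring
  rw [h3, hc']
  ring

lemma dualG_indep (B : FreeBasis Γ) (hdet : ∀ z : ℍ, (B.Phi z).det ≠ 0)
    (c : SL(2, ℤ) ⧸ Γ → ℂ) (hc : ∀ i, B.k i ≠ 10 → c i = 0)
    (h : ∑ i, c i • B.dualG i x₀ = 0) : c = 0 := by
  have h1 : ∀ x, ∑ i, c i * (B.Phi I)⁻¹ i x = 0 := by
    intro x
    induction x using QuotientGroup.induction_on with
    | H g =>
      have h2 := congrFun h (g⁻¹ • I)
      simp only [Finset.sum_apply, Pi.smul_apply, smul_eq_mul, Pi.zero_apply, B.dualG_smul hdet,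
        inv_inv, MulAction.Quotient.smul_mk, mul_one] at h2
      have h3 : ∀ i, c i * (denom (g⁻¹ : SL(2, ℤ)) I ^ (12 - B.k i) * B.dualG i (g : SL(2, ℤ) ⧸ Γ) I) =
          (denom (g⁻¹ : SL(2, ℤ)) I ^ (2 : ℤ) * Dl I) * (c i * (B.Phi I)⁻¹ i (g : SL(2, ℤ) ⧸ Γ)) := by
        intro i
        by_cases hk : B.k i = 10
        · rw [hk]; simp only [dualG]; norm_num; ring
        · rw [hc i hk]; simp
      simp only [h3] at h2
      rw [← Finset.mul_sum] at h2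
      exact (mul_eq_zero.mp h2).resolve_left
        (mul_ne_zero (zpow_ne_zero _ (denom_ne_zero _ _)) (Dl_ne_zero _))
  have h4 : Matrix.vecMul c (B.Phi I)⁻¹ = 0 := by
    funext x
    simpa [Matrix.vecMul, dotProduct] using h1 x
  have h5 : Matrix.vecMul c ((B.Phi I)⁻¹ * B.Phi I) = 0 := by
    rw [← Matrix.vecMul_vecMul, h4, Matrix.zero_vecMul]
  rwa [B.dual_Phi_inv_mul hdet, Matrix.vecMul_one] at h5

theorem finrank_cuspForm_two (B : FreeBasis Γ) (hΓ : -1 ∈ Γ)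
    (hdet : ∀ z : ℍ, (B.Phi z).det ≠ 0)
    (hzero : ∀ i x, IsZeroAtImInfty (fun z : ℍ => Dl z * (B.Phi z)⁻¹ i x)) :
    Module.finrank ℂ (CuspForm Γ 2) = (Finset.univ.filter fun i => B.k i = 10).card := by
  classical
  let v : {i // B.k i = 10} → CuspForm Γ 2 := fun i =>
    ((B.isCF_dualG hdet hzero i.1).weight_cast (by rw [i.2]; norm_num)).toCuspForm
  have hv : ∀ i, ⇑(v i) = B.dualG i.1 x₀ := fun i => rfl
  have hsum : ∀ c : SL(2, ℤ) ⧸ Γ → ℂ, (∀ i, B.k i ≠ 10 → c i = 0) →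
      ⇑(∑ i : {i // B.k i = 10}, c i.1 • v i) = ∑ i, c i • B.dualG i x₀ := by
    intro c hc
    have h1 : ⇑(∑ i : {i // B.k i = 10}, c i.1 • v i) =
        ∑ i : {i // B.k i = 10}, c i.1 • B.dualG i.1 x₀ := by
      rw [← FunLike.coeAddMonoidHom_apply, map_sum]
      rfl
    rw [h1]
    rw [← Finset.sum_subtype (Finset.univ.filter fun i => B.k i = 10) (by simp)
      (fun i => c i • B.dualG i x₀)]
    refine Finset.sum_subset (Finset.subset_univ _) fun i _ hi => ?_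
    rw [hc i (by simpa using hi), zero_smul]
  have hli : LinearIndependent ℂ v := by
    rw [Fintype.linearIndependent_iff]
    intro c hc i
    let c' : SL(2, ℤ) ⧸ Γ → ℂ := fun j => if h : B.k j = 10 then c ⟨j, h⟩ else 0
    have hc' : ∀ j, B.k j ≠ 10 → c' j = 0 := fun j hj => dif_neg hj
    have hcc : ∀ j : {i // B.k i = 10}, c' j.1 = c j := fun j => dif_pos j.2
    have h1 := hsum c' hc'
    simp only [hcc] at h1
    rw [hc] at h1
    have h2 := B.dualG_indep hdet c' hc' h1.symm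
    rw [← hcc i, h2]; rfl
  have hsp : ⊤ ≤ Submodule.span ℂ (Set.range v) := by
    intro H _
    obtain ⟨c, hc, hH⟩ := B.dual_exists_coeff hΓ hdet hzero (isCF_of_cuspForm H)
    have : H = ∑ i : {i // B.k i = 10}, c i.1 • v i := by
      apply DFunLike.coe_injective
      rw [hsum c hc, hH]
    rw [this]
    exact Submodule.sum_mem _ fun i _ => Submodule.smul_mem _ _ (Submodule.subset_span ⟨i, rfl⟩)
  rw [Module.finrank_eq_card_basis (Module.Basis.mk hli hsp), Fintype.card_subtype]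

end FreeBasis

end Fermat.Agent.S20
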