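import Mathlib

set_option autoImplicit false
set_option linter.unusedSectionVars false

namespace Fermat.Agent.S20

variable {X : Type*} [Fintype X] [DecidableEq X]

/-- eigenspace of the permutation operator -/
def permEigen (σ : Equiv.Perm X) (ζ : ℂ) : Submodule ℂ (X → ℂ) where
  carrier := {v | ∀ x, v (σ x) = ζ * v x}
  add_mem' := by intro a b ha hb x; simp [ha x, hb x, mul_add]
  zero_mem' := by intro x; simp
  smul_mem' := by intro c a ha x; simp [ha x]; ring

namespace PermEigen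

lemma trace_funLeft (f : X → X) :
    LinearMap.trace ℂ (X → ℂ) (LinearMap.funLeft ℂ ℂ f) = (Fintype.card {x // f x = x} : ℂ) := by
  rw [LinearMap.trace_eq_matrix_trace ℂ (Pi.basisFun ℂ X), Matrix.trace]
  have : ∀ x, (LinearMap.toMatrix (Pi.basisFun ℂ X) (Pi.basisFun ℂ X)
      (LinearMap.funLeft ℂ ℂ f)).diag x = if f x = x then 1 else 0 := by
    intro x
    simp [LinearMap.funLeft_apply, Pi.single_apply]
  simp_rw [this]
  rw [Finset.sum_boole, Fintype.card_subtype]

/-- the averaging operator -/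
noncomputable def proj (σ : Equiv.Perm X) (n : ℕ) (ζ : ℂ) : (X → ℂ) →ₗ[ℂ] (X → ℂ) :=
  (n : ℂ)⁻¹ • ∑ a ∈ Finset.range n, ζ⁻¹ ^ a • LinearMap.funLeft ℂ ℂ (⇑(σ ^ a))

lemma proj_apply (σ : Equiv.Perm X) (n : ℕ) (ζ : ℂ) (v : X → ℂ) (x : X) :
    proj σ n ζ v x = (n : ℂ)⁻¹ * ∑ a ∈ Finset.range n, ζ⁻¹ ^ a * v ((σ ^ a) x) := by
  simp [proj, LinearMap.funLeft_apply, Finset.sum_apply]

lemma mem_iff (σ : Equiv.Perm X) (ζ : ℂ) (v : X → ℂ) :
    v ∈ permEigen σ ζ ↔ ∀ x, v (σ x) = ζ * v x := Iff.rfl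

lemma apply_pow_of_mem {σ : Equiv.Perm X} {ζ : ℂ} {v : X → ℂ} (hv : v ∈ permEigen σ ζ)
    (a : ℕ) (x : X) : v ((σ ^ a) x) = ζ ^ a * v x := by
  induction a with
  | zero => simp
  | succ a ih =>
    rw [pow_succ', Equiv.Perm.mul_apply, hv, ih, pow_succ']
    ring

lemma isProj (σ : Equiv.Perm X) (n : ℕ) (hn : 0 < n) (hσ : σ ^ n = 1) (ζ : ℂ)
    (hζ : ζ ^ n = 1) : LinearMap.IsProj (permEigen σ ζ) (proj σ n ζ) := by
  have hζ0 : ζ ≠ 0 := by
    rintro rfl
    rw [zero_pow hn.ne'] at hζ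
    exact zero_ne_one hζ
  have hn0 : (n : ℂ) ≠ 0 := Nat.cast_ne_zero.mpr hn.ne'
  constructor
  · intro v x
    rw [proj_apply, proj_apply, mul_left_comm]
    congr 1
    rw [Finset.mul_sum]
    -- shift the index
    have h1 : ∑ a ∈ Finset.range n, ζ⁻¹ ^ a * v ((σ ^ a) (σ x))
        = ∑ a ∈ Finset.range n, ζ * (ζ⁻¹ ^ (a + 1) * v ((σ ^ (a + 1)) x)) := by
      refine Finset.sum_congr rfl fun a _ => ?_
      rw [pow_succ σ a, Equiv.Perm.mul_apply, pow_succ ζ⁻¹ a]
      field_simp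
    rw [h1, ← Finset.mul_sum, ← Finset.mul_sum]
    congr 1
    have h2 := Finset.sum_range_succ' (fun a => ζ⁻¹ ^ a * v ((σ ^ a) x)) n
    rw [Finset.sum_range_succ] at h2
    have h3 : ζ⁻¹ ^ n * v ((σ ^ n) x) = ζ⁻¹ ^ 0 * v ((σ ^ 0) x) := by
      rw [hσ, inv_pow, hζ]; simp
    rw [h3] at h2
    exact (add_right_cancel h2).symm
  · intro v hv
    ext x
    rw [proj_apply]
    have : ∀ a ∈ Finset.range n, ζ⁻¹ ^ a * v ((σ ^ a) x) = v x := by
      intro a _
      rw [apply_pow_of_mem hv, ← mul_assoc, ← mul_pow, inv_mul_cancel₀ hζ0, one_pow, one_mul]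
    rw [Finset.sum_congr rfl this, Finset.sum_const, Finset.card_range, nsmul_eq_mul,
      ← mul_assoc, inv_mul_cancel₀ hn0, one_mul]

end PermEigen

open PermEigen in
theorem finrank_permEigen (σ : Equiv.Perm X) (n : ℕ) (hn : 0 < n) (hσ : σ ^ n = 1) (ζ : ℂ)
    (hζ : ζ ^ n = 1) :
    (n : ℂ) * (Module.finrank ℂ (permEigen σ ζ) : ℂ) =
      ∑ a ∈ Finset.range n, ζ⁻¹ ^ a * (Fintype.card {x // (σ ^ a) x = x} : ℂ) := by
  have hn0 : (n : ℂ) ≠ 0 := Nat.cast_ne_zero.mpr hn.ne'
  have h := (isProj σ n hn hσ ζ hζ).trace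
  rw [← h, proj, map_smul, map_sum, smul_eq_mul, ← mul_assoc, mul_inv_cancel₀ hn0, one_mul]
  refine Finset.sum_congr rfl fun a _ => ?_
  rw [map_smul, trace_funLeft, smul_eq_mul]

lemma card_fixed_pow_zero (σ : Equiv.Perm X) :
    Fintype.card {x // (σ ^ 0) x = x} = Fintype.card X :=
  Fintype.card_congr (Equiv.subtypeUnivEquiv fun x => by simp)

lemma card_fixed_pow_one (σ : Equiv.Perm X) :
    Fintype.card {x // (σ ^ 1) x = x} = Fintype.card {x // σ x = x} :=
  Fintype.card_congr (Equiv.subtypeEquivRight fun x => by simp)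

lemma card_fixed_sq_of_pow_three (σ : Equiv.Perm X) (hσ : σ ^ 3 = 1) :
    Fintype.card {x // (σ ^ 2) x = x} = Fintype.card {x // σ x = x} := by
  refine Fintype.card_congr (Equiv.subtypeEquivRight fun x => ?_)
  constructor
  · intro h
    have h3 : (σ ^ 3) x = x := by rw [hσ]; rfl
    rw [pow_succ', Equiv.Perm.mul_apply, h] at h3
    exact h3
  · intro h
    rw [pow_two, Equiv.Perm.mul_apply, h, h]

theorem finrank_permEigen_two_one (σ : Equiv.Perm X) (hσ : σ ^ 2 = 1) :
    2 * Module.finrank ℂ (permEigen σ 1) = Fintype.card X + Fintype.card {x // σ x = x} := by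
  have h := finrank_permEigen σ 2 two_pos hσ 1 (by norm_num)
  rw [Finset.sum_range_succ, Finset.sum_range_succ, Finset.sum_range_zero,
    card_fixed_pow_zero, card_fixed_pow_one] at h
  have h2 : ((2 * Module.finrank ℂ (permEigen σ 1) : ℕ) : ℂ)
      = ((Fintype.card X + Fintype.card {x // σ x = x} : ℕ) : ℂ) := by
    push_cast
    push_cast at h
    linear_combination h
  exact_mod_cast h2

theorem finrank_permEigen_two_neg_one (σ : Equiv.Perm X) (hσ : σ ^ 2 = 1) :
    2 * Module.finrank ℂ (permEigen σ (-1)) + Fintype.card {x // σ x = x} = Fintype.card X := by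
  have h := finrank_permEigen σ 2 two_pos hσ (-1) (by norm_num)
  rw [Finset.sum_range_succ, Finset.sum_range_succ, Finset.sum_range_zero,
    card_fixed_pow_zero, card_fixed_pow_one] at h
  have h1 : ((-1 : ℂ))⁻¹ = -1 := by norm_num
  rw [h1] at h
  have h2 : ((2 * Module.finrank ℂ (permEigen σ (-1)) + Fintype.card {x // σ x = x} : ℕ) : ℂ)
      = (Fintype.card X : ℂ) := by
    push_cast
    push_cast at h
    linear_combination h
  exact_mod_cast h2

theorem finrank_permEigen_three_one (σ : Equiv.Perm X) (hσ : σ ^ 3 = 1) :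
    3 * Module.finrank ℂ (permEigen σ 1) = Fintype.card X + 2 * Fintype.card {x // σ x = x} := by
  have h := finrank_permEigen σ 3 (by norm_num) hσ 1 (by norm_num)
  rw [Finset.sum_range_succ, Finset.sum_range_succ, Finset.sum_range_succ, Finset.sum_range_zero,
    card_fixed_pow_zero, card_fixed_pow_one, card_fixed_sq_of_pow_three σ hσ] at h
  have h2 : ((3 * Module.finrank ℂ (permEigen σ 1) : ℕ) : ℂ)
      = ((Fintype.card X + 2 * Fintype.card {x // σ x = x} : ℕ) : ℂ) := by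
    push_cast
    push_cast at h
    linear_combination h
  exact_mod_cast h2

theorem finrank_permEigen_three_prim (σ : Equiv.Perm X) (hσ : σ ^ 3 = 1) (ζ : ℂ)
    (hζ : ζ ^ 2 + ζ + 1 = 0) :
    3 * Module.finrank ℂ (permEigen σ ζ) + Fintype.card {x // σ x = x} = Fintype.card X := by
  have hζ3 : ζ ^ 3 = 1 := by linear_combination (ζ - 1) * hζ
  have hζ0 : ζ ≠ 0 := by
    rintro rfl
    norm_num at hζ
  have hinv : ζ⁻¹ = ζ ^ 2 := by
    field_simp
    linear_combination -hζ3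
  have h := finrank_permEigen σ 3 (by norm_num) hσ ζ hζ3
  rw [Finset.sum_range_succ, Finset.sum_range_succ, Finset.sum_range_succ, Finset.sum_range_zero,
    card_fixed_pow_zero, card_fixed_pow_one, card_fixed_sq_of_pow_three σ hσ, hinv] at h
  have h2 : ((3 * Module.finrank ℂ (permEigen σ ζ) + Fintype.card {x // σ x = x} : ℕ) : ℂ)
      = (Fintype.card X : ℂ) := by
    push_cast
    push_cast at h
    have h4 : (ζ ^ 2) ^ 2 = ζ := by linear_combination ζ * hζ3
    rw [h4] at h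
    linear_combination h + (Fintype.card {x // σ x = x} : ℂ) * hζ
  exact_mod_cast h2

end Fermat.Agent.S20
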