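import Mathlib
import Fermat.Agent.S20.FreeBasis
import Fermat.Agent.S20.PermEigen
import Fermat.Agent.S20.DetForm

set_option autoImplicit false
set_option linter.unusedSectionVars false

namespace Fermat.Agent.S20

open UpperHalfPlane ModularForm Filter Topology
open scoped MatrixGroups Manifold

namespace Elliptic

/-! ### generic linear algebra -/

section Generic

variable {X : Type*} [Fintype X] [DecidableEq X]

lemma card_le_finrank (M : Matrix X X ℂ) (hM : M.det ≠ 0) (σ : Equiv.Perm X) (c : ℂ)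
    (p : X → Prop) [DecidablePred p] (h : ∀ i, p i → ∀ x, M (σ x) i = c * M x i) :
    (Finset.univ.filter p).card ≤ Module.finrank ℂ (permEigen σ c) := by
  classical
  have hli : LinearIndependent ℂ M.col := Matrix.linearIndependent_cols_of_det_ne_zero hM
  have hli2 : LinearIndependent ℂ (fun i : {i // p i} => M.col i.1) :=
    hli.comp Subtype.val Subtype.val_injective
  let v : {i // p i} → permEigen σ c := fun i => ⟨M.col i.1, fun x => h i.1 i.2 x⟩
  have hli3 : LinearIndependent ℂ v := by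
    apply LinearIndependent.of_comp (permEigen σ c).subtype
    exact hli2
  have := hli3.fintype_card_le_finrank
  rwa [Fintype.card_subtype] at this

lemma card_filter_add_two (p q : X → Prop) [DecidablePred p] [DecidablePred q]
    (h : ∀ i, (p i ∧ ¬ q i) ∨ (¬ p i ∧ q i)) :
    (Finset.univ.filter p).card + (Finset.univ.filter q).card = Fintype.card X := by
  rw [Finset.card_filter, Finset.card_filter, ← Finset.sum_add_distrib, ← Finset.card_univ,
    Finset.card_eq_sum_ones]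
  refine Finset.sum_congr rfl fun i _ => ?_
  rcases h i with ⟨h1, h2⟩ | ⟨h1, h2⟩ <;> simp [h1, h2]

lemma card_filter_add_three (p q r : X → Prop) [DecidablePred p] [DecidablePred q]
    [DecidablePred r]
    (h : ∀ i, (p i ∧ ¬ q i ∧ ¬ r i) ∨ (¬ p i ∧ q i ∧ ¬ r i) ∨ (¬ p i ∧ ¬ q i ∧ r i)) :
    (Finset.univ.filter p).card + (Finset.univ.filter q).card + (Finset.univ.filter r).card
      = Fintype.card X := by
  rw [Finset.card_filter, Finset.card_filter, Finset.card_filter, ← Finset.sum_add_distrib,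
    ← Finset.sum_add_distrib, ← Finset.card_univ, Finset.card_eq_sum_ones]
  refine Finset.sum_congr rfl fun i _ => ?_
  rcases h i with ⟨h1, h2, h3⟩ | ⟨h1, h2, h3⟩ | ⟨h1, h2, h3⟩ <;> simp [h1, h2, h3]

end Generic

/-! ### group facts -/

variable {Γ : Subgroup SL(2, ℤ)}

lemma neg_one_smul (hΓ : -1 ∈ Γ) (x : SL(2, ℤ) ⧸ Γ) : (-1 : SL(2, ℤ)) • x = x := by
  induction x using QuotientGroup.induction_on with | _ g => ?_
  rw [MulAction.Quotient.smul_coe, smul_eq_mul, QuotientGroup.eq]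
  simpa using hΓ

lemma S_sq : ModularGroup.S ^ 2 = (-1 : SL(2, ℤ)) := by
  ext i j
  fin_cases i <;> fin_cases j <;>
    simp [pow_two, ModularGroup.S, Matrix.mul_apply, Fin.sum_univ_two]

lemma ST_cube : (ModularGroup.S * ModularGroup.T) ^ 3 = (-1 : SL(2, ℤ)) := by
  ext i j
  fin_cases i <;> fin_cases j <;>
    simp [pow_succ, ModularGroup.S, ModularGroup.T, Matrix.mul_apply, Fin.sum_univ_two]

lemma toPerm_inv_pow (hΓ : -1 ∈ Γ) (h : SL(2, ℤ)) (n : ℕ) (hn : h ^ n = -1) :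
    (MulAction.toPerm h⁻¹ : Equiv.Perm (SL(2, ℤ) ⧸ Γ)) ^ n = 1 := by
  ext x
  have h0 : (MulAction.toPerm h⁻¹ : Equiv.Perm (SL(2, ℤ) ⧸ Γ)) ^ n = MulAction.toPerm (h⁻¹ ^ n) :=
    (map_pow (MulAction.toPermHom SL(2, ℤ) (SL(2, ℤ) ⧸ Γ)) h⁻¹ n).symm
  have h1 : ((MulAction.toPerm h⁻¹ : Equiv.Perm (SL(2, ℤ) ⧸ Γ)) ^ n) x = (h⁻¹ ^ n) • x := by
    rw [h0]
    rfl
  rw [h1, inv_pow, hn, inv_smul_eq_iff, Equiv.Perm.one_apply, neg_one_smul hΓ]

lemma card_fixed [Fintype (SL(2, ℤ) ⧸ Γ)] [DecidableEq (SL(2, ℤ) ⧸ Γ)] (h : SL(2, ℤ)) :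
    Fintype.card {x // (MulAction.toPerm h⁻¹ : Equiv.Perm (SL(2, ℤ) ⧸ Γ)) x = x} =
      Nat.card (MulAction.fixedBy (SL(2, ℤ) ⧸ Γ) h) := by
  rw [← Nat.card_eq_fintype_card]
  refine Nat.card_congr (Equiv.subtypeEquivRight fun x => ?_)
  rw [MulAction.toPerm_apply, inv_smul_eq_iff, MulAction.mem_fixedBy, eq_comm]

/-! ### the elliptic points -/

lemma S_smul_I : ModularGroup.S • (UpperHalfPlane.I : ℍ) = UpperHalfPlane.I := by
  rw [UpperHalfPlane.ext_iff, modular_S_smul]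
  simp [Complex.inv_I]

/-- the elliptic point of order three -/
noncomputable def rho : ℍ := ⟨-1 / 2 + (Real.sqrt 3 / 2 : ℝ) * Complex.I, by simp⟩

lemma rho_coe : (rho : ℂ) = -1 / 2 + (Real.sqrt 3 / 2 : ℝ) * Complex.I := rfl

lemma rho_sq : (rho : ℂ) ^ 2 + rho + 1 = 0 := by
  have h3 : ((Real.sqrt 3 : ℝ) : ℂ) ^ 2 = 3 := by
    rw [← Complex.ofReal_pow, Real.sq_sqrt (by norm_num)]; norm_num
  rw [rho_coe]
  push_cast
  linear_combination (-1 / 4 : ℂ) * h3 + ((Real.sqrt 3 : ℝ) : ℂ) ^ 2 / 4 * Complex.I_sq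

lemma denom_ST (z : ℍ) : denom (ModularGroup.S * ModularGroup.T : SL(2, ℤ)) z = z + 1 := by
  rw [ModularGroup.denom_apply]
  simp [ModularGroup.S, ModularGroup.T, Matrix.mul_apply, Fin.sum_univ_two]

lemma ST_smul_rho : (ModularGroup.S * ModularGroup.T) • rho = rho := by
  rw [UpperHalfPlane.ext_iff, coe_specialLinearGroup_apply]
  have h1 : (rho : ℂ) + 1 ≠ 0 := by
    intro h
    have := rho_sq
    have h2 : (rho : ℂ) = -1 := by linear_combination h
    rw [h2] at this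
    norm_num at this
  simp [ModularGroup.S, ModularGroup.T, Matrix.mul_apply, Fin.sum_univ_two]
  field_simp
  linear_combination -rho_sq

lemma I_zpow_neg_of_mod_four_zero (k : ℤ) (hk : k % 4 = 0) : ((UpperHalfPlane.I : ℍ) : ℂ) ^ (-k) = 1 := by
  obtain ⟨m, rfl⟩ : ∃ m, k = 4 * m := ⟨k / 4, by omega⟩
  rw [UpperHalfPlane.coe_I, zpow_neg, zpow_mul]
  have : (Complex.I : ℂ) ^ (4 : ℤ) = 1 := by
    have := Complex.I_pow_four
    exact_mod_cast this
  rw [this, one_zpow, inv_one]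

lemma I_zpow_neg_of_mod_four_two (k : ℤ) (hk : k % 4 = 2) : ((UpperHalfPlane.I : ℍ) : ℂ) ^ (-k) = -1 := by
  obtain ⟨m, rfl⟩ : ∃ m, k = 4 * m + 2 := ⟨k / 4, by omega⟩
  rw [UpperHalfPlane.coe_I, zpow_neg, zpow_add₀ Complex.I_ne_zero, zpow_mul]
  have : (Complex.I : ℂ) ^ (4 : ℤ) = 1 := by
    have := Complex.I_pow_four
    exact_mod_cast this
  have h2 : (Complex.I : ℂ) ^ (2 : ℤ) = -1 := by
    have := Complex.I_sq
    exact_mod_cast this
  rw [this, one_zpow, h2]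
  norm_num

lemma rho_add_one_ne : (rho : ℂ) + 1 ≠ 0 := by
  intro h
  have := rho_sq
  have h2 : (rho : ℂ) = -1 := by linear_combination h
  rw [h2] at this
  norm_num at this

lemma rho_add_one_pow_six : ((rho : ℂ) + 1) ^ (6 : ℤ) = 1 := by
  have : ((rho : ℂ) + 1) ^ 6 = 1 := by
    linear_combination ((rho : ℂ) ^ 4 + 5 * (rho : ℂ) ^ 3 + 9 * (rho : ℂ) ^ 2 + 6 * rho) * rho_sq
  exact_mod_cast this

lemma rho_zpow_zero (k : ℤ) (hk : k % 6 = 0) : ((rho : ℂ) + 1) ^ (-k) = 1 := by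
  obtain ⟨m, rfl⟩ : ∃ m, k = 6 * m := ⟨k / 6, by omega⟩
  rw [zpow_neg, zpow_mul, rho_add_one_pow_six, one_zpow, inv_one]

lemma rho_zpow_two (k : ℤ) (hk : k % 6 = 2) : ((rho : ℂ) + 1) ^ (-k) = (rho : ℂ) ^ 2 := by
  obtain ⟨m, rfl⟩ : ∃ m, k = 6 * m + 2 := ⟨k / 6, by omega⟩
  rw [zpow_neg, zpow_add₀ rho_add_one_ne, zpow_mul, rho_add_one_pow_six, one_zpow, one_mul]
  have h2 : ((rho : ℂ) + 1) ^ (2 : ℤ) = ((rho : ℂ) + 1) ^ 2 := by norm_cast
  rw [h2]
  apply inv_eq_of_mul_eq_one_left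
  linear_combination ((rho : ℂ) ^ 2 + rho - 1) * rho_sq

lemma rho_zpow_four (k : ℤ) (hk : k % 6 = 4) : ((rho : ℂ) + 1) ^ (-k) = (rho : ℂ) := by
  obtain ⟨m, rfl⟩ : ∃ m, k = 6 * m + 4 := ⟨k / 6, by omega⟩
  rw [zpow_neg, zpow_add₀ rho_add_one_ne, zpow_mul, rho_add_one_pow_six, one_zpow, one_mul]
  have h2 : ((rho : ℂ) + 1) ^ (4 : ℤ) = ((rho : ℂ) + 1) ^ 4 := by norm_cast
  rw [h2]
  apply inv_eq_of_mul_eq_one_left
  linear_combination ((rho : ℂ) ^ 3 + 3 * (rho : ℂ) ^ 2 + 2 * rho - 1) * rho_sq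

end Elliptic

variable {Γ : Subgroup SL(2, ℤ)} [Γ.FiniteIndex] [Fintype (SL(2, ℤ) ⧸ Γ)]
  [DecidableEq (SL(2, ℤ) ⧸ Γ)]

theorem FreeBasis.f_ne_zero (B : FreeBasis Γ) (i : SL(2, ℤ) ⧸ Γ) : B.f i ≠ 0 := by
  intro h0
  have h := B.indep (B.k i) (fun j => if j = i then 1 else 0) (fun j => by
    by_cases hj : j = i
    · subst hj
      simpa using isMF_one
    · simpa [hj] using isMF_zero) (by
    rw [Finset.sum_eq_single i]
    · simp [h0]
    · intro j _ hj
      simp [hj]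
    · intro hi
      exact absurd (Finset.mem_univ i) hi) i
  simp at h

theorem FreeBasis.even_k (B : FreeBasis Γ) (hΓ : -1 ∈ Γ) (i : SL(2, ℤ) ⧸ Γ) : Even (B.k i) := by
  by_contra h
  exact B.f_ne_zero i ((B.mf i).eq_zero_of_odd hΓ (Int.not_even_iff_odd.mp h))

theorem FreeBasis.k_nonneg (B : FreeBasis Γ) (i : SL(2, ℤ) ⧸ Γ) : 0 ≤ B.k i := by
  by_contra h
  exact B.f_ne_zero i ((B.mf i).eq_zero_of_neg (not_le.mp h))

theorem FreeBasis.card_k_eq_zero (B : FreeBasis Γ) :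
    (Finset.univ.filter fun i => B.k i = 0).card = 1 := by
  rw [Finset.card_eq_one]
  -- existence
  obtain ⟨a, ha, h1⟩ := B.span 0 1 isMF_one
  have hex : ∃ i, B.k i = 0 := by
    by_contra hne
    push Not at hne
    have : ∀ i, a i = 0 := fun i => by
      have hpos : 0 < B.k i := lt_of_le_of_ne (B.k_nonneg i) (hne i).symm
      exact (ha i).eq_zero_of_neg (by omega)
    rw [Finset.sum_eq_zero (fun i _ => by rw [this i, zero_mul])] at h1
    exact one_ne_zero h1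
  obtain ⟨i, hi⟩ := hex
  refine ⟨i, ?_⟩
  ext j
  simp only [Finset.mem_filter, Finset.mem_univ, true_and, Finset.mem_singleton]
  constructor
  · intro hj
    by_contra hji
    obtain ⟨ci, hci⟩ := ((B.mf i).weight_cast hi).eq_const
    obtain ⟨cj, hcj⟩ := ((B.mf j).weight_cast hj).eq_const
    have h := B.indep 0 (fun l => if l = i then Function.const ℍ cj else
        if l = j then Function.const ℍ (-ci) else 0) (fun l => by
      by_cases hl : l = i
      · subst hl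
        simp only [if_true]
        exact (isMF_const cj).weight_cast (by omega)
      · by_cases hl2 : l = j
        · subst hl2
          simp only [hl, if_false, if_true]
          exact (isMF_const (-ci)).weight_cast (by omega)
        · simpa [hl, hl2] using isMF_zero) (by
      rw [Finset.sum_eq_add_of_mem i j (Finset.mem_univ _) (Finset.mem_univ _) (Ne.symm hji)]
      · simp only [if_true, hji, if_false, hci, hcj]
        funext z
        simp
        ring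
      · intro l _ hl
        simp [hl.1, hl.2]) i
    simp only [if_true] at h
    have hcj0 : cj = 0 := congrFun h UpperHalfPlane.I
    apply B.f_ne_zero j
    rw [hcj, hcj0]
    rfl
  · rintro rfl
    exact hi

namespace Elliptic

lemma Phi_smul (B : FreeBasis Γ) (h : SL(2, ℤ)) (z : ℍ) (hz : h • z = z) (i x : SL(2, ℤ) ⧸ Γ) :
    B.Phi z ((MulAction.toPerm h⁻¹ : Equiv.Perm (SL(2, ℤ) ⧸ Γ)) x) i =
      denom h z ^ (-(B.k i)) * B.Phi z x i := by
  have h1 := comp_smul_apply (B.mf i).inv h x z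
  rw [hz] at h1
  simp only [FreeBasis.Phi, Matrix.of_apply, MulAction.toPerm_apply]
  rw [h1, ← mul_assoc, ← zpow_add₀ (denom_ne_zero h z)]
  simp

end Elliptic

open Elliptic in
theorem FreeBasis.card_k_mod_four (B : FreeBasis Γ) (hΓ : -1 ∈ Γ)
    (hdet : ∀ z : ℍ, (B.Phi z).det ≠ 0) :
    2 * (Finset.univ.filter fun i => B.k i % 4 = 0).card =
      Fintype.card (SL(2, ℤ) ⧸ Γ) +
        Nat.card (MulAction.fixedBy (SL(2, ℤ) ⧸ Γ) ModularGroup.S) := by
  set σ : Equiv.Perm (SL(2, ℤ) ⧸ Γ) := MulAction.toPerm ModularGroup.S⁻¹ with hσ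
  have hσ2 : σ ^ 2 = 1 := toPerm_inv_pow hΓ _ 2 S_sq
  have hA := card_le_finrank (B.Phi UpperHalfPlane.I) (hdet _) σ 1 (fun i => B.k i % 4 = 0)
    (fun i hi x => by
      rw [hσ, Phi_smul B _ _ S_smul_I, ModularGroup.denom_S, I_zpow_neg_of_mod_four_zero _ hi])
  have hB := card_le_finrank (B.Phi UpperHalfPlane.I) (hdet _) σ (-1) (fun i => B.k i % 4 = 2)
    (fun i hi x => by
      rw [hσ, Phi_smul B _ _ S_smul_I, ModularGroup.denom_S, I_zpow_neg_of_mod_four_two _ hi])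
  have hsum := card_filter_add_two (fun i => B.k i % 4 = 0) (fun i => B.k i % 4 = 2) (fun i => by
    obtain ⟨m, hm⟩ := B.even_k hΓ i
    omega)
  have h1 := finrank_permEigen_two_one σ hσ2
  have h2 := finrank_permEigen_two_neg_one σ hσ2
  rw [← card_fixed ModularGroup.S, ← hσ]
  omega

namespace Elliptic

lemma three_counts (B : FreeBasis Γ) (hΓ : -1 ∈ Γ) (hdet : ∀ z : ℍ, (B.Phi z).det ≠ 0) :
    3 * (Finset.univ.filter fun i => B.k i % 6 = 0).card =
      Fintype.card (SL(2, ℤ) ⧸ Γ) +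
        2 * Nat.card (MulAction.fixedBy (SL(2, ℤ) ⧸ Γ) (ModularGroup.S * ModularGroup.T)) ∧
    3 * (Finset.univ.filter fun i => B.k i % 6 = 2).card +
        Nat.card (MulAction.fixedBy (SL(2, ℤ) ⧸ Γ) (ModularGroup.S * ModularGroup.T)) =
      Fintype.card (SL(2, ℤ) ⧸ Γ) ∧
    3 * (Finset.univ.filter fun i => B.k i % 6 = 4).card +
        Nat.card (MulAction.fixedBy (SL(2, ℤ) ⧸ Γ) (ModularGroup.S * ModularGroup.T)) =
      Fintype.card (SL(2, ℤ) ⧸ Γ) := by
  set σ : Equiv.Perm (SL(2, ℤ) ⧸ Γ) := MulAction.toPerm (ModularGroup.S * ModularGroup.T)⁻¹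
    with hσ
  have hσ3 : σ ^ 3 = 1 := toPerm_inv_pow hΓ _ 3 ST_cube
  have hA := card_le_finrank (B.Phi rho) (hdet _) σ 1 (fun i => B.k i % 6 = 0)
    (fun i hi x => by
      rw [hσ, Phi_smul B _ _ ST_smul_rho, denom_ST, rho_zpow_zero _ hi])
  have hB := card_le_finrank (B.Phi rho) (hdet _) σ ((rho : ℂ) ^ 2) (fun i => B.k i % 6 = 2)
    (fun i hi x => by
      rw [hσ, Phi_smul B _ _ ST_smul_rho, denom_ST, rho_zpow_two _ hi])
  have hC := card_le_finrank (B.Phi rho) (hdet _) σ (rho : ℂ) (fun i => B.k i % 6 = 4)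
    (fun i hi x => by
      rw [hσ, Phi_smul B _ _ ST_smul_rho, denom_ST, rho_zpow_four _ hi])
  have hsum := card_filter_add_three (fun i => B.k i % 6 = 0) (fun i => B.k i % 6 = 2)
    (fun i => B.k i % 6 = 4) (fun i => by
    obtain ⟨m, hm⟩ := B.even_k hΓ i
    omega)
  have h1 := finrank_permEigen_three_one σ hσ3
  have h2 := finrank_permEigen_three_prim σ hσ3 ((rho : ℂ) ^ 2)
    (by linear_combination ((rho : ℂ) ^ 2 - rho + 1) * rho_sq)
  have h3 := finrank_permEigen_three_prim σ hσ3 (rho : ℂ) rho_sq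
  rw [← card_fixed (ModularGroup.S * ModularGroup.T), ← hσ]
  omega

end Elliptic

theorem FreeBasis.card_k_mod_six_zero (B : FreeBasis Γ) (hΓ : -1 ∈ Γ)
    (hdet : ∀ z : ℍ, (B.Phi z).det ≠ 0) :
    3 * (Finset.univ.filter fun i => B.k i % 6 = 0).card =
      Fintype.card (SL(2, ℤ) ⧸ Γ) +
        2 * Nat.card (MulAction.fixedBy (SL(2, ℤ) ⧸ Γ) (ModularGroup.S * ModularGroup.T)) :=
  (Elliptic.three_counts B hΓ hdet).1

theorem FreeBasis.card_k_mod_six_two (B : FreeBasis Γ) (hΓ : -1 ∈ Γ)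
    (hdet : ∀ z : ℍ, (B.Phi z).det ≠ 0) :
    3 * (Finset.univ.filter fun i => B.k i % 6 = 2).card +
        Nat.card (MulAction.fixedBy (SL(2, ℤ) ⧸ Γ) (ModularGroup.S * ModularGroup.T)) =
      Fintype.card (SL(2, ℤ) ⧸ Γ) :=
  (Elliptic.three_counts B hΓ hdet).2.1

theorem FreeBasis.card_k_mod_six_four (B : FreeBasis Γ) (hΓ : -1 ∈ Γ)
    (hdet : ∀ z : ℍ, (B.Phi z).det ≠ 0) :
    3 * (Finset.univ.filter fun i => B.k i % 6 = 4).card +
        Nat.card (MulAction.fixedBy (SL(2, ℤ) ⧸ Γ) (ModularGroup.S * ModularGroup.T)) =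
      Fintype.card (SL(2, ℤ) ⧸ Γ) :=
  (Elliptic.three_counts B hΓ hdet).2.2

end Fermat.Agent.S20
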