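import Mathlib
import Fermat.Agent.S20.Basic
import Fermat.Agent.S20.Jacobi

set_option autoImplicit false

namespace Fermat.Agent.S20

namespace LogT

open Matrix Complex

variable {X : Type*} [Fintype X] [DecidableEq X]
variable (τ : Equiv.Perm X) (n : ℕ) [NeZero n]

/-- the representation of `ZMod n` by permutation matrices -/
noncomputable def rho (a : ZMod n) : Matrix X X ℂ := Matrix.permMatrixHom (R := ℂ) (τ ^ a.val)

variable {τ n}

omit [NeZero n] in
theorem rho_zero : rho τ n 0 = 1 := by simp [rho]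

theorem rho_add (hn : τ ^ n = 1) (a b : ZMod n) : rho τ n (a + b) = rho τ n a * rho τ n b := by
  unfold rho
  rw [← map_mul, ← pow_add, ZMod.val_add]
  congr 1
  conv_rhs => rw [← Nat.mod_add_div (a.val + b.val) n]
  rw [pow_add, pow_mul, hn, one_pow, mul_one]

theorem rho_comm (hn : τ ^ n = 1) (a b : ZMod n) :
    rho τ n a * rho τ n b = rho τ n b * rho τ n a := by
  rw [← rho_add hn, ← rho_add hn, add_comm]

theorem rho_one_mulVec (hn1 : n ≠ 1) (v : X → ℂ) :
    (rho τ n 1).mulVec v = fun x => v (τ⁻¹ x) := by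
  have : Fact (1 < n) := ⟨by have := NeZero.ne n; omega⟩
  unfold rho
  rw [ZMod.val_one, pow_one]
  simp only [permMatrixHom_apply]
  rw [Matrix.permMatrix_mulVec]
  rfl

theorem trace_rho_neg (hn : τ ^ n = 1) (a : ZMod n) : (rho τ n (-a)).trace = (rho τ n a).trace := by
  have h1 : rho τ n (-a) = (rho τ n a)ᵀ := by
    have h2 : τ ^ (-a).val = (τ ^ a.val)⁻¹ := by
      rw [eq_inv_iff_mul_eq_one, ← pow_add]
      have h3 : ((-a).val + a.val) % n = 0 := by
        rw [← ZMod.val_add]; simp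
      obtain ⟨k, hk⟩ := Nat.dvd_of_mod_eq_zero h3
      rw [hk, pow_mul, hn, one_pow]
    unfold rho
    simp only [permMatrixHom_apply, Matrix.transpose_permMatrix, h2]
  rw [h1, Matrix.trace_transpose]

local notation "ψ" => (ZMod.stdAddChar (N := n))

/-- the spectral projectors -/
noncomputable def proj (τ : Equiv.Perm X) (n : ℕ) [NeZero n] (r : ZMod n) : Matrix X X ℂ :=
  (n : ℂ)⁻¹ • ∑ a : ZMod n, ZMod.stdAddChar (N := n) (-(a * r)) • rho τ n a

theorem rho_mul_proj (hn : τ ^ n = 1) (b r : ZMod n) :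
    rho τ n b * proj τ n r = ψ (b * r) • proj τ n r := by
  unfold proj
  rw [Matrix.mul_smul, smul_comm]
  congr 1
  rw [Finset.mul_sum, Finset.smul_sum]
  refine Fintype.sum_equiv (Equiv.addRight b) _ _ fun a => ?_
  rw [Matrix.mul_smul, ← rho_add hn, smul_smul, ← AddChar.map_add_eq_mul, Equiv.coe_addRight,
    add_comm b a]
  congr 2
  ring

theorem proj_mul_rho (hn : τ ^ n = 1) (b r : ZMod n) :
    proj τ n r * rho τ n b = ψ (b * r) • proj τ n r := by
  rw [← rho_mul_proj hn]
  unfold proj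
  rw [Matrix.smul_mul, Matrix.mul_smul, Finset.sum_mul, Finset.mul_sum]
  congr 1
  refine Finset.sum_congr rfl fun a _ => ?_
  rw [Matrix.smul_mul, Matrix.mul_smul, rho_comm hn]

theorem card_ne_zero : (n : ℂ) ≠ 0 := Nat.cast_ne_zero.mpr (NeZero.ne n)

theorem proj_mul_proj (hn : τ ^ n = 1) (r s : ZMod n) :
    proj τ n r * proj τ n s = if r = s then proj τ n s else 0 := by
  have hdef : proj τ n r = (n : ℂ)⁻¹ • ∑ a : ZMod n, ψ (-(a * r)) • rho τ n a := rfl
  rw [hdef, Matrix.smul_mul, Finset.sum_mul]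
  have : ∀ a : ZMod n, (ψ (-(a * r)) • rho τ n a) * proj τ n s = ψ (a * (s - r)) • proj τ n s := by
    intro a
    rw [Matrix.smul_mul, rho_mul_proj hn, smul_smul, ← AddChar.map_add_eq_mul]
    congr 2
    ring
  simp_rw [this]
  rw [← Finset.sum_smul, AddChar.sum_mulShift _ (ZMod.isPrimitive_stdAddChar n), ZMod.card]
  by_cases h : r = s
  · subst h
    simp [smul_smul]
  · have : s - r ≠ 0 := sub_ne_zero.mpr (Ne.symm h)
    simp [h, this]

theorem sum_proj : ∑ r : ZMod n, proj τ n r = 1 := by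
  unfold proj
  rw [← Finset.smul_sum, Finset.sum_comm]
  have : ∀ a : ZMod n, ∑ r : ZMod n, ψ (-(a * r)) • rho τ n a =
      (if a = 0 then (n : ℂ) else 0) • rho τ n a := by
    intro a
    rw [← Finset.sum_smul]
    congr 1
    have := AddChar.sum_mulShift (-a) (ZMod.isPrimitive_stdAddChar n)
    rw [ZMod.card] at this
    simp only [neg_eq_zero, Nat.cast_ite, Nat.cast_zero] at this
    rw [← this]
    refine Finset.sum_congr rfl fun r _ => ?_
    congr 1
    ring
  simp_rw [this]
  simp [rho_zero, smul_smul]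

/-- linear combinations of the projectors -/
noncomputable def lin (τ : Equiv.Perm X) (n : ℕ) [NeZero n] (c : ZMod n → ℂ) : Matrix X X ℂ :=
  ∑ r : ZMod n, c r • proj τ n r

theorem lin_mul (hn : τ ^ n = 1) (c d : ZMod n → ℂ) :
    lin τ n c * lin τ n d = lin τ n (fun r => c r * d r) := by
  unfold lin
  rw [Finset.sum_mul]
  refine Finset.sum_congr rfl fun r _ => ?_
  rw [Finset.mul_sum, Finset.sum_eq_single r]
  · rw [Matrix.smul_mul, Matrix.mul_smul, proj_mul_proj hn, if_pos rfl, smul_smul]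
  · intro s _ hs
    rw [Matrix.smul_mul, Matrix.mul_smul, proj_mul_proj hn, if_neg (Ne.symm hs)]
    simp
  · intro h; exact absurd (Finset.mem_univ r) h

theorem lin_one : lin τ n (fun _ => 1) = 1 := by
  unfold lin
  simp [sum_proj]

theorem lin_mul_rho (hn : τ ^ n = 1) (c : ZMod n → ℂ) (b : ZMod n) :
    lin τ n c * rho τ n b = lin τ n (fun r => c r * ψ (b * r)) := by
  unfold lin
  rw [Finset.sum_mul]
  refine Finset.sum_congr rfl fun r _ => ?_
  rw [Matrix.smul_mul, proj_mul_rho hn, smul_smul]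

theorem lin_apply (c : ZMod n → ℂ) (x y : X) :
    lin τ n c x y = ∑ r : ZMod n, c r * proj τ n r x y := by
  unfold lin
  rw [Matrix.sum_apply]
  rfl

theorem rho_one (hn : τ ^ n = 1) : rho τ n 1 = Matrix.permMatrixHom (R := ℂ) τ := by
  unfold rho
  congr 1
  rw [ZMod.val_one_eq_one_mod]
  by_cases h1 : n = 1
  · subst h1
    simpa using hn.symm
  · have : 1 < n := by have := NeZero.ne n; omega
    rw [Nat.mod_eq_of_lt this, pow_one]

/-- exponents -/
noncomputable def ex (n : ℕ) [NeZero n] (s z : ℂ) (r : ZMod n) : ℂ :=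
  Complex.exp (s * (2 * Real.pi * Complex.I * (r.val : ℂ) / (n : ℂ)) * z)

theorem psi_eq (r : ZMod n) : ψ r = Complex.exp (2 * Real.pi * Complex.I * (r.val : ℂ) / (n : ℂ)) := by
  rw [ZMod.stdAddChar_apply, ZMod.toCircle_apply]

theorem E_mul_Eneg (hn : τ ^ n = 1) (s z : ℂ) :
    lin τ n (ex n s z) * lin τ n (ex n (-s) z) = 1 := by
  rw [lin_mul hn, ← lin_one (τ := τ) (n := n)]
  congr 1
  ext r
  unfold ex
  rw [← Complex.exp_add]
  simp

theorem Eneg_shift (hn : τ ^ n = 1) (z : ℂ) (v : X → ℂ) :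
    (lin τ n (ex n (-1) (z + 1))).mulVec (fun x => v (τ⁻¹ x)) = (lin τ n (ex n (-1) z)).mulVec v := by
  have h1 : (fun x => v (τ⁻¹ x)) = (rho τ n 1).mulVec v := by
    rw [rho_one hn]
    simp only [permMatrixHom_apply]
    rw [Matrix.permMatrix_mulVec]
    rfl
  rw [h1, Matrix.mulVec_mulVec, lin_mul_rho hn]
  congr 2
  ext r
  unfold ex
  rw [one_mul, psi_eq, ← Complex.exp_add]
  congr 1
  ring

theorem trace_proj (r : ZMod n) :
    (proj τ n r).trace = (n : ℂ)⁻¹ * ∑ a : ZMod n, ψ (-(a * r)) * (rho τ n a).trace := by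
  unfold proj
  rw [Matrix.trace_smul, Matrix.trace_sum, smul_eq_mul]
  simp only [Matrix.trace_smul, smul_eq_mul]

theorem trace_proj_neg (hn : τ ^ n = 1) (r : ZMod n) :
    (proj τ n (-r)).trace = (proj τ n r).trace := by
  rw [trace_proj, trace_proj]
  congr 1
  refine Fintype.sum_equiv (Equiv.neg _) _ _ fun a => ?_
  rw [Equiv.neg_apply, trace_rho_neg hn]
  congr 2
  ring

theorem sum_trace_proj : ∑ r : ZMod n, (proj τ n r).trace = (Fintype.card X : ℂ) := by
  rw [← Matrix.trace_sum, sum_proj, Matrix.trace_one]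

omit [NeZero n] in
theorem trace_rho (a : ZMod n) :
    (rho τ n a).trace = (Nat.card (MulAction.fixedBy X (τ ^ a.val)) : ℂ) := by
  unfold rho
  simp only [permMatrixHom_apply]
  rw [Matrix.trace_permutation]
  congr 1
  rw [Nat.card_coe_set_eq]
  congr 1
  ext x
  simp only [Function.mem_fixedPoints, Function.IsFixedPt, MulAction.mem_fixedBy,
    Equiv.Perm.smul_def]
  rw [Equiv.Perm.inv_eq_iff_eq]
  exact eq_comm

theorem sum_trace_rho (hn : orderOf τ = n) :
    ∑ a : ZMod n, (rho τ n a).trace =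
      (Nat.card (MulAction.orbitRel.Quotient (Subgroup.zpowers τ) X) : ℂ) * (n : ℂ) := by
  classical
  have B := MulAction.sum_card_fixedBy_eq_card_orbits_mul_card_group (Subgroup.zpowers τ) X
  have hcard : Fintype.card (Subgroup.zpowers τ) = n := by
    rw [Fintype.card_zpowers, hn]
  let e : ZMod n → Subgroup.zpowers τ := fun a => ⟨τ ^ a.val, Subgroup.npow_mem_zpowers τ _⟩
  have he : Function.Bijective e := by
    rw [Fintype.bijective_iff_injective_and_card]
    refine ⟨?_, by rw [hcard, ZMod.card]⟩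
    intro a b hab
    have h1 : τ ^ a.val = τ ^ b.val := congrArg Subtype.val hab
    have h2 : a.val = b.val := by
      apply pow_injOn_Iio_orderOf _ _ h1
      · rw [hn]; exact ZMod.val_lt a
      · rw [hn]; exact ZMod.val_lt b
    exact ZMod.val_injective n h2
  have h3 : ∑ a : ZMod n, (rho τ n a).trace =
      ∑ g : Subgroup.zpowers τ, (Fintype.card (MulAction.fixedBy X g) : ℂ) := by
    refine Fintype.sum_bijective e he _ _ fun a => ?_
    rw [trace_rho, Nat.card_eq_fintype_card]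
    rfl
  rw [h3, ← Nat.cast_sum, B, hcard, Nat.card_eq_fintype_card]
  push_cast
  rfl

theorem trace_proj_zero (hn : orderOf τ = n) :
    (proj τ n 0).trace = (Nat.card (MulAction.orbitRel.Quotient (Subgroup.zpowers τ) X) : ℂ) := by
  rw [trace_proj]
  simp only [mul_zero, neg_zero, AddChar.map_zero_eq_one, one_mul]
  rw [sum_trace_rho hn]
  field_simp [card_ne_zero (n := n)]

theorem val_add_neg_val (r : ZMod n) (hr : r ≠ 0) : ((r.val : ℂ) + ((-r).val : ℂ)) = n := by
  have := ZMod.neg_val r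
  rw [if_neg hr] at this
  have h2 := (ZMod.val_lt r).le
  rw [this]
  push_cast [h2]
  ring

theorem sum_val_trace (hn : τ ^ n = 1) :
    2 * ∑ r : ZMod n, ((r.val : ℂ) / n) * (proj τ n r).trace =
      (Fintype.card X : ℂ) - (proj τ n 0).trace := by
  have h1 : ∑ r : ZMod n, ((r.val : ℂ) / n) * (proj τ n r).trace =
      ∑ r : ZMod n, (((-r).val : ℂ) / n) * (proj τ n r).trace := by
    refine Fintype.sum_equiv (Equiv.neg _) _ _ fun r => ?_
    rw [Equiv.neg_apply, neg_neg, trace_proj_neg hn]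
  rw [two_mul]
  nth_rewrite 2 [h1]
  rw [← Finset.sum_add_distrib, ← sum_trace_proj (τ := τ) (n := n),
    ← Finset.add_sum_erase _ _ (Finset.mem_univ (0 : ZMod n)),
    ← Finset.add_sum_erase _ (fun r => (proj τ n r).trace) (Finset.mem_univ (0 : ZMod n))]
  simp only [ZMod.val_zero, neg_zero, Nat.cast_zero, zero_div, zero_mul, add_zero, zero_add,
    add_sub_cancel_left]
  refine Finset.sum_congr rfl fun r hr => ?_
  have hr0 : r ≠ 0 := Finset.ne_of_mem_erase hr
  rw [← add_mul, ← add_div, val_add_neg_val r hr0, div_self (card_ne_zero (n := n)), one_mul]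

/-- the infinitesimal generator coefficients -/
noncomputable def kap (n : ℕ) [NeZero n] (r : ZMod n) : ℂ :=
  2 * Real.pi * Complex.I * (r.val : ℂ) / (n : ℂ)

theorem hasDerivAt_ex (s z : ℂ) (r : ZMod n) :
    HasDerivAt (fun w => ex n s w r) (ex n s z r * (s * kap n r)) z := by
  unfold ex kap
  have h1 : HasDerivAt (fun w : ℂ => s * (2 * Real.pi * Complex.I * (r.val : ℂ) / (n : ℂ)) * w)
      (s * (2 * Real.pi * Complex.I * (r.val : ℂ) / (n : ℂ))) z := by
    simpa using (hasDerivAt_id z).const_mul (s * (2 * Real.pi * Complex.I * (r.val : ℂ) / (n : ℂ)))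
  exact h1.cexp

theorem hasDerivAt_lin_ex (s z : ℂ) (x y : X) :
    HasDerivAt (fun w => lin τ n (ex n s w) x y)
      (lin τ n (fun r => ex n s z r * (s * kap n r)) x y) z := by
  simp only [lin_apply]
  apply HasDerivAt.fun_sum
  intro r _
  exact (hasDerivAt_ex s z r).mul_const _

theorem trace_lin (c : ZMod n → ℂ) : (lin τ n c).trace = ∑ r, c r * (proj τ n r).trace := by
  unfold lin
  rw [Matrix.trace_sum]
  simp only [Matrix.trace_smul, smul_eq_mul]

theorem trace_lin_kap (hn : τ ^ n = 1) :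
    (lin τ n (fun r => 1 * kap n r)).trace =
      2 * Real.pi * Complex.I * (((Fintype.card X : ℂ) - (proj τ n 0).trace) / 2) := by
  rw [trace_lin, ← sum_val_trace hn, Finset.mul_sum, Finset.sum_div, Finset.mul_sum]
  refine Finset.sum_congr rfl fun r _ => ?_
  unfold kap
  ring

theorem det_E (hn : τ ^ n = 1) (z : ℂ) :
    (lin τ n (ex n 1 z)).det =
      Complex.exp (2 * Real.pi * Complex.I * z * (((Fintype.card X : ℂ) - (proj τ n 0).trace) / 2)) := by
  set c : ℂ := (lin τ n (fun r => 1 * kap n r)).trace with hc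
  have hd : ∀ w : ℂ, HasDerivAt (fun w => (lin τ n (ex n 1 w)).det)
      (c * (lin τ n (ex n 1 w)).det) w := by
    intro w
    exact hasDerivAt_det_of_eq_mul (fun x y => hasDerivAt_lin_ex 1 w x y) (lin_mul hn _ _).symm
  let g : ℂ → ℂ := fun w => (lin τ n (ex n 1 w)).det * Complex.exp (-(c * w))
  have hg : ∀ w, HasDerivAt g 0 w := by
    intro w
    have h1 : HasDerivAt (fun w : ℂ => Complex.exp (-(c * w))) (Complex.exp (-(c * w)) * (-c)) w := by
      have : HasDerivAt (fun w : ℂ => -(c * w)) (-c) w := by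
        have h0 : HasDerivAt (fun w : ℂ => (-c) * w) (-c) w := by
          simpa using (hasDerivAt_id w).const_mul (-c)
        have e0 : (fun w : ℂ => -(c * w)) = fun w : ℂ => (-c) * w := by
          ext w; ring
        rw [e0]; exact h0
      exact this.cexp
    have h2 := (hd w).mul h1
    have e2 : c * (lin τ n (ex n 1 w)).det * Complex.exp (-(c * w)) +
        (lin τ n (ex n 1 w)).det * (Complex.exp (-(c * w)) * -c) = 0 := by ring
    rw [e2] at h2
    exact h2
  have hconst : g z = g 0 :=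
    is_const_of_deriv_eq_zero (fun w => (hg w).differentiableAt) (fun w => (hg w).deriv) z 0
  have h0 : g 0 = 1 := by
    have : lin τ n (ex n 1 0) = 1 := by
      rw [← lin_one (τ := τ) (n := n)]
      congr 1
      ext r
      simp [ex]
    simp [g, this]
  rw [h0] at hconst
  have h3 : (lin τ n (ex n 1 z)).det = Complex.exp (c * z) := by
    have : (lin τ n (ex n 1 z)).det * Complex.exp (-(c * z)) = 1 := hconst
    rw [Complex.exp_neg] at this
    field_simp [Complex.exp_ne_zero] at this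
    exact this
  rw [h3, hc, trace_lin_kap hn]
  congr 1
  ring

theorem norm_ex_le (s : ℝ) (z : ℂ) (r : ZMod n) :
    ‖ex n s z r‖ = Real.exp (-(s * (2 * Real.pi * ((r.val : ℝ) / n)) * z.im)) := by
  unfold ex
  rw [Complex.norm_exp]
  congr 1
  simp only [Complex.mul_re, Complex.mul_im, Complex.div_natCast_re, Complex.div_natCast_im,
    Complex.ofReal_re, Complex.ofReal_im, Complex.I_re, Complex.I_im, Complex.natCast_re,
    Complex.natCast_im, Complex.re_ofNat, Complex.im_ofNat]
  ring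

/-- the constant -/
noncomputable def bd (τ : Equiv.Perm X) (n : ℕ) [NeZero n] : ℝ :=
  ∑ r : ZMod n, ∑ x : X, ∑ y : X, ‖proj τ n r x y‖

theorem norm_proj_le (r : ZMod n) (x y : X) :
    ‖proj τ n r x y‖ ≤ ∑ x : X, ∑ y : X, ‖proj τ n r x y‖ := by
  refine le_trans ?_ (Finset.single_le_sum (f := fun x => ∑ y : X, ‖proj τ n r x y‖)
    (fun i _ => Finset.sum_nonneg fun j _ => norm_nonneg _) (Finset.mem_univ x))
  exact Finset.single_le_sum (f := fun y => ‖proj τ n r x y‖) (fun j _ => norm_nonneg _)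
    (Finset.mem_univ y)

theorem norm_lin_le (c : ZMod n → ℂ) (K : ℝ) (hc : ∀ r, ‖c r‖ ≤ K) (x y : X) :
    ‖lin τ n c x y‖ ≤ bd τ n * K := by
  rw [lin_apply]
  refine (norm_sum_le _ _).trans ?_
  unfold bd
  rw [Finset.sum_mul]
  refine Finset.sum_le_sum fun r _ => ?_
  rw [norm_mul, mul_comm]
  exact mul_le_mul (norm_proj_le r x y) (hc r) (norm_nonneg _)
    (Finset.sum_nonneg fun i _ => Finset.sum_nonneg fun j _ => norm_nonneg _)

end LogT

section H
variable {X : Type*} [Fintype X] [DecidableEq X]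

open LogT in
theorem exists_logT (τ : Equiv.Perm X) :
    ∃ (h : ℕ) (E Eneg : ℂ → Matrix X X ℂ) (C : ℝ), 0 < h ∧
      (∀ z, E z * Eneg z = 1) ∧ (∀ z, Eneg z * E z = 1) ∧
      (∀ z (v : X → ℂ), (Eneg (z + 1)).mulVec (fun x => v (τ⁻¹ x)) = (Eneg z).mulVec v) ∧
      (∀ z, (E z).det = Complex.exp (2 * Real.pi * Complex.I * z *
        (((Fintype.card X : ℂ) - (Nat.card (MulAction.orbitRel.Quotient (Subgroup.zpowers τ) X) : ℂ)) / 2))) ∧
      (∀ x y, Differentiable ℂ (fun z => E z x y)) ∧ (∀ x y, Differentiable ℂ (fun z => Eneg z x y)) ∧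
      (∀ z : ℂ, 0 ≤ z.im → ∀ x y, ‖E z x y‖ ≤ C) ∧
      (∀ z : ℂ, 0 ≤ z.im → ∀ x y, ‖Eneg z x y‖ ≤ C * Real.exp (2 * Real.pi * (1 - 1 / (h : ℝ)) * z.im)) := by
  have hpos : 0 < orderOf τ := orderOf_pos τ
  have : NeZero (orderOf τ) := ⟨hpos.ne'⟩
  have hn : τ ^ orderOf τ = 1 := pow_orderOf_eq_one τ
  refine ⟨orderOf τ, fun z => lin τ (orderOf τ) (ex (orderOf τ) 1 z),
    fun z => lin τ (orderOf τ) (ex (orderOf τ) (-1) z), bd τ (orderOf τ), hpos, ?_, ?_, ?_, ?_, ?_,
    ?_, ?_, ?_⟩
  · intro z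
    exact E_mul_Eneg hn 1 z
  · intro z
    have := E_mul_Eneg hn (-1) z
    rwa [neg_neg] at this
  · intro z v
    exact Eneg_shift hn z v
  · intro z
    rw [det_E hn, trace_proj_zero rfl]
  · intro x y z
    exact (hasDerivAt_lin_ex 1 z x y).differentiableAt
  · intro x y z
    exact (hasDerivAt_lin_ex (-1) z x y).differentiableAt
  · intro z hz x y
    have := norm_lin_le (τ := τ) (ex (orderOf τ) 1 z) 1 (fun r => by
      have h1 := norm_ex_le (n := orderOf τ) 1 z r
      rw [Complex.ofReal_one] at h1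
      rw [h1, Real.exp_le_one_iff]
      have : 0 ≤ (1 : ℝ) * (2 * Real.pi * ((r.val : ℝ) / (orderOf τ : ℝ))) * z.im := by positivity
      linarith) x y
    simpa using this
  · intro z hz x y
    refine norm_lin_le (τ := τ) (ex (orderOf τ) (-1) z) _ (fun r => ?_) x y
    have h1 := norm_ex_le (n := orderOf τ) (-1) z r
    rw [Complex.ofReal_neg, Complex.ofReal_one] at h1
    rw [h1, Real.exp_le_exp]
    have h2 : ((r.val : ℝ) / (orderOf τ : ℝ)) ≤ 1 - 1 / (orderOf τ : ℝ) := by
      have h3 : (r.val : ℝ) + 1 ≤ (orderOf τ : ℝ) := by exact_mod_cast ZMod.val_lt r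
      have h4 : (0 : ℝ) < (orderOf τ : ℝ) := by exact_mod_cast hpos
      rw [div_le_iff₀ h4, sub_mul, one_mul, div_mul_cancel₀ _ h4.ne']
      linarith
    have h5 : 2 * Real.pi * ((r.val : ℝ) / (orderOf τ : ℝ)) * z.im ≤
        2 * Real.pi * (1 - 1 / (orderOf τ : ℝ)) * z.im := by
      gcongr
    linarith
end H

end Fermat.Agent.S20
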