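import Mathlib
import Fermat.Agent.S20.FreeBasis
import Fermat.Agent.S20.LogT

set_option autoImplicit false

namespace Fermat.Agent.S20

open UpperHalfPlane ModularForm Filter Topology Asymptotics
open scoped MatrixGroups Manifold Real

namespace Infinity

local notation "𝕢" => Function.Periodic.qParam

/-- The output of `exists_logT`, bundled. -/
structure LogData {X : Type*} [Fintype X] [DecidableEq X] (τ : Equiv.Perm X) where
  h : ℕ
  E : ℂ → Matrix X X ℂ
  Eneg : ℂ → Matrix X X ℂ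
  C : ℝ
  h_pos : 0 < h
  mul_neg : ∀ z, E z * Eneg z = 1
  neg_mul : ∀ z, Eneg z * E z = 1
  shift : ∀ z (v : X → ℂ), (Eneg (z + 1)).mulVec (fun x => v (τ⁻¹ x)) = (Eneg z).mulVec v
  det_E : ∀ z, (E z).det = Complex.exp (2 * Real.pi * Complex.I * z *
        (((Fintype.card X : ℂ) -
          (Nat.card (MulAction.orbitRel.Quotient (Subgroup.zpowers τ) X) : ℂ)) / 2))
  diff_E : ∀ x y, Differentiable ℂ (fun z => E z x y)
  diff_Eneg : ∀ x y, Differentiable ℂ (fun z => Eneg z x y)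
  norm_E : ∀ z : ℂ, 0 ≤ z.im → ∀ x y, ‖E z x y‖ ≤ C
  norm_Eneg : ∀ z : ℂ, 0 ≤ z.im → ∀ x y,
    ‖Eneg z x y‖ ≤ C * Real.exp (2 * Real.pi * (1 - 1 / (h : ℝ)) * z.im)

lemma nonempty_logData {X : Type*} [Fintype X] [DecidableEq X] (τ : Equiv.Perm X) :
    Nonempty (LogData τ) := by
  obtain ⟨h, E, Eneg, C, h1, h2, h3, h4, h5, h6, h7, h8, h9⟩ := exists_logT τ
  exact ⟨⟨h, E, Eneg, C, h1, h2, h3, h4, h5, h6, h7, h8, h9⟩⟩

lemma mdiff_of_differentiable {g : ℂ → ℂ} (hg : Differentiable ℂ g) :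
    MDiff (fun z : ℍ => g z) := by
  rw [UpperHalfPlane.mdifferentiable_iff]
  refine hg.differentiableOn.congr fun z hz => ?_
  simp [Function.comp_apply, ofComplex_apply_of_im_pos hz]

lemma mdiff_sum {ι : Type*} (s : Finset ι) {F : ι → ℍ → ℂ} (h : ∀ i ∈ s, MDiff (F i)) :
    MDiff (fun z => ∑ i ∈ s, F i z) := by
  classical
  induction s using Finset.induction_on with
  | empty => simpa using (mdifferentiable_const : MDiff (fun _ : ℍ => (0 : ℂ)))
  | insert i t hi IH =>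
    simp only [Finset.sum_insert hi]
    exact (h i (Finset.mem_insert_self _ _)).add
      (IH fun j hj => h j (Finset.mem_insert_of_mem hj))

section

variable {X : Type*} [Fintype X] [DecidableEq X] {τ : Equiv.Perm X} (L : LogData τ)

lemma LogData.isBigO_E (x y : X) :
    (fun z : ℍ => L.E z x y) =O[atImInfty] (fun _ : ℍ => (1 : ℝ)) := by
  refine IsBigO.of_bound L.C (Eventually.of_forall fun z => ?_)
  simpa using L.norm_E z z.im_pos.le x y

lemma LogData.isBigO_Eneg (x y : X) :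
    (fun z : ℍ => L.Eneg z x y) =O[atImInfty]
      (fun z : ℍ => Real.exp (2 * π * (1 - 1 / (L.h : ℝ)) * z.im)) := by
  refine IsBigO.of_bound L.C (Eventually.of_forall fun z => ?_)
  rw [Real.norm_eq_abs, abs_of_pos (Real.exp_pos _)]
  exact L.norm_Eneg z z.im_pos.le x y

lemma LogData.tendsto_exp :
    Tendsto (fun z : ℍ => Real.exp (-(2 * π / (L.h : ℝ)) * z.im)) atImInfty (𝓝 0) := by
  have h1 : Tendsto (fun z : ℍ => z.im) atImInfty atTop := tendsto_comap
  have hpos : (0 : ℝ) < 2 * π / (L.h : ℝ) := by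
    have : (0 : ℝ) < L.h := by exact_mod_cast L.h_pos
    positivity
  have h2 : Tendsto (fun z : ℍ => (2 * π / (L.h : ℝ)) * z.im) atImInfty atTop :=
    h1.const_mul_atTop hpos
  have h3 := Real.tendsto_exp_neg_atTop_nhds_zero.comp h2
  refine h3.congr fun z => ?_
  simp

end


lemma orbitRel_toPerm {G X : Type*} [Group G] [MulAction G X] (g : G) :
    MulAction.orbitRel (Subgroup.zpowers (MulAction.toPerm g : Equiv.Perm X)) X =
      MulAction.orbitRel (Subgroup.zpowers g) X := by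
  have key : ∀ (n : ℤ) (b : X), ((MulAction.toPerm g : Equiv.Perm X) ^ n) b = g ^ n • b := by
    intro n b
    have : (MulAction.toPerm g : Equiv.Perm X) ^ n = MulAction.toPerm (g ^ n) :=
      (map_zpow (MulAction.toPermHom G X) g n).symm
    rw [this]; rfl
  ext a b
  simp only [MulAction.orbitRel_apply, MulAction.mem_orbit_iff]
  constructor
  · rintro ⟨⟨_, n, rfl⟩, h⟩
    refine ⟨⟨g ^ n, n, rfl⟩, ?_⟩
    rw [← h]
    exact (key n b).symm
  · rintro ⟨⟨_, n, rfl⟩, h⟩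
    refine ⟨⟨(MulAction.toPerm g : Equiv.Perm X) ^ n, n, rfl⟩, ?_⟩
    rw [← h]
    exact key n b

lemma card_orbits_toPerm {G X : Type*} [Group G] [MulAction G X] (g : G) :
    Nat.card (MulAction.orbitRel.Quotient
        (Subgroup.zpowers (MulAction.toPerm g : Equiv.Perm X)) X) =
      Nat.card (MulAction.orbitRel.Quotient (Subgroup.zpowers g) X) := by
  unfold MulAction.orbitRel.Quotient
  rw [orbitRel_toPerm]

section

variable {Γ : Subgroup SL(2, ℤ)} [Fintype (SL(2, ℤ) ⧸ Γ)] [DecidableEq (SL(2, ℤ) ⧸ Γ)]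
  (B : FreeBasis Γ)
  (L : LogData (MulAction.toPerm ModularGroup.T : Equiv.Perm (SL(2, ℤ) ⧸ Γ)))

lemma Phi_apply (z : ℍ) (x i : SL(2, ℤ) ⧸ Γ) :
    B.Phi z x i = comp Γ (B.k i) (B.f i) x z := rfl

lemma Phi_vadd_one (z : ℍ) (x i : SL(2, ℤ) ⧸ Γ) :
    B.Phi ((1 : ℝ) +ᵥ z) x i = B.Phi z (ModularGroup.T⁻¹ • x) i := by
  rw [Phi_apply, Phi_apply, ← slash_T_apply (comp Γ (B.k i) (B.f i) x) (B.k i),
    comp_slash (B.mf i).inv]

/-- the regularised matrix `Φ̃ = E(-z) Φ`. -/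
noncomputable def Pt (z : ℍ) : Matrix (SL(2, ℤ) ⧸ Γ) (SL(2, ℤ) ⧸ Γ) ℂ := L.Eneg z * B.Phi z

lemma Pt_apply (z : ℍ) (x i : SL(2, ℤ) ⧸ Γ) :
    Pt B L z x i = ∑ y, L.Eneg z x y * B.Phi z y i := Matrix.mul_apply

lemma Pt_vadd_one (z : ℍ) (x i : SL(2, ℤ) ⧸ Γ) :
    Pt B L ((1 : ℝ) +ᵥ z) x i = Pt B L z x i := by
  have h := congrFun (L.shift z (fun y => B.Phi z y i)) x
  rw [Pt_apply, Pt_apply]
  simp only [Matrix.mulVec, dotProduct] at h
  rw [← h]
  refine Finset.sum_congr rfl fun y _ => ?_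
  rw [Phi_vadd_one]
  congr 2
  simp [add_comm]

lemma Phi_eq (z : ℍ) : B.Phi z = L.E z * Pt B L z := by
  rw [Pt, ← Matrix.mul_assoc, L.mul_neg, Matrix.one_mul]

lemma Phi_mdiff (x i : SL(2, ℤ) ⧸ Γ) : MDiff (fun z => B.Phi z x i) :=
  (B.mf i).comp_holo x

lemma Phi_isBigO (x i : SL(2, ℤ) ⧸ Γ) :
    (fun z => B.Phi z x i) =O[atImInfty] (fun _ : ℍ => (1 : ℝ)) :=
  (B.mf i).comp_bdd x

lemma Pt_mdiff (x i : SL(2, ℤ) ⧸ Γ) : MDiff (fun z => Pt B L z x i) := by
  simp only [Pt_apply]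
  exact mdiff_sum _ fun y _ => (mdiff_of_differentiable (L.diff_Eneg x y)).mul (Phi_mdiff B y i)

lemma isBigO_qParam :
    (fun z : ℍ => 𝕢 1 z) =O[atImInfty] (fun z : ℍ => Real.exp (-(2 * π) * z.im)) := by
  refine IsBigO.of_bound 1 (Eventually.of_forall fun z => ?_)
  rw [norm_qParam_coe, Real.norm_eq_abs, abs_of_pos (Real.exp_pos _), one_mul]
  apply le_of_eq
  congr 1
  ring

lemma Pt_bdd (x i : SL(2, ℤ) ⧸ Γ) : IsBoundedAtImInfty (fun z => Pt B L z x i) := by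
  refine isBounded_of_mul_qParam_isZero (Pt_vadd_one B L · x i) (Pt_mdiff B L x i) ?_
  have h1 : (fun z : ℍ => Pt B L z x i * 𝕢 1 z) =O[atImInfty]
      (fun z : ℍ => Real.exp (-(2 * π / (L.h : ℝ)) * z.im)) := by
    have h2 : (fun z : ℍ => Pt B L z x i) =O[atImInfty]
        (fun z : ℍ => Real.exp (2 * π * (1 - 1 / (L.h : ℝ)) * z.im)) := by
      simp only [Pt_apply]
      refine IsBigO.fun_sum fun y _ => ?_
      have := (L.isBigO_Eneg x y).mul (Phi_isBigO B y i)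
      simpa using this
    refine (h2.mul isBigO_qParam).congr_right fun z => ?_
    rw [← Real.exp_add]
    congr 1
    ring
  exact h1.trans_tendsto L.tendsto_exp

/-- the value of `Φ̃` at infinity -/
noncomputable def Pinf : Matrix (SL(2, ℤ) ⧸ Γ) (SL(2, ℤ) ⧸ Γ) ℂ :=
  Matrix.of fun x i => valueAtInfty (fun z => Pt B L z x i)

lemma Pt_tendsto (x i : SL(2, ℤ) ⧸ Γ) :
    Tendsto (fun z => Pt B L z x i) atImInfty (𝓝 (Pinf B L x i)) :=
  tendsto_valueAtInfty one_pos (Pt_vadd_one B L · x i) (Pt_mdiff B L x i) (Pt_bdd B L x i)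

lemma Pt_tendsto' : Tendsto (fun z => Pt B L z) atImInfty (𝓝 (Pinf B L)) := by
  refine tendsto_pi_nhds.mpr fun x => tendsto_pi_nhds.mpr fun i => ?_
  exact Pt_tendsto B L x i


lemma f_ne_zero (i : SL(2, ℤ) ⧸ Γ) : B.f i ≠ 0 := by
  intro h0
  have h1 := B.indep (B.k i) (fun j => if j = i then 1 else 0) (fun j => by
    by_cases hj : j = i
    · subst hj
      simpa using (isMF_one : IsMF ⊤ 0 1)
    · simpa [hj] using (isMF_zero : IsMF ⊤ (B.k i - B.k j) 0)) (by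
    refine Finset.sum_eq_zero fun j _ => ?_
    by_cases hj : j = i
    · subst hj
      simp [h0]
    · simp [hj]) i
  simp only [if_true] at h1
  exact one_ne_zero (congrFun h1 I)

lemma even_k (hΓ : -1 ∈ Γ) (i : SL(2, ℤ) ⧸ Γ) : Even (B.k i) := by
  by_contra h
  exact f_ne_zero B i ((B.mf i).eq_zero_of_odd hΓ (Int.not_even_iff_odd.mp h))

/-- **Saturation at infinity**: the regularised matrix is invertible at infinity. -/
theorem det_Pinf_ne_zero (hΓ : -1 ∈ Γ) : (Pinf B L).det ≠ 0 := by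
  intro hdet
  obtain ⟨c, hc0, hc⟩ := Matrix.exists_mulVec_eq_zero_iff.mpr hdet
  -- a common weight
  obtain ⟨M, hM⟩ : ∃ M : ℤ, ∀ i, B.k i ≤ M := by
    obtain ⟨M, hM⟩ := (Set.finite_range B.k).bddAbove
    exact ⟨M, fun i => hM ⟨i, rfl⟩⟩
  set n : ℤ := 2 * |M| + 4 with hn
  have hn4 : ∀ i, 4 ≤ n - B.k i := fun i => by
    have h1 := hM i
    have h2 := le_abs_self M
    have h3 := abs_nonneg M
    omega
  have hne : ∀ i, Even (n - B.k i) := fun i =>
    Even.sub (Even.add (even_two_mul _) (by decide)) (even_k B hΓ i)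
  choose m _b _c hm hmlim _ _ using fun i => exists_mono (n - B.k i) (hn4 i) (hne i)
  -- the form
  set f : ℍ → ℂ := ∑ i, (c i • m i) * B.f i with hf
  have hfMF : IsMF Γ n f :=
    IsMF.sum _ fun i _ => ((hm i).smul (c i)).of_top.mul' (B.mf i) (by ring)
  have hcomp : ∀ x z, comp Γ n f x z = ∑ i, B.Phi z x i * (c i * m i z) := by
    intro x z
    rw [hf, comp_sum, Finset.sum_apply]
    refine Finset.sum_congr rfl fun i _ => ?_
    rw [comp_mul_top ((hm i).smul (c i)) (by ring : n = (n - B.k i) + B.k i)]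
    simp [Phi_apply, mul_comm]
  -- the regularised vector
  set Ft : SL(2, ℤ) ⧸ Γ → ℍ → ℂ := fun x z => ∑ i, Pt B L z x i * (c i * m i z) with hFt
  have hFt_per : ∀ x (z : ℍ), Ft x ((1 : ℝ) +ᵥ z) = Ft x z := by
    intro x z
    simp only [hFt, Pt_vadd_one, (hm _).periodic_one]
  have hFt_hol : ∀ x, MDiff (Ft x) := fun x =>
    mdiff_sum _ fun i _ => (Pt_mdiff B L x i).mul ((hm i).holo.const_smul (c i))
  have hFt_zero : ∀ x, IsZeroAtImInfty (Ft x) := by
    intro x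
    have h1 : Tendsto (Ft x) atImInfty (𝓝 (∑ i, Pinf B L x i * (c i * 1))) :=
      tendsto_finsetSum _ fun i _ => (Pt_tendsto B L x i).mul ((hmlim i).const_mul (c i))
    have h2 : ∑ i, Pinf B L x i * (c i * 1) = 0 := by
      have := congrFun hc x
      simpa [Matrix.mulVec, dotProduct] using this
    rw [h2] at h1
    exact h1
  have hFt_O : ∀ x, Ft x =O[atImInfty] fun z : ℍ => Real.exp (-2 * π * z.im) := by
    intro x
    have := isBigO_exp_of_isZero one_pos (hFt_per x) (hFt_hol x) (hFt_zero x)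
    simpa using this
  have hcompFt : ∀ x z, comp Γ n f x z = ∑ y, L.E z x y * Ft y z := by
    intro x z
    rw [hcomp]
    simp only [hFt, Phi_eq B L z, Matrix.mul_apply, Finset.sum_mul, Finset.mul_sum]
    rw [Finset.sum_comm]
    refine Finset.sum_congr rfl fun y _ => Finset.sum_congr rfl fun i _ => ?_
    ring
  have hcompO : ∀ x, comp Γ n f x =O[atImInfty] fun z : ℍ => Real.exp (-2 * π * z.im) := by
    intro x
    have h1 : (fun z => ∑ y, L.E z x y * Ft y z) =O[atImInfty]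
        fun z : ℍ => Real.exp (-2 * π * z.im) := by
      refine IsBigO.fun_sum fun y _ => ?_
      have := (L.isBigO_E x y).mul (hFt_O y)
      simpa using this
    exact h1.congr_left fun z => (hcompFt x z).symm
  have hdiv : IsMF Γ (n - 12) (f / Dl) := hfMF.div_Dl fun g => by
    have := hcompO ((g⁻¹ : SL(2, ℤ)) : SL(2, ℤ) ⧸ Γ)
    rwa [comp_mk hfMF.inv, inv_inv] at this
  obtain ⟨a, ha, hfa⟩ := B.span _ _ hdiv
  have hzero : ∀ i, c i • m i - Dl * a i = 0 := by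
    refine B.indep n _ (fun i => ((hm i).smul (c i)).sub
      (isCF_Dl.isMF.mul' (ha i) (by ring))) ?_
    have h1 : f = Dl * ∑ i, a i * B.f i := by
      rw [← hfa]
      funext z
      simp only [Pi.mul_apply, Pi.div_apply]
      rw [mul_div_cancel₀ _ (Dl_ne_zero z)]
    simp only [sub_mul, Finset.sum_sub_distrib]
    rw [← hf, h1, Finset.mul_sum, sub_eq_zero]
    refine Finset.sum_congr rfl fun i _ => ?_
    ring
  apply hc0
  funext i
  have h1 : Tendsto (c i • m i) atImInfty (𝓝 (c i • (1 : ℂ))) := (hmlim i).const_smul (c i)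
  have h2 : Tendsto (Dl * a i) atImInfty (𝓝 0) := by
    have : IsZeroAtImInfty (Dl * a i) := by simpa using (isCF_Dl.mul_isMF (ha i)).zero 1
    exact this
  rw [sub_eq_zero.mp (hzero i)] at h1
  simpa using tendsto_nhds_unique h1 h2


lemma Dl_isBigO : Dl =O[atImInfty] fun z : ℍ => Real.exp (-2 * π * z.im) := by
  have h0 : IsZeroAtImInfty Dl := by simpa using isCF_Dl.zero 1
  have := isBigO_exp_of_isZero one_pos isCF_Dl.isMF.periodic_one isCF_Dl.holo h0
  simpa using this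

lemma Dl_isTheta : Dl =Θ[atImInfty] fun z : ℍ => Real.exp (-2 * π * z.im) :=
  ⟨Dl_isBigO, exp_isBigO_discriminant⟩

lemma det_Pt_tendsto : Tendsto (fun z => (Pt B L z).det) atImInfty (𝓝 (Pinf B L).det) :=
  ((continuous_id.matrix_det).tendsto (Pinf B L)).comp (Pt_tendsto' B L)

lemma eq_zero_of_isBoundedUnder {a : ℝ}
    (h : IsBoundedUnder (· ≤ ·) atImInfty fun z : ℍ => |a * z.im|) : a = 0 := by
  by_contra ha
  have h1 : Tendsto (fun z : ℍ => z.im) atImInfty atTop := tendsto_comap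
  have h2 : Tendsto (fun z : ℍ => |a| * z.im) atImInfty atTop :=
    h1.const_mul_atTop (abs_pos.mpr ha)
  refine not_isBoundedUnder_of_tendsto_atTop h2 (h.mono_le ?_)
  exact Eventually.of_forall fun z => by
    show |a| * z.im ≤ |a * z.im|
    rw [abs_mul, abs_of_pos z.im_pos]

theorem K_eq_of (hΓ : -1 ∈ Γ)
    (hdet : ∃ c : ℂ, c ≠ 0 ∧ ∀ z : ℍ, (B.Phi z).det ^ 12 = c * Dl z ^ B.K) :
    B.K = 6 * ((Fintype.card (SL(2, ℤ) ⧸ Γ) : ℤ) -
      (Nat.card (MulAction.orbitRel.Quotient (Subgroup.zpowers ModularGroup.T)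
        (SL(2, ℤ) ⧸ Γ)) : ℤ)) := by
  obtain ⟨c, hc, hdet⟩ := hdet
  obtain ⟨L⟩ := nonempty_logData (MulAction.toPerm ModularGroup.T : Equiv.Perm (SL(2, ℤ) ⧸ Γ))
  set μ : ℕ := Fintype.card (SL(2, ℤ) ⧸ Γ) with hμ
  set r : ℕ := Nat.card (MulAction.orbitRel.Quotient (Subgroup.zpowers ModularGroup.T)
        (SL(2, ℤ) ⧸ Γ)) with hr
  -- first estimate
  have h1 : (fun z : ℍ => (B.Phi z).det ^ 12) =Θ[atImInfty]
      fun z : ℍ => Real.exp ((B.K : ℝ) * (-2 * π * z.im)) := by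
    have h2 := (Dl_isTheta.zpow B.K).const_mul_left hc
    refine (EventuallyEq.trans_isTheta (Eventually.of_forall fun z => hdet z) h2).trans_eventuallyEq
      (Eventually.of_forall fun z => ?_)
    show Real.exp (-2 * π * z.im) ^ B.K = Real.exp ((B.K : ℝ) * (-2 * π * z.im))
    rw [mul_comm (B.K : ℝ), Real.exp_mul (-2 * π * z.im) (B.K : ℝ), Real.rpow_intCast]
  -- second estimate
  have h3 : (fun z : ℍ => (L.E z).det) =Θ[atImInfty]
      fun z : ℍ => Real.exp (-π * ((μ : ℝ) - r) * z.im) := by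
    refine IsTheta.of_norm_eventuallyEq_norm (Eventually.of_forall fun z => ?_)
    show ‖(L.E z).det‖ = ‖Real.exp (-π * ((μ : ℝ) - r) * z.im)‖
    have hcard : Nat.card (MulAction.orbitRel.Quotient (Subgroup.zpowers
        (MulAction.toPerm ModularGroup.T : Equiv.Perm (SL(2, ℤ) ⧸ Γ))) (SL(2, ℤ) ⧸ Γ)) = r :=
      card_orbits_toPerm _
    rw [L.det_E, hcard, Complex.norm_exp, Real.norm_eq_abs, abs_of_pos (Real.exp_pos _)]
    congr 1
    have : (2 * (π : ℂ) * Complex.I * (z : ℂ) * (((μ : ℂ) - (r : ℂ)) / 2)) =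
        ((π * ((μ : ℝ) - r) : ℝ) : ℂ) * (Complex.I * z) := by
      push_cast; ring
    rw [this, Complex.re_ofReal_mul]
    simp
  have h4 : (fun z => (Pt B L z).det) =Θ[atImInfty] (fun _ : ℍ => (1 : ℝ)) := by
    have h4' : (fun _ : ℍ => (1 : ℂ)) =Θ[atImInfty] fun z => (Pt B L z).det :=
      isTheta_of_div_tendsto_nhds_ne_zero (by simpa using det_Pt_tendsto B L)
        (det_Pinf_ne_zero B L hΓ)
    exact h4'.symm.trans (isTheta_const_const one_ne_zero one_ne_zero)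
  have h5 : (fun z : ℍ => (B.Phi z).det ^ 12) =Θ[atImInfty]
      fun z : ℍ => Real.exp ((12 : ℕ) * (-π * ((μ : ℝ) - r) * z.im)) := by
    have h6 := ((h3.mul h4).pow 12)
    refine (EventuallyEq.trans_isTheta (Eventually.of_forall fun z => ?_) h6).trans
      (IsTheta.of_norm_eventuallyEq_norm (Eventually.of_forall fun z => ?_))
    · show (B.Phi z).det ^ 12 = _
      rw [Phi_eq B L z, Matrix.det_mul]
    · show ‖(Real.exp (-π * ((μ : ℝ) - r) * z.im) * 1) ^ 12‖ =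
        ‖Real.exp ((12 : ℕ) * (-π * ((μ : ℝ) - r) * z.im))‖
      rw [Real.exp_nat_mul, mul_one]
  have h7 := (h1.symm.trans h5)
  rw [Real.isTheta_exp_comp_exp_comp] at h7
  have h8 : (2 * π * (6 * ((μ : ℝ) - r) - B.K)) = 0 := by
    refine eq_zero_of_isBoundedUnder (h7.mono_le (Eventually.of_forall fun z => ?_))
    apply le_of_eq
    show |_| = |_|
    congr 1
    push_cast
    ring
  have h9 : (B.K : ℝ) = 6 * ((μ : ℝ) - r) := by
    have : (6 * ((μ : ℝ) - r) - B.K) = 0 := by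
      rcases mul_eq_zero.mp h8 with h | h
      · exact absurd h (by positivity)
      · exact h
    linarith
  exact_mod_cast h9

theorem isZero_Dl_mul_inv (hΓ : -1 ∈ Γ) (i x : SL(2, ℤ) ⧸ Γ) :
    IsZeroAtImInfty (fun z : ℍ => Dl z * (B.Phi z)⁻¹ i x) := by
  obtain ⟨L⟩ := nonempty_logData (MulAction.toPerm ModularGroup.T : Equiv.Perm (SL(2, ℤ) ⧸ Γ))
  have hinv : ∀ z : ℍ, (B.Phi z)⁻¹ = (Pt B L z)⁻¹ * L.Eneg z := by
    intro z
    rw [Phi_eq B L z, Matrix.mul_inv_rev, Matrix.inv_eq_right_inv (L.mul_neg z)]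
  have h1 : Tendsto (fun z => (Pt B L z)⁻¹) atImInfty (𝓝 (Pinf B L)⁻¹) := by
    simp only [Matrix.inv_def, Ring.inverse_eq_inv']
    exact ((det_Pt_tendsto B L).inv₀ (det_Pinf_ne_zero B L hΓ)).smul
      (((continuous_id.matrix_adjugate).tendsto (Pinf B L)).comp (Pt_tendsto' B L))
  have h2 : ∀ y, (fun z => (Pt B L z)⁻¹ i y) =O[atImInfty] (fun _ : ℍ => (1 : ℝ)) := by
    intro y
    have : Tendsto (fun z => (Pt B L z)⁻¹ i y) atImInfty (𝓝 ((Pinf B L)⁻¹ i y)) :=
      ((continuous_apply y).tendsto _).comp (((continuous_apply i).tendsto _).comp h1)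
    exact this.isBigO_one ℝ
  have h3 : (fun z : ℍ => Dl z * (B.Phi z)⁻¹ i x) =O[atImInfty]
      (fun z : ℍ => Real.exp (-(2 * π / (L.h : ℝ)) * z.im)) := by
    have h4 : (fun z : ℍ => (B.Phi z)⁻¹ i x) =O[atImInfty]
        (fun z : ℍ => Real.exp (2 * π * (1 - 1 / (L.h : ℝ)) * z.im)) := by
      simp only [hinv, Matrix.mul_apply]
      refine IsBigO.fun_sum fun y _ => ?_
      have := (h2 y).mul (L.isBigO_Eneg y x)
      simpa using this
    refine (Dl_isBigO.mul h4).congr_right fun z => ?_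
    rw [← Real.exp_add]
    congr 1
    ring
  exact h3.trans_tendsto L.tendsto_exp

end

end Infinity

variable {Γ : Subgroup SL(2, ℤ)} [Fintype (SL(2, ℤ) ⧸ Γ)] [DecidableEq (SL(2, ℤ) ⧸ Γ)]

/-- T4: the total weight of a free basis (the hypothesis `hdet` is `FreeBasis.det_pow_eq`). -/
theorem FreeBasis.K_eq (B : FreeBasis Γ) (hΓ : -1 ∈ Γ)
    (hdet : ∃ c : ℂ, c ≠ 0 ∧ ∀ z : ℍ, (B.Phi z).det ^ 12 = c * Dl z ^ B.K) :
    B.K = 6 * ((Fintype.card (SL(2, ℤ) ⧸ Γ) : ℤ) -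
      (Nat.card (MulAction.orbitRel.Quotient (Subgroup.zpowers ModularGroup.T)
        (SL(2, ℤ) ⧸ Γ)) : ℤ)) :=
  Infinity.K_eq_of B hΓ hdet

/-- T4: the entries of `Δ Φ⁻¹` vanish at infinity. -/
theorem FreeBasis.isZeroAtImInfty_Dl_mul_inv (B : FreeBasis Γ) (hΓ : -1 ∈ Γ)
    (i x : SL(2, ℤ) ⧸ Γ) :
    IsZeroAtImInfty (fun z : ℍ => Dl z * (B.Phi z)⁻¹ i x) :=
  Infinity.isZero_Dl_mul_inv B hΓ i x

end Fermat.Agent.S20
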