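import Mathlib
import Fermat.Agent.S20.LevelOne

set_option autoImplicit false

namespace Fermat.Agent.S20

open UpperHalfPlane ModularForm Filter Topology Function Complex
open scoped MatrixGroups Manifold Real

/-- forms of weight `n` which come from lower weight. -/
def IsOld (Γ : Subgroup SL(2, ℤ)) (n : ℤ) (g : ℍ → ℂ) : Prop :=
  ∃ g1 g2, IsMF Γ (n - 4) g1 ∧ IsMF Γ (n - 6) g2 ∧ g = E4 * g1 + E6 * g2

/-- A homogeneous family which is a basis of `M_*` modulo `(E4, E6) M_*`. -/
structure PreBasis (Γ : Subgroup SL(2, ℤ)) where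
  I : Type
  k : I → ℤ
  f : I → ℍ → ℂ
  mf : ∀ i, IsMF Γ (k i) (f i)
  span : ∀ n g, IsMF Γ n g → ∃ c : I →₀ ℂ, (∀ i ∈ c.support, k i = n) ∧
    IsOld Γ n (g - Finsupp.linearCombination ℂ f c)
  indep : ∀ n (c : I →₀ ℂ), (∀ i ∈ c.support, k i = n) →
    IsOld Γ n (Finsupp.linearCombination ℂ f c) → c = 0

variable {Γ : Subgroup SL(2, ℤ)}

lemma const_zero' : (fun x : ℂ => Function.const ℍ x) 0 = 0 := funext fun _ => rfl

lemma isOld_zero (n : ℤ) : IsOld Γ n 0 := ⟨0, 0, isMF_zero, isMF_zero, by simp⟩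

namespace PreBasis

variable (B : PreBasis Γ)

/-- linear combinations with function coefficients -/
noncomputable def lc : (B.I →₀ (ℍ → ℂ)) →ₗ[ℍ → ℂ] (ℍ → ℂ) :=
  Finsupp.linearCombination (ℍ → ℂ) B.f

/-- admissible coefficient families in degree `n`. -/
def IsCoef (n : ℤ) (a : B.I →₀ (ℍ → ℂ)) : Prop := ∀ i, IsMF ⊤ (n - B.k i) (a i)

lemma isMF_lc {n : ℤ} {a : B.I →₀ (ℍ → ℂ)} (ha : B.IsCoef n a) : IsMF Γ n (B.lc a) := by
  rw [lc, Finsupp.linearCombination_apply, Finsupp.sum]
  refine IsMF.sum _ fun i _ => ?_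
  rw [smul_eq_mul]
  exact (ha i).of_top.mul' (B.mf i) (by ring)

lemma k_nonneg [Γ.FiniteIndex] (i : B.I) : 0 ≤ B.k i := by
  by_contra h
  have h0 : B.f i = 0 := (B.mf i).eq_zero_of_neg (not_le.mp h)
  have := B.indep (B.k i) (Finsupp.single i 1)
    (fun j hj => by
      have := Finsupp.support_single_subset hj
      rw [Finset.mem_singleton] at this
      rw [this])
    (by simpa [h0] using isOld_zero _)
  have h1 := DFunLike.congr_fun this i
  simp at h1

theorem gen [Γ.FiniteIndex] : ∀ (m : ℕ) (n : ℤ) (g : ℍ → ℂ), n < m → IsMF Γ n g →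
    ∃ a, B.IsCoef n a ∧ g = B.lc a := by
  intro m
  induction m with
  | zero =>
    intro n g hn hg
    exact ⟨0, fun i => isMF_zero, by simp [hg.eq_zero_of_neg (by simpa using hn)]⟩
  | succ m ih =>
    intro n g hn hg
    obtain ⟨c, hc, g1, g2, hg1, hg2, hgg⟩ := B.span n g hg
    obtain ⟨a1, ha1, rfl⟩ := ih (n - 4) g1 (by push_cast at hn; omega) hg1
    obtain ⟨a2, ha2, rfl⟩ := ih (n - 6) g2 (by push_cast at hn; omega) hg2
    refine ⟨c.mapRange (fun x : ℂ => Function.const ℍ x) const_zero' + E4 • a1 + E6 • a2, ?_, ?_⟩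
    · intro i
      rw [Finsupp.add_apply, Finsupp.add_apply, Finsupp.smul_apply, Finsupp.smul_apply,
        Finsupp.mapRange_apply]
      refine IsMF.add (IsMF.add ?_ ?_) ?_
      · by_cases hi : i ∈ c.support
        · rw [hc i hi, sub_self]; exact isMF_const _
        · rw [Finsupp.notMem_support_iff.mp hi]; exact isMF_zero
      · exact isMF_E4.mul' (ha1 i) (by ring)
      · exact isMF_E6.mul' (ha2 i) (by ring)
    · rw [map_add, map_add, map_smul, map_smul, smul_eq_mul, smul_eq_mul, add_assoc, ← hgg]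
      have : B.lc (c.mapRange (fun x : ℂ => Function.const ℍ x) const_zero')
          = Finsupp.linearCombination ℂ B.f c := by
        rw [lc, Finsupp.linearCombination_apply, Finsupp.linearCombination_apply,
          Finsupp.sum_mapRange_index (by simp)]
        refine Finsupp.sum_congr fun i _ => ?_
        funext z; simp
      rw [this]; ring

theorem exists_coef [Γ.FiniteIndex] {n : ℤ} {g : ℍ → ℂ} (hg : IsMF Γ n g) :
    ∃ a, B.IsCoef n a ∧ g = B.lc a :=
  B.gen (n + 1).toNat n g (by omega) hg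

/-- combinations with powers of `E6` as coefficients -/
noncomputable def L6 (n : ℤ) : (B.I →₀ ℂ) →ₗ[ℂ] (ℍ → ℂ) :=
  Finsupp.linearCombination ℂ (fun i => P6 (n - B.k i) * B.f i)

lemma isMF_L6 (n : ℤ) (c : B.I →₀ ℂ) : IsMF Γ n (B.L6 n c) := by
  rw [L6, Finsupp.linearCombination_apply, Finsupp.sum]
  refine IsMF.sum _ fun i _ => IsMF.smul _ ?_
  exact (isMF_P6 _).of_top.mul' (B.mf i) (by ring)

end PreBasis

lemma P6_eq_E6_mul {m : ℤ} (hm : m ≠ 0) : P6 m = E6 * P6 (m - 6) := by
  rcases lt_or_ge m 6 with h | h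
  · have h1 : P6 m = 0 := by unfold P6; rw [if_neg]; omega
    have h2 : P6 (m - 6) = 0 := by unfold P6; rw [if_neg]; omega
    rw [h1, h2, mul_zero]
  · rw [E6_mul_P6 (m - 6) (by omega)]; congr 1; ring

namespace PreBasis

variable (B : PreBasis Γ)

theorem Q [Γ.FiniteIndex] : ∀ (m : ℕ) (n : ℤ) (c : B.I →₀ ℂ), n < m →
    (∃ u, IsMF Γ (n - 4) u ∧ B.L6 n c = E4 * u) →
    ∀ i, 6 ∣ n - B.k i → 0 ≤ n - B.k i → c i = 0 := by
  classical
  intro m
  induction m with
  | zero =>
    intro n c hn _ i _ h0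
    have := B.k_nonneg i
    push_cast at hn
    omega
  | succ m ih =>
    intro n c hn ⟨u, hu, hcu⟩ i hdvd h0
    set c' := c.filter (fun i => B.k i = n) with hc'
    set c'' := c.filter (fun i => ¬ B.k i = n) with hc''
    have hsplit : c' + c'' = c := Finsupp.filter_add_filter_not _ _
    have h1 : B.L6 n c' = Finsupp.linearCombination ℂ B.f c' := by
      rw [L6, Finsupp.linearCombination_apply, Finsupp.linearCombination_apply]
      refine Finsupp.sum_congr fun j hj => ?_
      have hj' : B.k j = n := by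
        rw [hc', Finsupp.support_filter, Finset.mem_filter] at hj
        exact hj.2
      rw [hj', sub_self, P6_zero, one_mul]
    have h2 : B.L6 n c'' = E6 * B.L6 (n - 6) c'' := by
      rw [L6, L6, Finsupp.linearCombination_apply, Finsupp.linearCombination_apply, Finsupp.sum,
        Finsupp.sum, Finset.mul_sum]
      refine Finset.sum_congr rfl fun j hj => ?_
      have hj' : ¬ B.k j = n := by
        rw [hc'', Finsupp.support_filter, Finset.mem_filter] at hj
        exact hj.2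
      rw [P6_eq_E6_mul (m := n - B.k j) (by omega), show n - B.k j - 6 = n - 6 - B.k j by ring]
      funext z
      simp only [Pi.smul_apply, Pi.mul_apply, smul_eq_mul]
      ring
    have h3 : Finsupp.linearCombination ℂ B.f c' = E4 * u + E6 * (-(B.L6 (n - 6) c'')) := by
      rw [← h1, mul_neg, ← h2, ← hcu, ← hsplit, map_add]; ring
    have hc'0 : c' = 0 := by
      refine B.indep n c' (fun j hj => ?_) ⟨u, _, hu, (B.isMF_L6 _ _).neg, h3⟩
      rw [hc', Finsupp.support_filter, Finset.mem_filter] at hj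
      exact hj.2
    have h4 : E6 * B.L6 (n - 6) c'' = E4 * u := by
      rw [← h2, ← hcu, ← hsplit, hc'0, zero_add]
    obtain ⟨u', hu', hu'eq⟩ := exists_eq_E4_mul (B.isMF_L6 (n - 6) c'')
      (hu.weight_cast (by ring)) h4
    by_cases hi : B.k i = n
    · have : c' i = c i := Finsupp.filter_apply_pos _ _ hi
      rw [← this, hc'0]; rfl
    · have h5 : c'' i = c i := Finsupp.filter_apply_pos _ _ hi
      rw [← h5]
      exact ih (n - 6) c'' (by push_cast at hn; omega) ⟨u', hu', hu'eq⟩ i (by omega) (by omega)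

theorem free_aux [Γ.FiniteIndex] : ∀ (m : ℕ) (n : ℤ) (a : B.I →₀ (ℍ → ℂ)), n < m →
    B.IsCoef n a → B.lc a = 0 → a = 0 := by
  classical
  intro m
  induction m with
  | zero =>
    intro n a hn ha _
    ext1 i
    have := B.k_nonneg i
    exact (ha i).eq_zero_of_neg (by push_cast at hn; omega)
  | succ m ih =>
    intro n a hn ha h0
    have hex : ∀ i, ∃ (b : ℍ → ℂ) (c : ℂ), IsMF ⊤ (n - B.k i - 4) b ∧
        a i = E4 * b + c • P6 (n - B.k i) ∧ (a i = 0 → b = 0 ∧ c = 0) := by
      intro i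
      by_cases hi : a i = 0
      · exact ⟨0, 0, isMF_zero, by simp [hi], fun _ => ⟨rfl, rfl⟩⟩
      · obtain ⟨b, c, hb, hbc⟩ := (ha i).exists_decomp
        exact ⟨b, c, hb, hbc, fun h => absurd h hi⟩
    choose β γ hβ hβγ hz using hex
    let b : B.I →₀ (ℍ → ℂ) := Finsupp.onFinset a.support β (fun i hi => by
      rw [Finsupp.mem_support_iff]; intro h; exact hi (hz i h).1)
    let c : B.I →₀ ℂ := Finsupp.onFinset a.support γ (fun i hi => by
      rw [Finsupp.mem_support_iff]; intro h; exact hi (hz i h).2)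
    have hb : B.IsCoef (n - 4) b := fun i => (hβ i).weight_cast (by ring)
    have hsum : B.lc a = E4 * B.lc b + B.L6 n c := by
      rw [lc, L6, Finsupp.linearCombination_apply, Finsupp.linearCombination_apply,
        Finsupp.linearCombination_apply]
      rw [Finsupp.onFinset_sum _ (by simp), Finsupp.onFinset_sum _ (by simp), Finsupp.sum,
        Finset.mul_sum, ← Finset.sum_add_distrib]
      refine Finset.sum_congr rfl fun i _ => ?_
      rw [hβγ i]
      funext z
      simp only [Pi.smul_apply, Pi.mul_apply, Pi.add_apply, smul_eq_mul]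
      ring
    have hL : B.L6 n c = E4 * (-(B.lc b)) := by
      rw [h0] at hsum
      rw [mul_neg]; exact eq_neg_of_add_eq_zero_right hsum.symm
    have hc0 : ∀ i, γ i • P6 (n - B.k i) = 0 := by
      intro i
      by_cases hcond : 6 ∣ n - B.k i ∧ 0 ≤ n - B.k i
      · have : c i = 0 := B.Q (m + 1) n c hn ⟨_, (B.isMF_lc hb).neg, hL⟩ i hcond.1 hcond.2
        have h' : γ i = 0 := this
        rw [h', zero_smul]
      · unfold P6; rw [if_neg hcond, smul_zero]
    have hL0 : B.L6 n c = 0 := by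
      rw [L6, Finsupp.linearCombination_apply, Finsupp.onFinset_sum _ (by simp)]
      refine Finset.sum_eq_zero fun i _ => ?_
      rw [← smul_mul_assoc, hc0 i, zero_mul]
    have hb0 : B.lc b = 0 := by
      rw [h0, hL0, add_zero] at hsum
      exact eq_zero_of_E4_mul (B.isMF_lc hb).holo hsum.symm
    have hbz : b = 0 := ih (n - 4) b (by push_cast at hn; omega) hb hb0
    ext1 i
    have : β i = 0 := DFunLike.congr_fun hbz i
    rw [hβγ i, hc0 i, this]; simp

theorem free [Γ.FiniteIndex] {n : ℤ} {a : B.I →₀ (ℍ → ℂ)} (ha : B.IsCoef n a)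
    (h0 : B.lc a = 0) : a = 0 :=
  B.free_aux (n + 1).toNat n a (by omega) ha h0

end PreBasis

/-! ### existence of a prebasis -/

/-- modular forms as a submodule of functions -/
def Msub (Γ : Subgroup SL(2, ℤ)) (n : ℤ) : Submodule ℂ (ℍ → ℂ) where
  carrier := {f | IsMF Γ n f}
  add_mem' := fun ha hb => IsMF.add ha hb
  zero_mem' := isMF_zero
  smul_mem' := fun c _ ha => IsMF.smul c ha

/-- old forms as a submodule of functions -/
def Oldsub (Γ : Subgroup SL(2, ℤ)) (n : ℤ) : Submodule ℂ (ℍ → ℂ) where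
  carrier := {f | IsOld Γ n f}
  add_mem' := by
    rintro _ _ ⟨a1, a2, ha1, ha2, rfl⟩ ⟨b1, b2, hb1, hb2, rfl⟩
    exact ⟨a1 + b1, a2 + b2, ha1.add hb1, ha2.add hb2, by ring⟩
  zero_mem' := isOld_zero n
  smul_mem' := by
    rintro c _ ⟨a1, a2, ha1, ha2, rfl⟩
    exact ⟨c • a1, c • a2, ha1.smul c, ha2.smul c, by
      rw [smul_add, mul_smul_comm, mul_smul_comm]⟩

lemma Oldsub_le (Γ : Subgroup SL(2, ℤ)) (n : ℤ) : Oldsub Γ n ≤ Msub Γ n := by
  rintro _ ⟨a1, a2, ha1, ha2, rfl⟩
  exact (isMF_E4.of_top.mul' ha1 (by ring)).add (isMF_E6.of_top.mul' ha2 (by ring))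

lemma exists_compl (Γ : Subgroup SL(2, ℤ)) (n : ℤ) : ∃ C : Submodule ℂ (ℍ → ℂ),
    C ≤ Msub Γ n ∧ C ⊓ Oldsub Γ n = ⊥ ∧ Oldsub Γ n ⊔ C = Msub Γ n := by
  obtain ⟨Q, hQ⟩ := (Oldsub Γ n).exists_isCompl
  refine ⟨Q ⊓ Msub Γ n, inf_le_right, ?_, ?_⟩
  · rw [inf_right_comm, inf_comm Q, hQ.inf_eq_bot, bot_inf_eq]
  · rw [← sup_inf_assoc_of_le Q (Oldsub_le Γ n), hQ.sup_eq_top, top_inf_eq]

theorem nonempty_preBasis (Γ : Subgroup SL(2, ℤ)) : Nonempty (PreBasis Γ) := by
  classical
  choose C hCle hCinf hCsup using exists_compl Γ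
  let b := fun n => Module.Basis.ofVectorSpace ℂ (C n)
  let f : (Σ n : ℤ, ↥(Module.Basis.ofVectorSpaceIndex ℂ (C n))) → ℍ → ℂ :=
    fun i => ((b i.1 i.2 : C i.1) : ℍ → ℂ)
  have hlc : ∀ (n : ℤ) (r : ↥(Module.Basis.ofVectorSpaceIndex ℂ (C n)) →₀ ℂ),
      Finsupp.linearCombination ℂ f (r.mapDomain (Sigma.mk n))
        = ((Finsupp.linearCombination ℂ (b n) r : C n) : ℍ → ℂ) := by
    intro n r
    rw [Finsupp.linearCombination_mapDomain]
    have := (Finsupp.apply_linearCombination ℂ (C n).subtype (b n) r)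
    rw [Submodule.subtype_apply] at this
    rw [this]
    rfl
  refine ⟨⟨_, fun i => i.1, f, fun i => hCle i.1 (b i.1 i.2).2, ?_, ?_⟩⟩
  · intro n g hg
    have hg' : g ∈ Oldsub Γ n ⊔ C n := by rw [hCsup]; exact hg
    obtain ⟨o, ho, y, hy, rfl⟩ := Submodule.mem_sup.mp hg'
    refine ⟨((b n).repr ⟨y, hy⟩).mapDomain (Sigma.mk n), ?_, ?_⟩
    · intro i hi
      have := Finsupp.mapDomain_support hi
      rw [Finset.mem_image] at this
      obtain ⟨j, _, rfl⟩ := this
      rfl
    · rw [hlc, Module.Basis.linearCombination_repr]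
      have : o + y - y = o := by ring
      show IsOld Γ n (o + y - y)
      rw [this]; exact ho
  · intro n c hc hold
    have hinj : Function.Injective
        (@Sigma.mk ℤ (fun n => ↥(Module.Basis.ofVectorSpaceIndex ℂ (C n))) n) :=
      sigma_mk_injective
    have hcr : (c.comapDomain (Sigma.mk n) hinj.injOn).mapDomain (Sigma.mk n) = c := by
      refine Finsupp.mapDomain_comapDomain _ hinj c ?_
      rintro ⟨n', j⟩ hi
      have : n' = n := hc _ hi
      subst this
      exact ⟨j, rfl⟩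
    set r := c.comapDomain (Sigma.mk n) hinj.injOn with hr
    rw [← hcr, hlc] at hold
    set y : C n := Finsupp.linearCombination ℂ (b n) r with hy
    have hold' : (y : ℍ → ℂ) ∈ Oldsub Γ n := hold
    have h0 : (y : ℍ → ℂ) ∈ C n ⊓ Oldsub Γ n := Submodule.mem_inf.mpr ⟨y.2, hold'⟩
    rw [hCinf, Submodule.mem_bot, Submodule.coe_eq_zero] at h0
    have h1 := (linearIndependent_iff.mp (b n).linearIndependent) r h0
    rw [← hcr, h1, Finsupp.mapDomain_zero]

end Fermat.Agent.S20
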