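import Mathlib
import Fermat.Agent.S20.Free
import Fermat.Agent.S20.FreeBasis
import Fermat.Agent.S20.DetForm

set_option autoImplicit false

namespace Fermat.Agent.S20

open UpperHalfPlane ModularForm Filter Topology
open scoped MatrixGroups Manifold

variable {Γ : Subgroup SL(2, ℤ)}

lemma PreBasis.comp_lc (B : PreBasis Γ) {n : ℤ} {a : B.I →₀ (ℍ → ℂ)} (ha : B.IsCoef n a)
    (x : SL(2, ℤ) ⧸ Γ) :
    comp Γ n (B.lc a) x = a.sum fun i c => c * comp Γ (B.k i) (B.f i) x := by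
  rw [PreBasis.lc, Finsupp.linearCombination_apply, Finsupp.sum, comp_sum, Finsupp.sum]
  refine Finset.sum_congr rfl fun i _ => ?_
  rw [smul_eq_mul]
  exact comp_mul_top (ha i) (by ring) x

lemma comp_injective {n0 : ℤ} {g0 : ℍ → ℂ} (hg : IsMF Γ n0 g0)
    (hsep : ∀ γ : SL(2, ℤ), g0 ∣[n0] γ = g0 → γ ∈ Γ) :
    Function.Injective (comp Γ n0 g0) := by
  intro x y hxy
  induction x using QuotientGroup.induction_on with
  | H g =>
  induction y using QuotientGroup.induction_on with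
  | H h =>
  rw [comp_mk hg.inv, comp_mk hg.inv] at hxy
  rw [QuotientGroup.eq]
  apply hsep
  rw [SlashAction.slash_mul, hxy, ← SlashAction.slash_mul]
  simp

lemma exists_injective_point [Finite (SL(2, ℤ) ⧸ Γ)] {n0 : ℤ} {g0 : ℍ → ℂ} (hg : IsMF Γ n0 g0)
    (hsep : ∀ γ : SL(2, ℤ), g0 ∣[n0] γ = g0 → γ ∈ Γ) :
    ∃ z0 : ℍ, Function.Injective (fun x => comp Γ n0 g0 x z0) := by
  classical
  have := Fintype.ofFinite (SL(2, ℤ) ⧸ Γ)
  have hne : (∏ p ∈ (Finset.univ : Finset (SL(2, ℤ) ⧸ Γ)).offDiag,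
      (comp Γ n0 g0 p.1 - comp Γ n0 g0 p.2)) ≠ 0 := by
    intro h0
    rw [UpperHalfPlane.prod_eq_zero_iff
      (fun p _ => (hg.comp_holo p.1).sub (hg.comp_holo p.2))] at h0
    obtain ⟨p, hp, hp0⟩ := h0
    rw [Finset.mem_offDiag] at hp
    exact hp.2.2 (comp_injective hg hsep (sub_eq_zero.mp hp0))
  obtain ⟨z0, hz0⟩ := Function.ne_iff.mp hne
  refine ⟨z0, fun x y hxy => ?_⟩
  by_contra hne'
  apply hz0
  rw [Finset.prod_apply]
  refine Finset.prod_eq_zero (i := (x, y)) (by simp [hne']) ?_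
  simpa [sub_eq_zero] using hxy

/-- at a suitable point the component vectors of the prebasis span everything. -/
lemma PreBasis.exists_span_eq_top [Γ.FiniteIndex] (B : PreBasis Γ) {n0 : ℤ} {g0 : ℍ → ℂ}
    (hg : IsMF Γ n0 g0) (hsep : ∀ γ : SL(2, ℤ), g0 ∣[n0] γ = g0 → γ ∈ Γ) :
    ∃ z0 : ℍ, Submodule.span ℂ (Set.range fun (i : B.I) (x : SL(2, ℤ) ⧸ Γ) =>
      comp Γ (B.k i) (B.f i) x z0) = ⊤ := by
  classical
  have := Fintype.ofFinite (SL(2, ℤ) ⧸ Γ)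
  obtain ⟨z0, hz0⟩ := exists_injective_point hg hsep
  refine ⟨z0, ?_⟩
  rw [eq_top_iff]
  intro v _
  set t : SL(2, ℤ) ⧸ Γ → ℂ := fun x => comp Γ n0 g0 x z0 with ht
  set p := Lagrange.interpolate Finset.univ t v with hp
  have hv : v = ∑ l ∈ p.support, p.coeff l • (fun x => t x ^ l) := by
    funext x
    have h1 := Lagrange.eval_interpolate_at_node v (s := Finset.univ) (v := t)
      hz0.injOn (Finset.mem_univ x)
    rw [← hp, Polynomial.eval_eq_sum, Polynomial.sum] at h1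
    rw [← h1, Finset.sum_apply]
    rfl
  rw [hv]
  refine Submodule.sum_mem _ fun l _ => Submodule.smul_mem _ _ ?_
  obtain ⟨a, ha, hal⟩ := B.exists_coef (hg.pow l)
  have h2 : (fun x => t x ^ l) = ∑ i ∈ a.support, (a i z0) •
      (fun x : SL(2, ℤ) ⧸ Γ => comp Γ (B.k i) (B.f i) x z0) := by
    funext x
    have h3 := congrFun (B.comp_lc ha x) z0
    rw [← hal, comp_pow, Finsupp.sum, Finset.sum_apply] at h3
    rw [Finset.sum_apply]
    exact h3
  rw [h2]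
  exact Submodule.sum_mem _ fun i _ => Submodule.smul_mem _ _ (Submodule.subset_span ⟨i, rfl⟩)

/-- extraction of a square invertible matrix of components. -/
lemma PreBasis.exists_embedding [Γ.FiniteIndex] [Fintype (SL(2, ℤ) ⧸ Γ)]
    [DecidableEq (SL(2, ℤ) ⧸ Γ)] (B : PreBasis Γ) {n0 : ℤ} {g0 : ℍ → ℂ}
    (hg : IsMF Γ n0 g0) (hsep : ∀ γ : SL(2, ℤ), g0 ∣[n0] γ = g0 → γ ∈ Γ) :
    ∃ (ι : SL(2, ℤ) ⧸ Γ → B.I) (z0 : ℍ), Function.Injective ι ∧
      detForm Γ (B.k ∘ ι) (B.f ∘ ι) z0 ≠ 0 := by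
  obtain ⟨z0, hz0⟩ := B.exists_span_eq_top hg hsep
  set w : B.I → (SL(2, ℤ) ⧸ Γ → ℂ) := fun i x => comp Γ (B.k i) (B.f i) x z0 with hw
  obtain ⟨κ, a, ha, hspan, hli⟩ := exists_linearIndependent' ℂ w
  rw [hz0] at hspan
  let b := Module.Basis.mk hli hspan.ge
  have : Fintype κ := Module.Basis.fintypeIndexOfRankLtAleph0 b (Module.rank_lt_aleph0 _ _)
  have hcard : Fintype.card (SL(2, ℤ) ⧸ Γ) = Fintype.card κ := by
    rw [← Module.finrank_eq_card_basis b, Module.finrank_fintype_fun_eq_card]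
  let e : (SL(2, ℤ) ⧸ Γ) ≃ κ := Fintype.equivOfCardEq hcard
  refine ⟨a ∘ e, z0, ha.comp e.injective, ?_⟩
  have h1 : LinearIndependent ℂ (w ∘ (a ∘ e)) := hli.comp e e.injective
  have h2 : Submodule.span ℂ (Set.range (w ∘ (a ∘ e))) = ⊤ := by
    rw [← hspan]
    congr 1
    rw [← Function.comp_assoc, e.surjective.range_comp]
  have h3 := ((Pi.basisFun ℂ (SL(2, ℤ) ⧸ Γ)).is_basis_iff_det).mp ⟨h1, h2⟩
  rw [Module.Basis.det_apply] at h3
  have h4 : (Pi.basisFun ℂ (SL(2, ℤ) ⧸ Γ)).toMatrix (w ∘ (a ∘ e)) =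
      Matrix.of fun x y => comp Γ ((B.k ∘ (a ∘ e)) y) ((B.f ∘ (a ∘ e)) y) x z0 := by
    ext x y
    simp [Module.Basis.toMatrix_apply, hw]
  rw [h4] at h3
  exact h3.ne_zero

section cramer

variable [Fintype (SL(2, ℤ) ⧸ Γ)] [DecidableEq (SL(2, ℤ) ⧸ Γ)]

/-- Cramer's rule for forms. -/
lemma detForm_mul_eq_sum {κ : SL(2, ℤ) ⧸ Γ → ℤ} {φ : SL(2, ℤ) ⧸ Γ → ℍ → ℂ}
    (hφ : ∀ y, IsMF Γ (κ y) (φ y)) {m : ℤ} {ψ : ℍ → ℂ} (hψ : IsMF Γ m ψ) :
    detForm Γ κ φ * ψ =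
      ∑ y, detForm Γ (Function.update κ y m) (Function.update φ y ψ) * φ y := by
  funext z
  set A : Matrix (SL(2, ℤ) ⧸ Γ) (SL(2, ℤ) ⧸ Γ) ℂ := Matrix.of fun x y => comp Γ (κ y) (φ y) x z
    with hA
  set bv : SL(2, ℤ) ⧸ Γ → ℂ := fun x => comp Γ m ψ x z with hbv
  have h1 := congrFun (Matrix.mulVec_cramer A bv) ((1 : SL(2, ℤ)) : SL(2, ℤ) ⧸ Γ)
  rw [Matrix.mulVec, dotProduct] at h1
  simp only [Pi.smul_apply, smul_eq_mul, hbv, comp_one hψ.inv] at h1
  rw [Pi.mul_apply, Finset.sum_apply]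
  have h2 : detForm Γ κ φ z = A.det := rfl
  rw [h2, ← h1]
  refine Finset.sum_congr rfl fun y _ => ?_
  rw [Pi.mul_apply, Matrix.cramer_apply, hA, Matrix.of_apply, comp_one (hφ y).inv, mul_comm]
  congr 1
  unfold detForm
  congr 1
  ext x y'
  by_cases hy : y' = y
  · subst hy; simp
  · simp [Matrix.updateCol_ne hy, Function.update_of_ne hy]

lemma isMF_update {κ : SL(2, ℤ) ⧸ Γ → ℤ} {φ : SL(2, ℤ) ⧸ Γ → ℍ → ℂ}
    (hφ : ∀ y, IsMF Γ (κ y) (φ y)) {m : ℤ} {ψ : ℍ → ℂ} (hψ : IsMF Γ m ψ) (y : SL(2, ℤ) ⧸ Γ) :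
    ∀ y', IsMF Γ (Function.update κ y m y') (Function.update φ y ψ y') := by
  intro y'
  by_cases hy : y' = y
  · subst hy; simpa using hψ
  · simpa [Function.update_of_ne hy] using hφ y'

lemma sum_update (κ : SL(2, ℤ) ⧸ Γ → ℤ) (y : SL(2, ℤ) ⧸ Γ) (m : ℤ) :
    ∑ y', Function.update κ y m y' = ∑ y', κ y' - κ y + m := by
  rw [Finset.sum_update_of_mem (Finset.mem_univ y), ← Finset.sum_erase_eq_sub (Finset.mem_univ y),
    Finset.sdiff_singleton_eq_erase]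
  ring

lemma PreBasis.surjective_of_det_ne [Γ.FiniteIndex] (B : PreBasis Γ) (ι : SL(2, ℤ) ⧸ Γ → B.I)
    (z0 : ℍ) (hdet : detForm Γ (B.k ∘ ι) (B.f ∘ ι) z0 ≠ 0) : Function.Surjective ι := by
  classical
  intro i
  by_contra hi
  simp only [not_exists] at hi
  set κ := B.k ∘ ι with hκ
  set φ := B.f ∘ ι with hφdef
  have hφ : ∀ y, IsMF Γ (κ y) (φ y) := fun y => B.mf (ι y)
  set D0 := detForm Γ κ φ with hD0
  set C : SL(2, ℤ) ⧸ Γ → ℍ → ℂ := fun y =>
    detForm Γ (Function.update κ y (B.k i)) (Function.update φ y (B.f i)) with hC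
  have hrel := detForm_mul_eq_sum hφ (B.mf i)
  set a : B.I →₀ (ℍ → ℂ) := Finsupp.single i (D0 * D0) - ∑ y, Finsupp.single (ι y) (D0 * C y)
    with ha
  have hcoef : B.IsCoef (∑ y, κ y + ∑ y, κ y + B.k i) a := by
    intro j
    rw [ha, Finsupp.sub_apply, Finsupp.finsetSum_apply]
    refine IsMF.sub ?_ (IsMF.sum _ fun y _ => ?_)
    · by_cases hj : i = j
      · subst hj
        rw [Finsupp.single_eq_same]
        exact (isMF_detForm_mul hφ hφ).weight_cast (by ring)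
      · rw [Finsupp.single_eq_of_ne' hj]; exact isMF_zero
    · by_cases hj : ι y = j
      · subst hj
        rw [Finsupp.single_eq_same]
        refine (isMF_detForm_mul hφ (isMF_update hφ (B.mf i) y)).weight_cast ?_
        rw [sum_update]
        simp only [hκ, Function.comp_apply]
        ring
      · rw [Finsupp.single_eq_of_ne' hj]; exact isMF_zero
  have hlc : B.lc a = 0 := by
    rw [ha, map_sub, map_sum, PreBasis.lc]
    simp only [Finsupp.linearCombination_single, smul_eq_mul]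
    have : ∑ y, D0 * C y * B.f (ι y) = D0 * ∑ y, C y * φ y := by
      rw [Finset.mul_sum]
      exact Finset.sum_congr rfl fun y _ => by rw [mul_assoc]; rfl
    rw [this, ← hrel, mul_assoc, sub_self]
  have ha0 := B.free hcoef hlc
  have h1 := DFunLike.congr_fun ha0 i
  rw [ha, Finsupp.sub_apply, Finsupp.finsetSum_apply, Finsupp.single_eq_same] at h1
  have h2 : ∑ y, (Finsupp.single (ι y) (D0 * C y)) i = 0 :=
    Finset.sum_eq_zero fun y _ => Finsupp.single_eq_of_ne' (hi y)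
  rw [h2, sub_zero] at h1
  have h3 := congrFun h1 z0
  simp only [Pi.mul_apply, Finsupp.coe_zero, Pi.zero_apply, mul_self_eq_zero] at h3
  exact hdet h3

end cramer

/-- **Rank theorem**: a finite index subgroup with a separating form has a free basis. -/
theorem nonempty_freeBasis [Γ.FiniteIndex] [Fintype (SL(2, ℤ) ⧸ Γ)] [DecidableEq (SL(2, ℤ) ⧸ Γ)]
    {n0 : ℤ} {g0 : ℍ → ℂ} (hg : IsMF Γ n0 g0)
    (hsep : ∀ γ : SL(2, ℤ), g0 ∣[n0] γ = g0 → γ ∈ Γ) : Nonempty (FreeBasis Γ) := by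
  classical
  obtain ⟨B⟩ := nonempty_preBasis Γ
  obtain ⟨ι, z0, hinj, hdet⟩ := B.exists_embedding hg hsep
  have hsurj := B.surjective_of_det_ne ι z0 hdet
  let E : (SL(2, ℤ) ⧸ Γ) ≃ B.I := Equiv.ofBijective ι ⟨hinj, hsurj⟩
  have : Fintype B.I := Fintype.ofEquiv _ E
  have hsum : ∀ a : B.I →₀ (ℍ → ℂ), B.lc a = ∑ y, a (ι y) * B.f (ι y) := by
    intro a
    rw [PreBasis.lc, Finsupp.linearCombination_apply, Finsupp.sum_fintype _ _ (by simp),
      ← Equiv.sum_comp E]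
    rfl
  refine ⟨⟨B.k ∘ ι, B.f ∘ ι, fun y => B.mf (ι y), ?_, ?_, ⟨z0, hdet⟩⟩⟩
  · intro n g hg'
    obtain ⟨a, ha, rfl⟩ := B.exists_coef hg'
    exact ⟨fun y => a (ι y), fun y => ha (ι y), hsum a⟩
  · intro n a ha h0 y
    let a' : B.I →₀ (ℍ → ℂ) := Finsupp.equivFunOnFinite.symm (a ∘ E.symm)
    have ha'ι : ∀ y, a' (ι y) = a y := fun y => by
      show a (E.symm (E y)) = a y
      rw [Equiv.symm_apply_apply]
    have hcoef : B.IsCoef n a' := by
      intro j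
      obtain ⟨y, rfl⟩ := hsurj j
      rw [ha'ι]; exact ha y
    have hlc : B.lc a' = 0 := by
      rw [hsum, ← h0]
      exact Finset.sum_congr rfl fun y _ => by rw [ha'ι]; rfl
    have := B.free hcoef hlc
    rw [← ha'ι y, this]; rfl

end Fermat.Agent.S20
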