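import Mathlib
import Fermat.Agent.S20.Rank
import Fermat.Agent.S20.DetODE
import Fermat.Agent.S20.Arith
import Fermat.Agent.S20.Infinity
import Fermat.Agent.S20.Dual
import Fermat.Agent.S20.Elliptic

set_option autoImplicit false

namespace Fermat.Agent.S20

open UpperHalfPlane ModularForm Filter Topology
open scoped MatrixGroups Manifold

/-- The dimension formula for weight two cusp forms, for a finite index subgroup `Γ ∋ -1`
of `SL(2,ℤ)` possessing a separating modular form. -/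
theorem finrank_cuspForm_two_eq {Γ : Subgroup SL(2, ℤ)} [Γ.FiniteIndex] (hΓ : -1 ∈ Γ)
    {n0 : ℤ} {g0 : ℍ → ℂ} (hg : IsMF Γ n0 g0) (hsep : ∀ γ : SL(2, ℤ), g0 ∣[n0] γ = g0 → γ ∈ Γ) :
    (Module.finrank ℂ (CuspForm Γ 2) : ℚ) =
      1 + (Nat.card (SL(2, ℤ) ⧸ Γ) : ℚ) / 12
        - (Nat.card (MulAction.fixedBy (SL(2, ℤ) ⧸ Γ) ModularGroup.S) : ℚ) / 4
        - (Nat.card (MulAction.fixedBy (SL(2, ℤ) ⧸ Γ) (ModularGroup.S * ModularGroup.T)) : ℚ) / 3
        - (Nat.card (MulAction.orbitRel.Quotient (Subgroup.zpowers ModularGroup.T)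
            (SL(2, ℤ) ⧸ Γ)) : ℚ) / 2 := by
  classical
  have : Fintype (SL(2, ℤ) ⧸ Γ) := Fintype.ofFinite _
  obtain ⟨B⟩ := nonempty_freeBasis hg hsep
  have hdet := B.det_ne_zero
  have hzero := B.isZeroAtImInfty_Dl_mul_inv hΓ
  rw [B.finrank_cuspForm_two hΓ hdet hzero, Nat.card_eq_fintype_card]
  exact card_ten_eq B.k _ _ _ _ rfl (B.even_k hΓ) B.k_nonneg (B.k_le_ten hΓ hdet hzero)
    B.card_k_eq_zero (B.K_eq hΓ B.det_pow_eq) (B.card_k_mod_four hΓ hdet) (B.card_k_mod_six_zero hΓ hdet)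
    (B.card_k_mod_six_two hΓ hdet) (B.card_k_mod_six_four hΓ hdet)

end Fermat.Agent.S20
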