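import Mathlib
import Fermat.Prelude.Def_ModularCurve_GenusNumerics

set_option autoImplicit false

open scoped MatrixGroups
open CongruenceSubgroup ModularCurve

namespace Fermat.Agent.S20.Count

variable {N : ℕ}

theorem inv_mul_one_zero (g h : SL(2, ℤ)) :
    (g⁻¹ * h) 1 0 = g 0 0 * h 1 0 - g 1 0 * h 0 0 := by
  rw [Matrix.SpecialLinearGroup.coe_mul, Matrix.SpecialLinearGroup.coe_inv,
    Matrix.adjugate_fin_two, Matrix.mul_apply]
  simp [Fin.sum_univ_two]
  ring

/-- Two left cosets of `Gamma0 N` agree iff the first columns are proportional mod `N`. -/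
theorem mk_eq_mk_iff (g h : SL(2, ℤ)) :
    (g : SL(2, ℤ) ⧸ Gamma0 N) = h ↔ (N : ℤ) ∣ g 0 0 * h 1 0 - g 1 0 * h 0 0 := by
  rw [QuotientGroup.eq, Gamma0_mem, inv_mul_one_zero, ZMod.intCast_zmod_eq_zero_iff_dvd]

/-- The matrix with prescribed first column. -/
def ofCol (a c u v : ℤ) (h : u * a + v * c = 1) : SL(2, ℤ) :=
  ⟨!![a, -v; c, u], by rw [Matrix.det_fin_two_of]; linarith⟩

@[simp] theorem ofCol_zero_zero (a c u v : ℤ) (h : u * a + v * c = 1) :
    ofCol a c u v h 0 0 = a := rfl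

@[simp] theorem ofCol_one_zero (a c u v : ℤ) (h : u * a + v * c = 1) :
    ofCol a c u v h 1 0 = c := rfl

theorem exists_col {a c : ℤ} (h : IsCoprime a c) : ∃ g : SL(2, ℤ), g 0 0 = a ∧ g 1 0 = c := by
  obtain ⟨u, v, huv⟩ := h
  exact ⟨ofCol a c u v huv, rfl, rfl⟩

theorem isCoprime_col (g : SL(2, ℤ)) : IsCoprime (g 0 0) (g 1 0) := by
  refine ⟨g 1 1, - g 0 1, ?_⟩
  have := g.det_coe
  rw [Matrix.det_fin_two] at this
  linarith

theorem S_mul_zero_zero (g : SL(2, ℤ)) : (ModularGroup.S * g) 0 0 = - g 1 0 := by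
  rw [Matrix.SpecialLinearGroup.coe_mul, ModularGroup.coe_S]
  simp [Matrix.mul_apply, Fin.sum_univ_two]

theorem S_mul_one_zero (g : SL(2, ℤ)) : (ModularGroup.S * g) 1 0 = g 0 0 := by
  rw [Matrix.SpecialLinearGroup.coe_mul, ModularGroup.coe_S]
  simp [Matrix.mul_apply, Fin.sum_univ_two]

theorem T_mul_zero_zero (g : SL(2, ℤ)) : (ModularGroup.T * g) 0 0 = g 0 0 + g 1 0 := by
  rw [Matrix.SpecialLinearGroup.coe_mul, ModularGroup.coe_T]
  simp [Matrix.mul_apply, Fin.sum_univ_two]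

theorem T_mul_one_zero (g : SL(2, ℤ)) : (ModularGroup.T * g) 1 0 = g 1 0 := by
  rw [Matrix.SpecialLinearGroup.coe_mul, ModularGroup.coe_T]
  simp [Matrix.mul_apply, Fin.sum_univ_two]

theorem T_zpow_mul_zero_zero (n : ℤ) (g : SL(2, ℤ)) :
    (ModularGroup.T ^ n * g) 0 0 = g 0 0 + n * g 1 0 := by
  rw [Matrix.SpecialLinearGroup.coe_mul, ModularGroup.coe_T_zpow]
  simp [Matrix.mul_apply, Fin.sum_univ_two]

theorem T_zpow_mul_one_zero (n : ℤ) (g : SL(2, ℤ)) :
    (ModularGroup.T ^ n * g) 1 0 = g 1 0 := by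
  rw [Matrix.SpecialLinearGroup.coe_mul, ModularGroup.coe_T_zpow]
  simp [Matrix.mul_apply, Fin.sum_univ_two]

/-- Counting a quotient by a complete invariant. -/
theorem card_quotient_eq_card_range {G : Type*} [Group G] (H : Subgroup G) {α : Type*}
    (f : G → α) (hf : ∀ x y, f x = f y ↔ x⁻¹ * y ∈ H) :
    Nat.card (G ⧸ H) = Nat.card (Set.range f) := by
  let F : G ⧸ H → Set.range f :=
    Quotient.lift (fun x => (⟨f x, x, rfl⟩ : Set.range f)) (by
      intro a b hab
      have : a⁻¹ * b ∈ H := QuotientGroup.leftRel_apply.mp hab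
      exact Subtype.ext ((hf a b).mpr this))
  refine Nat.card_eq_of_bijective F ⟨?_, ?_⟩
  · intro x y
    induction x using QuotientGroup.induction_on with | _ x => ?_
    induction y using QuotientGroup.induction_on with | _ y => ?_
    intro hxy
    have h1 : f x = f y := congrArg Subtype.val hxy
    exact QuotientGroup.eq.mpr ((hf x y).mp h1)
  · rintro ⟨_, x, rfl⟩
    exact ⟨(x : G ⧸ H), rfl⟩

end Fermat.Agent.S20.Count
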